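import Fermat.Agent.S53.TestSub

/-!
S53 sub-lemma L6a (dual-number detection).
-/

set_option autoImplicit false

namespace Fermat.Agent.S53

open IsLocalRing

section Dual

variable (𝒪 : Type) [CommRing 𝒪] [IsLocalRing 𝒪]

/-- The `𝒪`-algebra structure on `k[ε]` used in the prelude's `GaloisRep.TangentFinite`
(must stay syntactically this term). -/
@[reducible] noncomputable def dualAlg : Algebra 𝒪 (DualNumber (ResidueField 𝒪)) :=
  ((algebraMap (ResidueField 𝒪) (DualNumber (ResidueField 𝒪))).comp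
    (algebraMap 𝒪 (ResidueField 𝒪))).toAlgebra

lemma dualAlg_algebraMap_apply (c : 𝒪) :
    letI := dualAlg 𝒪
    algebraMap 𝒪 (DualNumber (ResidueField 𝒪)) c = TrivSqZeroExt.inl (residue 𝒪 c) := rfl

lemma dual_mem_maximalIdeal_iff {K : Type*} [Field K] (x : DualNumber K) :
    x ∈ maximalIdeal (DualNumber K) ↔ x.fst = 0 := by
  rw [mem_maximalIdeal, mem_nonunits_iff, TrivSqZeroExt.isUnit_iff_isUnit_fst, isUnit_iff_ne_zero,
    not_not]

/-- (D1) `k[ε]` is a test algebra. -/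
theorem testAlg_dual : letI := dualAlg 𝒪; TestAlg 𝒪 (DualNumber (ResidueField 𝒪)) := by
  letI := dualAlg 𝒪
  refine ⟨⟨fun c hc => ?_⟩, ?_⟩
  · rw [dualAlg_algebraMap_apply, TrivSqZeroExt.isUnit_inl_iff] at hc
    by_contra h
    have : residue 𝒪 c = 0 := (residue_eq_zero_iff c).mpr h
    rw [this] at hc
    exact not_isUnit_zero hc
  · intro y
    obtain ⟨x, rfl⟩ := residue_surjective y
    obtain ⟨c, hc⟩ := residue_surjective x.fst
    refine ⟨c, ?_⟩
    show residue _ (algebraMap 𝒪 (DualNumber (ResidueField 𝒪)) c) = residue _ x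
    rw [← sub_eq_zero, ← map_sub, residue_eq_zero_iff, dual_mem_maximalIdeal_iff,
      dualAlg_algebraMap_apply, TrivSqZeroExt.fst_sub, TrivSqZeroExt.fst_inl, hc, sub_self]

/-- (D2) -/
theorem finite_dual [Finite (ResidueField 𝒪)] : Finite (DualNumber (ResidueField 𝒪)) :=
  inferInstanceAs (Finite (ResidueField 𝒪 × ResidueField 𝒪))

/-- (D3) the two natural maps `k → ResidueField k[ε]` agree. -/
theorem dual_resMap_eq :
    letI := dualAlg 𝒪
    letI := testAlg_dual 𝒪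
    ResidueField.map (algebraMap 𝒪 (DualNumber (ResidueField 𝒪))) =
      (residue (DualNumber (ResidueField 𝒪))).comp
        (algebraMap (ResidueField 𝒪) (DualNumber (ResidueField 𝒪))) := by
  letI := dualAlg 𝒪
  letI := testAlg_dual 𝒪
  ext x
  obtain ⟨c, rfl⟩ := residue_surjective x
  rw [ResidueField.map_residue]
  rfl

variable {𝒪}

omit [IsLocalRing 𝒪] in
/-- Auxiliary: elements of `𝔪 ^ n` are congruent modulo `𝔪 ^ (n+1)` to elements of `T' ∩ 𝔪 ^ n`. -/
lemma dual_aux_pow {T : Type} [CommRing T] [IsLocalRing T] [Algebra 𝒪 T]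
    (T' : Subalgebra 𝒪 T)
    (h : ∀ x : T, ∃ y ∈ T', x - y ∈ maximalIdeal T ^ 2) (n : ℕ) :
    ∀ w ∈ maximalIdeal T ^ (n + 1), ∃ y ∈ T', y ∈ maximalIdeal T ^ (n + 1) ∧
      w - y ∈ maximalIdeal T ^ (n + 2) := by
  have hbase : ∀ x ∈ maximalIdeal T, ∃ y ∈ T', y ∈ maximalIdeal T ∧
      x - y ∈ maximalIdeal T ^ 2 := by
    intro x hx
    obtain ⟨y, hy, hxy⟩ := h x
    refine ⟨y, hy, ?_, hxy⟩
    have h2 : x - y ∈ maximalIdeal T := Ideal.pow_le_self two_ne_zero hxy
    have : y = x - (x - y) := by ring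
    rw [this]
    exact (maximalIdeal T).sub_mem hx h2
  induction n with
  | zero =>
    intro w hw
    rw [zero_add, pow_one] at hw
    obtain ⟨y, hy, hym, hxy⟩ := hbase w hw
    exact ⟨y, hy, by rwa [zero_add, pow_one], hxy⟩
  | succ n ih =>
    intro w hw
    rw [pow_succ] at hw
    refine Submodule.mul_induction_on hw ?_ ?_
    · intro a ha x hx
      obtain ⟨y', hy', hy'm, hay'⟩ := ih a ha
      obtain ⟨y, hy, hym, hxy⟩ := hbase x hx
      refine ⟨y' * y, T'.mul_mem hy' hy, ?_, ?_⟩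
      · rw [pow_succ]
        exact Ideal.mul_mem_mul hy'm hym
      · have e : a * x - y' * y = (a - y') * x + y' * (x - y) := by ring
        rw [e]
        refine Ideal.add_mem _ ?_ ?_
        · have := Ideal.mul_mem_mul hay' hx
          rwa [← pow_succ] at this
        · have := Ideal.mul_mem_mul hy'm hxy
          rwa [← pow_add] at this
    · intro w1 w2 ⟨y1, hy1, hy1m, h1⟩ ⟨y2, hy2, hy2m, h2⟩
      refine ⟨y1 + y2, T'.add_mem hy1 hy2, Ideal.add_mem _ hy1m hy2m, ?_⟩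
      have e : w1 + w2 - (y1 + y2) = (w1 - y1) + (w2 - y2) := by ring
      rw [e]
      exact Ideal.add_mem _ h1 h2

/-- (D4) Nakayama-type step: a subalgebra `T'` of a finite test algebra `T` with
`T' + 𝔪_T ^ 2 = T` is everything. -/
theorem subalgebra_eq_top_of_sup_sq {T : Type} [CommRing T] [IsLocalRing T] [Algebra 𝒪 T]
    [TestAlg 𝒪 T] [Finite T] (T' : Subalgebra 𝒪 T)
    (h : ∀ x : T, ∃ y ∈ T', x - y ∈ maximalIdeal T ^ 2) : T' = ⊤ := by
  have hV : ∀ n : ℕ, ∀ x : T, ∃ y ∈ T', x - y ∈ maximalIdeal T ^ (n + 1) := by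
    intro n
    induction n with
    | zero =>
      intro x
      obtain ⟨y, hy, hxy⟩ := h x
      exact ⟨y, hy, Ideal.pow_le_pow_right (by norm_num) hxy⟩
    | succ n ih =>
      intro x
      obtain ⟨y, hy, hxy⟩ := ih x
      obtain ⟨y', hy', -, hy'2⟩ := dual_aux_pow T' h n (x - y) hxy
      refine ⟨y + y', T'.add_mem hy hy', ?_⟩
      have e : x - (y + y') = x - y - y' := by ring
      rw [e]
      exact hy'2
  have hnil : IsNilpotent (maximalIdeal T) := by
    have := IsArtinianRing.isNilpotent_jacobson_bot (R := T)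
    rwa [IsLocalRing.jacobson_eq_maximalIdeal (⊥ : Ideal T) bot_ne_top] at this
  obtain ⟨N, hN⟩ := hnil
  rw [eq_top_iff]
  intro x _
  obtain ⟨y, hy, hxy⟩ := hV N x
  have : x - y ∈ maximalIdeal T ^ N := Ideal.pow_le_pow_right (Nat.le_succ N) hxy
  rw [hN] at this
  have hxy0 : x - y = 0 := this
  rw [sub_eq_zero] at hxy0
  rw [hxy0]
  exact hy

/-- (D5) dual-number detection: a proper subalgebra of a finite test algebra is not detected by
maps to the dual numbers. -/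
theorem exists_dual_ne {T : Type} [CommRing T] [IsLocalRing T] [Algebra 𝒪 T] [TestAlg 𝒪 T]
    [Finite T] (T' : Subalgebra 𝒪 T) (hT' : T' ≠ ⊤) :
    letI := dualAlg 𝒪
    ∃ ψ₁ ψ₂ : T →ₐ[𝒪] DualNumber (ResidueField 𝒪), ψ₁ ≠ ψ₂ ∧ ∀ x ∈ T', ψ₁ x = ψ₂ x := by
  letI := dualAlg 𝒪
  classical
  -- the proper submodule `W = T' + 𝔪²`
  set W : Submodule 𝒪 T :=
    Subalgebra.toSubmodule T' ⊔ (maximalIdeal T ^ 2).restrictScalars 𝒪 with hW
  have hWne : W ≠ ⊤ := by
    intro htop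
    apply hT'
    apply subalgebra_eq_top_of_sup_sq T'
    intro x
    have hx : x ∈ W := by rw [htop]; trivial
    obtain ⟨y, hy, z, hz, rfl⟩ := Submodule.mem_sup.mp hx
    refine ⟨y, hy, ?_⟩
    have : y + z - y = z := by ring
    rw [this]
    exact hz
  haveI : IsNoetherian 𝒪 T := isNoetherian_of_finite 𝒪 T
  obtain ⟨𝔟, h𝔟, hW𝔟⟩ := (eq_top_or_exists_le_coatom W).resolve_left hWne
  haveI hsimple : IsSimpleModule 𝒪 (T ⧸ 𝔟) := isSimpleModule_iff_isCoatom.mpr h𝔟
  obtain ⟨I, hI, ⟨e⟩⟩ := isSimpleModule_iff_quot_maximal.mp hsimple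
  obtain rfl : I = maximalIdeal 𝒪 := IsLocalRing.eq_maximalIdeal hI
  -- the functional
  let e' : (T ⧸ 𝔟) ≃ₗ[𝒪] ResidueField 𝒪 := e
  let lam : T →ₗ[𝒪] ResidueField 𝒪 := (e' : (T ⧸ 𝔟) →ₗ[𝒪] ResidueField 𝒪) ∘ₗ 𝔟.mkQ
  have hlamW : ∀ x ∈ W, lam x = 0 := by
    intro x hx
    show e' (𝔟.mkQ x) = 0
    rw [Submodule.mkQ_apply, (Submodule.Quotient.mk_eq_zero 𝔟).mpr (hW𝔟 hx), map_zero]
  have hlamT' : ∀ x ∈ T', lam x = 0 := fun x hx =>
    hlamW x (Submodule.mem_sup_left hx)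
  have hlamsq : ∀ x ∈ maximalIdeal T ^ 2, lam x = 0 := fun x hx =>
    hlamW x (Submodule.mem_sup_right hx)
  obtain ⟨x₀, hx₀⟩ : ∃ x₀, lam x₀ = 1 := by
    obtain ⟨q, hq⟩ := e'.surjective (1 : ResidueField 𝒪)
    obtain ⟨x, rfl⟩ := 𝔟.mkQ_surjective q
    exact ⟨x, hq⟩
  have hlamsmul : ∀ (c : 𝒪) (x : T), lam (algebraMap 𝒪 T c * x) = residue 𝒪 c * lam x := by
    intro c x
    rw [← Algebra.smul_def, map_smul, Algebra.smul_def, ResidueField.algebraMap_eq]
  have htoKalg : ∀ c : 𝒪, toK 𝒪 T (algebraMap 𝒪 T c) = residue 𝒪 c := by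
    intro c
    rw [AlgHom.commutes, ResidueField.algebraMap_eq]
  have hkey : ∀ x y : T, lam (x * y) = toK 𝒪 T x * lam y + lam x * toK 𝒪 T y := by
    intro x y
    obtain ⟨c, hc⟩ := exists_sub_mem (𝒪 := 𝒪) x
    obtain ⟨c', hc'⟩ := exists_sub_mem (𝒪 := 𝒪) y
    have hx : toK 𝒪 T x = residue 𝒪 c := by
      have := (toK_eq_zero_iff (𝒪 := 𝒪) _).mpr hc
      rw [map_sub, sub_eq_zero] at this
      rw [this, htoKalg]
    have hy : toK 𝒪 T y = residue 𝒪 c' := by
      have := (toK_eq_zero_iff (𝒪 := 𝒪) _).mpr hc'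
      rw [map_sub, sub_eq_zero] at this
      rw [this, htoKalg]
    have hlx : lam x = lam (x - algebraMap 𝒪 T c) := by
      rw [map_sub, hlamT' _ (T'.algebraMap_mem c), sub_zero]
    have hly : lam y = lam (y - algebraMap 𝒪 T c') := by
      rw [map_sub, hlamT' _ (T'.algebraMap_mem c'), sub_zero]
    have e1 : x * y = algebraMap 𝒪 T (c * c') + algebraMap 𝒪 T c * (y - algebraMap 𝒪 T c')
        + algebraMap 𝒪 T c' * (x - algebraMap 𝒪 T c)
        + (x - algebraMap 𝒪 T c) * (y - algebraMap 𝒪 T c') := by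
      rw [map_mul]; ring
    have hmm : (x - algebraMap 𝒪 T c) * (y - algebraMap 𝒪 T c') ∈ maximalIdeal T ^ 2 := by
      rw [pow_two]
      exact Ideal.mul_mem_mul hc hc'
    rw [e1, map_add, map_add, map_add, hlamT' _ (T'.algebraMap_mem _), hlamsmul, hlamsmul,
      hlamsq _ hmm, hx, hy, ← hlx, ← hly]
    ring
  -- the two homomorphisms
  let ψ₂ : T →ₐ[𝒪] DualNumber (ResidueField 𝒪) :=
    { toFun := fun x => TrivSqZeroExt.inl (toK 𝒪 T x)
      map_one' := by rw [map_one]; rfl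
      map_mul' := fun x y => by rw [map_mul, TrivSqZeroExt.inl_mul]
      map_zero' := by rw [map_zero, TrivSqZeroExt.inl_zero]
      map_add' := fun x y => by rw [map_add, TrivSqZeroExt.inl_add]
      commutes' := fun c => by
        show TrivSqZeroExt.inl (toK 𝒪 T (algebraMap 𝒪 T c)) = TrivSqZeroExt.inl (residue 𝒪 c)
        rw [htoKalg] }
  let ψ₁ : T →ₐ[𝒪] DualNumber (ResidueField 𝒪) :=
    { toFun := fun x => TrivSqZeroExt.inl (toK 𝒪 T x) + TrivSqZeroExt.inr (lam x)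
      map_one' := by
        rw [map_one, hlamT' 1 T'.one_mem, TrivSqZeroExt.inr_zero, add_zero]; rfl
      map_mul' := fun x y => by
        rw [hkey, map_mul]
        ext
        · simp
        · simp [mul_comm]
      map_zero' := by
        rw [map_zero, map_zero, TrivSqZeroExt.inl_zero, TrivSqZeroExt.inr_zero, add_zero]
      map_add' := fun x y => by
        rw [map_add, map_add, TrivSqZeroExt.inl_add, TrivSqZeroExt.inr_add]
        abel
      commutes' := fun c => by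
        show TrivSqZeroExt.inl (toK 𝒪 T (algebraMap 𝒪 T c)) +
          TrivSqZeroExt.inr (lam (algebraMap 𝒪 T c)) = TrivSqZeroExt.inl (residue 𝒪 c)
        rw [htoKalg, hlamT' _ (T'.algebraMap_mem c), TrivSqZeroExt.inr_zero, add_zero] }
  refine ⟨ψ₁, ψ₂, ?_, ?_⟩
  · intro heq
    have h1 := congrArg (fun ψ : T →ₐ[𝒪] DualNumber (ResidueField 𝒪) => (ψ x₀).snd) heq
    have h2 : (ψ₁ x₀).snd = lam x₀ := by
      show (TrivSqZeroExt.inl (toK 𝒪 T x₀) + TrivSqZeroExt.inr (lam x₀)).snd = lam x₀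
      simp
    have h3 : (ψ₂ x₀).snd = 0 := by
      show (TrivSqZeroExt.inl (toK 𝒪 T x₀) : DualNumber (ResidueField 𝒪)).snd = 0
      simp
    rw [h2, h3, hx₀] at h1
    exact one_ne_zero h1
  · intro x hx
    show TrivSqZeroExt.inl (toK 𝒪 T x) + TrivSqZeroExt.inr (lam x) = TrivSqZeroExt.inl (toK 𝒪 T x)
    rw [hlamT' x hx, TrivSqZeroExt.inr_zero, add_zero]

end Dual

end Fermat.Agent.S53
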