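import Fermat.Agent.S53.Dict2

/-!
S53 sub-lemma L6c (finite separating set of Galois elements from `TangentFinite`).
-/

set_option autoImplicit false

namespace Fermat.Agent.S53

open IsLocalRing

/-- A finite set of functions can be separated by finitely many points. -/
theorem exists_finset_separating {X Y : Type*} (T : Set (X → Y)) (hT : T.Finite) :
    ∃ H : Finset X, ∀ t ∈ T, ∀ t' ∈ T, (∀ h ∈ H, t h = t' h) → t = t' := by
  classical
  by_cases hX : Nonempty X
  · obtain ⟨x₀⟩ := hX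
    let sep : (X → Y) → (X → Y) → X := fun t t' =>
      if h : t ≠ t' then Classical.choose (Function.ne_iff.mp h) else x₀
    have hsep : ∀ t t' : X → Y, t ≠ t' → t (sep t t') ≠ t' (sep t t') := by
      intro t t' h
      simp only [sep, dif_pos h]
      exact Classical.choose_spec (Function.ne_iff.mp h)
    refine ⟨(hT.toFinset ×ˢ hT.toFinset).image (fun p => sep p.1 p.2), ?_⟩
    intro t ht t' ht' hag
    by_contra hne
    refine hsep t t' hne (hag _ ?_)
    rw [Finset.mem_image]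
    exact ⟨(t, t'), by simp [ht, ht'], rfl⟩
  · refine ⟨∅, fun t _ t' _ _ => ?_⟩
    funext x
    exact absurd ⟨x⟩ hX

/-- From finiteness of the tangent space: there is a finite set `H` of Galois elements such that
two `𝒟`-deformations of `ρbar` to `k[ε]` whose traces agree on `H` have the same traces
everywhere. -/
theorem exists_separating_finset
    (𝒪 : Type) [CommRing 𝒪] [IsLocalRing 𝒪]
    (ρbar : ResidualGaloisRep (ResidueField 𝒪))
    (𝒟 : ∀ ⦃A : Type⦄ [CommRing A] [IsLocalRing A] [Algebra 𝒪 A], GaloisRepAdic A → Prop)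
    (hfin : GaloisRep.TangentFinite 𝒪 ρbar 𝒟) :
    letI : Algebra 𝒪 (DualNumber (ResidueField 𝒪)) :=
      ((algebraMap (ResidueField 𝒪) (DualNumber (ResidueField 𝒪))).comp
        (algebraMap 𝒪 (ResidueField 𝒪))).toAlgebra
    letI : Algebra (ResidueField 𝒪) (ResidueField (DualNumber (ResidueField 𝒪))) :=
      ((IsLocalRing.residue (DualNumber (ResidueField 𝒪))).comp
        (algebraMap (ResidueField 𝒪) (DualNumber (ResidueField 𝒪)))).toAlgebra
    ∃ H : Finset Gal, ∀ ρ ρ' : GaloisRepAdic (DualNumber (ResidueField 𝒪)),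
      𝒟 ρ → ρ.residual.IsEquiv (ρbar.baseChange (ResidueField (DualNumber (ResidueField 𝒪)))) →
      𝒟 ρ' → ρ'.residual.IsEquiv (ρbar.baseChange (ResidueField (DualNumber (ResidueField 𝒪)))) →
      (∀ h ∈ H, ρ.trace h = ρ'.trace h) → ∀ g, ρ.trace g = ρ'.trace g := by
  let i1 : Algebra 𝒪 (DualNumber (ResidueField 𝒪)) :=
    ((algebraMap (ResidueField 𝒪) (DualNumber (ResidueField 𝒪))).comp
      (algebraMap 𝒪 (ResidueField 𝒪))).toAlgebra
  let i2 : Algebra (ResidueField 𝒪) (ResidueField (DualNumber (ResidueField 𝒪))) :=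
    ((IsLocalRing.residue (DualNumber (ResidueField 𝒪))).comp
      (algebraMap (ResidueField 𝒪) (DualNumber (ResidueField 𝒪)))).toAlgebra
  show ∃ H : Finset Gal, ∀ ρ ρ' : GaloisRepAdic (DualNumber (ResidueField 𝒪)),
      𝒟 ρ → ρ.residual.IsEquiv (ρbar.baseChange (ResidueField (DualNumber (ResidueField 𝒪)))) →
      𝒟 ρ' → ρ'.residual.IsEquiv (ρbar.baseChange (ResidueField (DualNumber (ResidueField 𝒪)))) →
      (∀ h ∈ H, ρ.trace h = ρ'.trace h) → ∀ g, ρ.trace g = ρ'.trace g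
  -- the type of tangent vectors and its setoid
  let D : Type 1 := {ρ : GaloisRepAdic (DualNumber (ResidueField 𝒪)) //
      𝒟 ρ ∧ ρ.residual.IsEquiv (ρbar.baseChange (ResidueField (DualNumber (ResidueField 𝒪))))}
  let s : Setoid D := ⟨fun ρ ρ' => ρ.1.IsEquiv ρ'.1, ⟨fun ρ => ⟨GaloisRepAdic.Equiv.refl ρ.1⟩,
        fun ⟨e⟩ => ⟨e.symm⟩, fun ⟨e⟩ ⟨e'⟩ => ⟨e.trans e'⟩⟩⟩
  have hfin' : Finite (Quotient s) := hfin
  let tr : D → (Gal → DualNumber (ResidueField 𝒪)) := fun ρ g => ρ.1.trace g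
  have htr : ∀ a b : D, s.r a b → tr a = tr b := by
    intro a b hab
    funext g
    exact trace_eq_of_isEquiv hab g
  let trq : Quotient s → (Gal → DualNumber (ResidueField 𝒪)) := Quotient.lift tr htr
  have hT : (Set.range trq).Finite := Set.finite_range trq
  obtain ⟨H, hH⟩ := exists_finset_separating (Set.range trq) hT
  refine ⟨H, fun ρ ρ' h1 h2 h1' h2' hag g => ?_⟩
  have e1 : tr ⟨ρ, h1, h2⟩ ∈ Set.range trq := ⟨Quotient.mk s ⟨ρ, h1, h2⟩, rfl⟩
  have e2 : tr ⟨ρ', h1', h2'⟩ ∈ Set.range trq := ⟨Quotient.mk s ⟨ρ', h1', h2'⟩, rfl⟩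
  have := hH _ e1 _ e2 hag
  exact congrFun this g

end Fermat.Agent.S53
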