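import Fermat.Agent.S53.Rigid
import Fermat.Agent.S53.Separate
import Fermat.Agent.S53.Dual

/-!
S53 contract B: the tangent lemma and the existence of a `Setup`.
Statements exactly as in `NOTES/S53_CB_statement.lean.txt`.
-/

set_option autoImplicit false
set_option linter.unusedSectionVars false

namespace Fermat.Agent.S53

open IsLocalRing

namespace TangentAux

lemma trace_mapMat {A B : Type} [CommRing A] [IsLocalRing A] [CommRing B] [IsLocalRing B]
    (φ : A →+* B) (r : Gal →* M2 A) (σ : Gal) :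
    Matrix.trace (mapMat φ r σ) = φ (Matrix.trace (r σ)) := by
  simp only [Matrix.trace, Matrix.diag, Fin.sum_univ_two, mapMat_apply, map_add]

end TangentAux

section

variable {𝒪 : Type} [CommRing 𝒪] [IsLocalRing 𝒪] [Finite (ResidueField 𝒪)]
variable {ρbar : ResidualGaloisRep (ResidueField 𝒪)}
variable {𝒟 : ∀ ⦃A : Type⦄ [CommRing A] [IsLocalRing A] [Algebra 𝒪 A], GaloisRepAdic A → Prop}

/-- (B1) Tangent lemma: finitely many Galois elements whose traces generate the trace algebra of
every `𝒟`-lift over every finite test algebra. -/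
theorem exists_trace_generators (h𝒟 : GaloisRep.IsDeformationCondition 𝒪 𝒟)
    (hfin : GaloisRep.TangentFinite 𝒪 ρbar 𝒟)
    (bb : Module.Basis (Fin 2) (ResidueField 𝒪) ρbar.V)
    (g : Fin 4 → Gal) (hg : (gram (fun i => rbar ρbar bb (g i))).det ≠ 0) :
    ∃ (d : ℕ) (h : Fin d → Gal),
      ∀ (A : Type) [CommRing A] [IsLocalRing A] [Algebra 𝒪 A] [TestAlg 𝒪 A] [Finite A]
        (r : Gal →* M2 A), IsDLift ρbar bb 𝒟 r →
        ∀ σ, Matrix.trace (r σ) ∈
          Algebra.adjoin 𝒪 (Set.range fun i => Matrix.trace (r (h i))) := by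
  classical
  obtain ⟨H, hH⟩ := exists_separating_finset 𝒪 ρbar 𝒟 hfin
  refine ⟨H.card, fun i => (H.equivFin.symm i : Gal), ?_⟩
  intro A _ _ _ _ _ r hr σ
  -- descend to the trace algebra
  obtain ⟨T, hT⟩ : ∃ T : Subalgebra 𝒪 A,
      T = Algebra.adjoin 𝒪 (Set.range fun σ => Matrix.trace (r σ)) := ⟨_, rfl⟩
  obtain ⟨rT, hrT, htr⟩ := IsDLift.descend h𝒟 hr g hg T
    (fun σ => hT ▸ Algebra.subset_adjoin ⟨σ, rfl⟩)
  -- `T` is generated by the traces of `rT`
  have hgenT : Algebra.adjoin 𝒪 (Set.range fun σ => Matrix.trace (rT σ)) =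
      (⊤ : Subalgebra 𝒪 T) := by
    apply Subalgebra.map_injective (f := T.val) Subtype.val_injective
    rw [AlgHom.map_adjoin, Algebra.map_top, Subalgebra.range_val, ← Set.range_comp]
    have : (T.val ∘ fun σ => Matrix.trace (rT σ)) = fun σ => Matrix.trace (r σ) := by
      funext σ
      exact htr σ
    rw [this, hT]
  -- the subalgebra generated by the traces at `H`
  have htop : Algebra.adjoin 𝒪
      (Set.range fun i : Fin H.card => Matrix.trace (rT (H.equivFin.symm i : Gal))) =
      (⊤ : Subalgebra 𝒪 T) := by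
    by_contra hne
    let _ := dualAlg 𝒪
    have := testAlg_dual 𝒪
    have := finite_dual 𝒪
    obtain ⟨ψ₁, ψ₂, hψne, hψeq⟩ := exists_dual_ne _ hne
    apply hψne
    have h1 := hrT.map h𝒟 ψ₁
    have h2 := hrT.map h𝒟 ψ₂
    have hres : ∀ (r' : Gal →* M2 (DualNumber (ResidueField 𝒪)))
        (hr' : IsDLift ρbar bb 𝒟 r'),
        (ofMat r' hr'.cont).residual.IsEquiv
          (ρbar.baseChangeAlong ((residue (DualNumber (ResidueField 𝒪))).comp
            (algebraMap (ResidueField 𝒪) (DualNumber (ResidueField 𝒪))))) := by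
      intro r' hr'
      have := residual_ofMat ρbar bb r' hr'.cont hr'.lift
      rwa [dual_resMap_eq] at this
    have key : ∀ σ, ψ₁ (Matrix.trace (rT σ)) = ψ₂ (Matrix.trace (rT σ)) := by
      intro σ
      have hagree : ∀ h ∈ H, (ofMat _ h1.cont).trace h = (ofMat _ h2.cont).trace h := by
        intro h hh
        show LinearMap.trace _ _ _ = LinearMap.trace _ _ _
        rw [trace_ofMat, trace_ofMat, TangentAux.trace_mapMat, TangentAux.trace_mapMat]
        apply hψeq
        apply Algebra.subset_adjoin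
        exact ⟨H.equivFin ⟨h, hh⟩, by simp⟩
      have := hH (ofMat _ h1.cont) (ofMat _ h2.cont) h1.isD (hres _ h1) h2.isD (hres _ h2)
        hagree σ
      rw [GaloisRepAdic.trace, GaloisRepAdic.trace, trace_ofMat, trace_ofMat,
        TangentAux.trace_mapMat, TangentAux.trace_mapMat] at this
      exact this
    exact AlgHom.ext_of_adjoin_eq_top hgenT (by rintro _ ⟨σ, rfl⟩; exact key σ)
  have hmem : Matrix.trace (rT σ) ∈ Algebra.adjoin 𝒪
      (Set.range fun i : Fin H.card => Matrix.trace (rT (H.equivFin.symm i : Gal))) := by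
    rw [htop]
    trivial
  have hmap : T.val (Matrix.trace (rT σ)) ∈ (Algebra.adjoin 𝒪
      (Set.range fun i : Fin H.card => Matrix.trace (rT (H.equivFin.symm i : Gal)))).map T.val :=
    Subalgebra.mem_map.mpr ⟨_, hmem, rfl⟩
  rw [AlgHom.map_adjoin, ← Set.range_comp] at hmap
  have e : (T.val ∘ fun i : Fin H.card => Matrix.trace (rT (H.equivFin.symm i : Gal))) =
      fun i : Fin H.card => Matrix.trace (r (H.equivFin.symm i : Gal)) := by
    funext i
    exact htr _
  rw [e] at hmap
  have e2 : T.val (Matrix.trace (rT σ)) = Matrix.trace (r σ) := htr σ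
  rw [e2] at hmap
  exact hmap

/-- (B2) A `Setup` exists. -/
theorem exists_setup (habs : ρbar.IsAbsolutelyIrreducible)
    (h𝒟 : GaloisRep.IsDeformationCondition 𝒪 𝒟)
    (hbar : 𝒟 (GaloisRepAdic.ofResidualGaloisRep ρbar))
    (hfin : GaloisRep.TangentFinite 𝒪 ρbar 𝒟) : Nonempty (Setup 𝒪 ρbar 𝒟) := by
  let bb : Module.Basis (Fin 2) (ResidueField 𝒪) ρbar.V :=
    Module.finBasisOfFinrankEq _ _ ρbar.finrank_eq
  obtain ⟨g, hg⟩ := exists_gram_ne_zero ρbar habs bb
  obtain ⟨d, h, hgen⟩ := exists_trace_generators h𝒟 hfin bb g hg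
  have hτ : ∀ i, ∃ c : 𝒪, residue 𝒪 c = Matrix.trace (rbar ρbar bb (h i)) :=
    fun i => residue_surjective _
  choose τ hτ using hτ
  exact ⟨⟨bb, g, hg, d, h, τ, hτ, h𝒟, hbar, hgen⟩⟩

end

end Fermat.Agent.S53
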