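import Fermat.Agent.S53.UnivAux

/-!
S53 contract E2 (existence half of universality).
Statement exactly as in `NOTES/S53_E2_statement.lean.txt`.
-/

set_option autoImplicit false
set_option linter.unusedSectionVars false
set_option linter.style.haveILetI false

namespace Fermat.Agent.S53

open IsLocalRing

noncomputable section

variable {𝒪 : Type} [CommRing 𝒪] [IsLocalRing 𝒪] [IsNoetherianRing 𝒪]
  [IsAdicComplete (maximalIdeal 𝒪) 𝒪] [Finite (ResidueField 𝒪)]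
variable {ρbar : ResidualGaloisRep (ResidueField 𝒪)}
variable {𝒟 : ∀ ⦃A : Type⦄ [CommRing A] [IsLocalRing A] [Algebra 𝒪 A], GaloisRepAdic A → Prop}
variable (S : Setup 𝒪 ρbar 𝒟)

variable (A : Type) [CommRing A] [IsLocalRing A] [IsNoetherianRing A]
  [IsAdicComplete (maximalIdeal A) A] [Algebra 𝒪 A] [IsLocalHom (algebraMap 𝒪 A)]

namespace UnivExistsAux

/-- The reduction of a lift of a `𝒟`-deformation over a complete ring to a level is a
`𝒟`-lift. -/
lemma isDLift_level [TestAlg 𝒪 A]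
    (hsurj : Function.Surjective (IsLocalRing.residue A ∘ algebraMap 𝒪 A))
    (ρA : GaloisRepAdic A) (hDA : 𝒟 ρA)
    (rA : Gal →* M2 A) (hcA : MatCont rA) (hlA : IsLift ρbar S.bb rA)
    (heA : (ofMat rA hcA).IsEquiv ρA) (n : ℕ) :
    haveI : Finite (A ⧸ maximalIdeal A ^ (n + 1)) := finite_quot_pow 𝒪 A (n + 1)
    IsDLift (A := A ⧸ maximalIdeal A ^ (n + 1)) ρbar S.bb 𝒟
      (mapMat ((Ideal.Quotient.mkₐ 𝒪 (maximalIdeal A ^ (n + 1)) :
        A →ₐ[𝒪] A ⧸ maximalIdeal A ^ (n + 1)) : A →+* A ⧸ maximalIdeal A ^ (n + 1)) rA) := by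
  haveI : Finite (A ⧸ maximalIdeal A ^ (n + 1)) := finite_quot_pow 𝒪 A (n + 1)
  set mkn : A →ₐ[𝒪] A ⧸ maximalIdeal A ^ (n + 1) :=
    Ideal.Quotient.mkₐ 𝒪 (maximalIdeal A ^ (n + 1)) with hmkn
  have hloc : IsLocalHom (mkn : A →+* A ⧸ maximalIdeal A ^ (n + 1)) := isLocalHom_algHom mkn
  refine ⟨mapMat_cont _ hloc hcA, (isLift_mapMat_iff ρbar S.bb mkn rA).mpr hlA, ?_⟩
  have h1 : 𝒟 (ρA.baseChangeAlong (mkn : A →+* A ⧸ maximalIdeal A ^ (n + 1)) hloc) :=
    (S.h𝒟.iff_forall_surjective inferInstance hsurj ρA).mp hDA isArtinianTest mkn hloc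
      (Ideal.Quotient.mkₐ_surjective 𝒪 _)
  obtain ⟨eA⟩ := heA
  have h2 : 𝒟 ((ofMat rA hcA).baseChangeAlong (mkn : A →+* A ⧸ maximalIdeal A ^ (n + 1)) hloc) :=
    S.h𝒟.of_isEquiv isArtinianTest ⟨(eA.baseChangeAlong _ hloc).symm⟩ h1
  exact S.h𝒟.of_isEquiv isArtinianTest (baseChangeAlong_ofMat _ hloc rA hcA) h2

end UnivExistsAux

/-- (E2) existence -/
theorem Setup.univ_exists {r : Gal →* M2 S.R} (hr : S.IsUnivLift r)
    (hsurj : Function.Surjective (IsLocalRing.residue A ∘ algebraMap 𝒪 A))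
    (ρA : GaloisRepAdic A) (hDA : 𝒟 ρA)
    (hres : ρA.residual.IsEquiv
      (ρbar.baseChangeAlong (IsLocalRing.ResidueField.map (algebraMap 𝒪 A)))) :
    ∃ φ : S.R →ₐ[𝒪] A, ∃ hφ : IsLocalHom (φ : S.R →+* A),
      ((ofMat r hr.cont).baseChangeAlong (φ : S.R →+* A) hφ).IsEquiv ρA := by
  haveI : TestAlg 𝒪 A := ⟨inferInstance, hsurj⟩
  obtain ⟨rA, hcA, hlA, heA⟩ := exists_lift ρbar S.bb ρA hres
  haveI hfinA : ∀ n : ℕ, Finite (A ⧸ maximalIdeal A ^ (n + 1)) :=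
    fun n => finite_quot_pow 𝒪 A (n + 1)
  have hDn := fun n : ℕ => UnivExistsAux.isDLift_level S A hsurj ρA hDA rA hcA hlA heA n
  -- the classifying maps of the levels
  have hcl : ∀ n : ℕ, ∃ φ' : S.R →ₐ[𝒪] A ⧸ maximalIdeal A ^ (n + 1),
      ∀ i, φ' (S.x i) = Ideal.Quotient.mk (maximalIdeal A ^ (n + 1)) (S.t rA i) := by
    intro n
    obtain ⟨φ', hφ'⟩ := S.exists_classifying
      { A := A ⧸ maximalIdeal A ^ (n + 1)
        r := mapMat ((Ideal.Quotient.mkₐ 𝒪 (maximalIdeal A ^ (n + 1)) :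
          A →ₐ[𝒪] A ⧸ maximalIdeal A ^ (n + 1)) : A →+* A ⧸ maximalIdeal A ^ (n + 1)) rA
        isL := hDn n }
    refine ⟨φ', fun i => ?_⟩
    rw [hφ' i]
    exact S.t_mapMat (Ideal.Quotient.mkₐ 𝒪 (maximalIdeal A ^ (n + 1))) rA i
  choose φ' hφ' using hcl
  -- the compatible family
  let f : ∀ n : ℕ, S.R →ₐ[𝒪] A ⧸ maximalIdeal A ^ n := fun n =>
    (Ideal.Quotient.factorₐ 𝒪 (Ideal.pow_le_pow_right n.le_succ)).comp (φ' n)
  have hfx : ∀ (n : ℕ) (i : Fin S.d),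
      f n (S.x i) = Ideal.Quotient.mk (maximalIdeal A ^ n) (S.t rA i) := by
    intro n i
    show Ideal.Quotient.factorₐ 𝒪 (Ideal.pow_le_pow_right n.le_succ) (φ' n (S.x i)) = _
    rw [hφ' n i]
    rfl
  have hcompat : ∀ {m n : ℕ} (hle : m ≤ n),
      (Ideal.Quotient.factorₐ 𝒪 (Ideal.pow_le_pow_right hle)).comp (f n) = f m := by
    intro m n hle
    cases m with
    | zero =>
      haveI : Subsingleton (A ⧸ maximalIdeal A ^ 0) := by
        rw [pow_zero, Ideal.one_eq_top]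
        exact Ideal.Quotient.subsingleton_iff.mpr rfl
      exact AlgHom.ext fun y => Subsingleton.elim _ _
    | succ m =>
      apply S.algHom_ext_R (exists_pow_eq_bot (A := A ⧸ maximalIdeal A ^ (m + 1)))
      intro i
      rw [AlgHom.comp_apply, hfx, hfx]
      rfl
  let φ : S.R →ₐ[𝒪] A := IsAdicComplete.liftAlgHom (maximalIdeal A) f hcompat
  have hφmk : ∀ (n : ℕ) (y : S.R), Ideal.Quotient.mk (maximalIdeal A ^ n) (φ y) = f n y :=
    fun n y => IsAdicComplete.mk_liftAlgHom (maximalIdeal A) f hcompat n y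
  have hφloc : IsLocalHom (φ : S.R →+* A) := isLocalHom_algHom φ
  -- traces agree at every level
  have htrn : ∀ (n : ℕ) (σ : Gal),
      Ideal.Quotient.mk (maximalIdeal A ^ (n + 1)) (φ (Matrix.trace (r σ))) =
        Ideal.Quotient.mk (maximalIdeal A ^ (n + 1)) (Matrix.trace (rA σ)) := by
    intro n σ
    let ψ : S.R →ₐ[𝒪] A ⧸ maximalIdeal A ^ (n + 1) :=
      (Ideal.Quotient.mkₐ 𝒪 (maximalIdeal A ^ (n + 1))).comp φ
    have h1 : IsDLift (A := A ⧸ maximalIdeal A ^ (n + 1)) ρbar S.bb 𝒟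
        (mapMat (ψ : S.R →+* A ⧸ maximalIdeal A ^ (n + 1)) r) := hr.isDLift_mapMat ψ
    have heq : ∀ i, Matrix.trace (mapMat (ψ : S.R →+* A ⧸ maximalIdeal A ^ (n + 1)) r (S.h i)) =
        Matrix.trace (mapMat ((Ideal.Quotient.mkₐ 𝒪 (maximalIdeal A ^ (n + 1)) :
          A →ₐ[𝒪] A ⧸ maximalIdeal A ^ (n + 1)) : A →+* A ⧸ maximalIdeal A ^ (n + 1)) rA
            (S.h i)) := by
      intro i
      have e1 : S.t (mapMat (ψ : S.R →+* A ⧸ maximalIdeal A ^ (n + 1)) r) i =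
          S.t (mapMat ((Ideal.Quotient.mkₐ 𝒪 (maximalIdeal A ^ (n + 1)) :
          A →ₐ[𝒪] A ⧸ maximalIdeal A ^ (n + 1)) : A →+* A ⧸ maximalIdeal A ^ (n + 1)) rA) i := by
        rw [S.t_mapMat ψ r i, S.t_mapMat _ rA i, hr.tr_h i]
        show Ideal.Quotient.mk (maximalIdeal A ^ (n + 1)) (φ (S.x i)) = _
        rw [hφmk, hfx]
        rfl
      simpa only [Setup.t, sub_left_inj] using e1
    have := S.rigid h1 (hDn n) heq σ
    rw [trace_mapMat, trace_mapMat] at this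
    exact this
  have htr : ∀ σ : Gal, φ (Matrix.trace (r σ)) = Matrix.trace (rA σ) := by
    intro σ
    rw [← sub_eq_zero]
    have hmem : φ (Matrix.trace (r σ)) - Matrix.trace (rA σ) ∈
        (⨅ i : ℕ, maximalIdeal A ^ i : Ideal A) := by
      rw [Ideal.mem_iInf]
      intro n
      have h2 := htrn n σ
      rw [← sub_eq_zero, ← map_sub, Ideal.Quotient.eq_zero_iff_mem] at h2
      exact Ideal.pow_le_pow_right n.le_succ h2
    rw [Ideal.iInf_pow_eq_bot_of_isLocalRing _ (maximalIdeal.isMaximal A).ne_top] at hmem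
    exact hmem
  -- conjugacy
  have hlφ : IsLift ρbar S.bb (mapMat (φ : S.R →+* A) r) :=
    (isLift_mapMat_iff ρbar S.bb φ r).mpr hr.lift
  have hcφ : MatCont (mapMat (φ : S.R →+* A) r) := mapMat_cont _ hφloc hr.cont
  obtain ⟨u, hu, hconj⟩ := conj_of_trace_eq (mapMat (φ : S.R →+* A) r) rA S.g
    (isUnit_gram_det ρbar S.bb _ hlφ S.g S.hg)
    (fun σ => by rw [trace_mapMat]; exact htr σ)
  refine ⟨φ, hφloc, ?_⟩
  exact isEquiv_trans (baseChangeAlong_ofMat _ hφloc r hr.cont)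
    (isEquiv_trans (isEquiv_of_conj hcφ hcA u hu hconj) heA)

end

end Fermat.Agent.S53
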