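import Mathlib

/-!
S53 sub-lemma L8a (limit of a compatible system of matrix representations).
Statements exactly as in `NOTES/S53_L8a_statement.lean.txt`.  Mathlib only.
-/

set_option autoImplicit false

namespace Fermat.Agent.S53

open IsLocalRing

namespace LimitAux

/-- `x ≡ y` modulo `I ^ n • ⊤` iff the classes in `R ⧸ I ^ n` agree. -/
theorem smodEq_iff_mk_eq {R : Type*} [CommRing R] (I : Ideal R) (n : ℕ) (x y : R) :
    x ≡ y [SMOD (I ^ n • ⊤ : Submodule R R)] ↔
      Ideal.Quotient.mk (I ^ n) x = Ideal.Quotient.mk (I ^ n) y := by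
  rw [SModEq.sub_mem, Ideal.Quotient.eq, smul_eq_mul, Ideal.mul_top]

/-- a compatible family of classes has a limit in a precomplete ring -/
theorem exists_limit_elt {R : Type*} [CommRing R] (I : Ideal R) [IsPrecomplete I R]
    (c : ∀ n : ℕ, R ⧸ I ^ n)
    (hc : ∀ n : ℕ, Ideal.Quotient.factor (Ideal.pow_le_pow_right n.le_succ) (c (n + 1)) = c n) :
    ∃ L : R, ∀ n : ℕ, Ideal.Quotient.mk (I ^ n) L = c n := by
  choose f hf using fun n => Ideal.Quotient.mk_surjective (c n)
  have hstep : ∀ n : ℕ, Ideal.Quotient.mk (I ^ n) (f (n + 1)) = Ideal.Quotient.mk (I ^ n) (f n) := by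
    intro n
    have h1 := hc n
    rw [← hf (n + 1), Ideal.Quotient.factor_mk] at h1
    rw [h1, hf n]
  have hmono : ∀ m k : ℕ, Ideal.Quotient.mk (I ^ m) (f (m + k)) = Ideal.Quotient.mk (I ^ m) (f m) := by
    intro m k
    induction k with
    | zero => rfl
    | succ k ih =>
      rw [← ih, ← add_assoc]
      have h2 := hstep (m + k)
      rw [Ideal.Quotient.eq] at h2 ⊢
      exact Ideal.pow_le_pow_right (Nat.le_add_right m k) h2
  obtain ⟨L, hL⟩ := IsPrecomplete.prec (I := I) (M := R) inferInstance (f := f) (by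
    intro m n hmn
    obtain ⟨k, rfl⟩ := Nat.exists_eq_add_of_le hmn
    rw [smodEq_iff_mk_eq]
    exact (hmono m k).symm)
  refine ⟨L, fun n => ?_⟩
  have := hL n
  rw [smodEq_iff_mk_eq] at this
  rw [← this, hf n]

end LimitAux

/-- Hausdorff: a matrix map is determined by its reductions. -/
theorem rep_ext_of_quot {R : Type*} [CommRing R] [IsLocalRing R]
    [IsHausdorff (maximalIdeal R) R] {G : Type*} [Monoid G]
    (r r' : G →* Matrix (Fin 2) (Fin 2) R)
    (h : ∀ (n : ℕ) (σ : G) (i j : Fin 2),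
      Ideal.Quotient.mk (maximalIdeal R ^ n) (r σ i j) =
        Ideal.Quotient.mk (maximalIdeal R ^ n) (r' σ i j)) : r = r' := by
  ext σ i j
  rw [IsHausdorff.eq_iff_smodEq (I := maximalIdeal R)]
  intro n
  rw [LimitAux.smodEq_iff_mk_eq]
  exact h n σ i j

/-- A compatible system of multiplicative maps `G → M₂(R/𝔪^n)` over a complete local ring comes
from a unique multiplicative map `G → M₂(R)`. -/
theorem exists_limit_rep {R : Type*} [CommRing R] [IsLocalRing R]
    [IsAdicComplete (maximalIdeal R) R] {G : Type*} [Monoid G]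
    (s : ∀ n : ℕ, G →* Matrix (Fin 2) (Fin 2) (R ⧸ maximalIdeal R ^ n))
    (hs : ∀ (n : ℕ) (σ : G) (i j : Fin 2),
      Ideal.Quotient.factor (Ideal.pow_le_pow_right n.le_succ) (s (n + 1) σ i j) = s n σ i j) :
    ∃ r : G →* Matrix (Fin 2) (Fin 2) R,
      ∀ (n : ℕ) (σ : G) (i j : Fin 2), Ideal.Quotient.mk (maximalIdeal R ^ n) (r σ i j) = s n σ i j := by
  choose L hL using fun (σ : G) (i j : Fin 2) =>
    LimitAux.exists_limit_elt (maximalIdeal R) (fun n => s n σ i j) (fun n => hs n σ i j)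
  -- entrywise reduction of the matrix `L σ`
  have hmap : ∀ (n : ℕ) (σ : G),
      (Ideal.Quotient.mk (maximalIdeal R ^ n)).mapMatrix (Matrix.of (L σ)) = s n σ := by
    intro n σ
    ext i j
    simp [hL]
  have hext : ∀ A B : Matrix (Fin 2) (Fin 2) R,
      (∀ n : ℕ, (Ideal.Quotient.mk (maximalIdeal R ^ n)).mapMatrix A =
        (Ideal.Quotient.mk (maximalIdeal R ^ n)).mapMatrix B) → A = B := by
    intro A B hAB
    ext i j
    rw [IsHausdorff.eq_iff_smodEq (I := maximalIdeal R)]
    intro n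
    rw [LimitAux.smodEq_iff_mk_eq]
    have := congrFun (congrFun (hAB n) i) j
    simpa using this
  refine ⟨{ toFun := fun σ => Matrix.of (L σ), map_one' := ?_, map_mul' := ?_ }, ?_⟩
  · apply hext
    intro n
    rw [hmap, map_one, map_one]
  · intro σ τ
    apply hext
    intro n
    rw [map_mul, hmap, hmap, hmap, map_mul]
  · intro n σ i j
    exact hL σ i j n

/-- Units lift along `R/𝔪^(n+1) → R/𝔪^n` for matrices (n ≥ 1). -/
theorem exists_unit_lift {R : Type*} [CommRing R] [IsLocalRing R] (n : ℕ) (hn : 1 ≤ n)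
    (u : Matrix (Fin 2) (Fin 2) (R ⧸ maximalIdeal R ^ n)) (hu : IsUnit u) :
    ∃ v : Matrix (Fin 2) (Fin 2) (R ⧸ maximalIdeal R ^ (n + 1)), IsUnit v ∧
      ∀ i j, Ideal.Quotient.factor (Ideal.pow_le_pow_right n.le_succ) (v i j) = u i j := by
  have hsurj : Function.Surjective
      (Ideal.Quotient.factor (Ideal.pow_le_pow_right (I := maximalIdeal R) n.le_succ)) :=
    Ideal.Quotient.factor_surjective _
  choose v hv using fun i j => hsurj (u i j)
  have hne : ∀ k : ℕ, 1 ≤ k → maximalIdeal R ^ k ≠ ⊤ := by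
    intro k hk h
    have h1 : maximalIdeal R ^ k ≤ maximalIdeal R := Ideal.pow_le_self (by omega)
    rw [h] at h1
    exact (IsLocalRing.maximalIdeal.isMaximal R).ne_top (top_le_iff.mp h1)
  have : Nontrivial (R ⧸ maximalIdeal R ^ n) := Ideal.Quotient.nontrivial_iff.mpr (hne n hn)
  have : Nontrivial (R ⧸ maximalIdeal R ^ (n + 1)) :=
    Ideal.Quotient.nontrivial_iff.mpr (hne (n + 1) (by omega))
  have : IsLocalRing (R ⧸ maximalIdeal R ^ (n + 1)) :=
    IsLocalRing.of_surjective' (Ideal.Quotient.mk _) Ideal.Quotient.mk_surjective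
  have hloc : IsLocalHom
      (Ideal.Quotient.factor (Ideal.pow_le_pow_right (I := maximalIdeal R) n.le_succ)) :=
    IsLocalHom.of_surjective _ hsurj
  refine ⟨Matrix.of v, ?_, fun i j => hv i j⟩
  rw [Matrix.isUnit_iff_isUnit_det] at hu ⊢
  apply hloc.map_nonunit
  have : (Ideal.Quotient.factor (Ideal.pow_le_pow_right (I := maximalIdeal R) n.le_succ)).mapMatrix
      (Matrix.of v) = u := by
    ext i j
    simp [hv]
  rw [RingHom.map_det, this]
  exact hu

end Fermat.Agent.S53
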