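import Fermat.Agent.S53.Base

/-!
S53 contract A: descent of a `𝒟`-lift to a subalgebra containing the traces, and rigidity.
Statements exactly as in `NOTES/S53_CA_statement.lean.txt`.
-/

set_option autoImplicit false
set_option linter.unusedSectionVars false

namespace Fermat.Agent.S53

open IsLocalRing

namespace RigidAux

/-- conjugation of a multiplicative map by a unit -/
noncomputable def conjHom {A : Type} [CommRing A] (U : (M2 A)ˣ) (r : Gal →* M2 A) :
    Gal →* M2 A where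
  toFun σ := ((U⁻¹ : (M2 A)ˣ) : M2 A) * r σ * (U : M2 A)
  map_one' := by rw [map_one, mul_one, Units.inv_mul]
  map_mul' σ τ := by
    rw [map_mul]
    calc ((U⁻¹ : (M2 A)ˣ) : M2 A) * (r σ * r τ) * (U : M2 A)
        = ((U⁻¹ : (M2 A)ˣ) : M2 A) * r σ * ((U : M2 A) * ((U⁻¹ : (M2 A)ˣ) : M2 A)) * r τ
            * (U : M2 A) := by rw [Units.mul_inv, mul_one]; simp only [mul_assoc]
      _ = ((U⁻¹ : (M2 A)ˣ) : M2 A) * r σ * (U : M2 A) *
            (((U⁻¹ : (M2 A)ˣ) : M2 A) * r τ * (U : M2 A)) := by simp only [mul_assoc]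

lemma conjHom_apply {A : Type} [CommRing A] (U : (M2 A)ˣ) (r : Gal →* M2 A) (σ : Gal) :
    conjHom U r σ = ((U⁻¹ : (M2 A)ˣ) : M2 A) * r σ * (U : M2 A) := rfl

lemma trace_conjHom {A : Type} [CommRing A] (U : (M2 A)ˣ) (r : Gal →* M2 A) (σ : Gal) :
    Matrix.trace (conjHom U r σ) = Matrix.trace (r σ) := by
  rw [conjHom_apply, Matrix.trace_mul_comm, ← mul_assoc, Units.mul_inv, one_mul]

end RigidAux

section

variable {𝒪 : Type} [CommRing 𝒪] [IsLocalRing 𝒪]
variable {ρbar : ResidualGaloisRep (ResidueField 𝒪)}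
variable {bb : Module.Basis (Fin 2) (ResidueField 𝒪) ρbar.V}
variable {𝒟 : ∀ ⦃A : Type⦄ [CommRing A] [IsLocalRing A] [Algebra 𝒪 A], GaloisRepAdic A → Prop}
variable {A : Type} [CommRing A] [IsLocalRing A] [Algebra 𝒪 A] [TestAlg 𝒪 A] [Finite A]

open RigidAux in
/-- (A1) Descent: a `𝒟`-lift over a finite test algebra `A` whose traces lie in the subalgebra `T`
is conjugate to (the image of) a `𝒟`-lift over `T`; in particular the traces agree. -/
theorem IsDLift.descend (h𝒟 : GaloisRep.IsDeformationCondition 𝒪 𝒟)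
    {r : Gal →* M2 A} (h : IsDLift ρbar bb 𝒟 r)
    (g : Fin 4 → Gal) (hg : (gram (fun i => rbar ρbar bb (g i))).det ≠ 0)
    (T : Subalgebra 𝒪 A) (hT : ∀ σ, Matrix.trace (r σ) ∈ T) :
    ∃ rT : Gal →* M2 T, IsDLift ρbar bb 𝒟 rT ∧
      ∀ σ, ((Matrix.trace (rT σ) : T) : A) = Matrix.trace (r σ) := by
  classical
  have hl := h.lift
  have hlK := (isLift_iff_toK ρbar bb r).mp hl
  have hgram : IsUnit (gram (fun i => r (g i))).det := isUnit_gram_det ρbar bb r hl g hg
  -- the residual combinations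
  have hres : ∀ a b : Fin 2, ∃ c : Fin 4 → A, (∀ i, c i ∈ T.toSubring) ∧
      ∀ a' b', (∑ i, c i • r (g i)) a' b' - (Matrix.single a b (1 : A)) a' b'
        ∈ IsLocalRing.maximalIdeal A := by
    intro a b
    obtain ⟨cbar, hcbar⟩ := exists_comb_eq (fun i => rbar ρbar bb (g i))
      (isUnit_iff_ne_zero.mpr hg) (Matrix.single a b (1 : ResidueField 𝒪))
    choose ct hct using fun i => residue_surjective (R := 𝒪) (cbar i)
    refine ⟨fun i => algebraMap 𝒪 A (ct i), fun i => T.algebraMap_mem (ct i), fun a' b' => ?_⟩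
    rw [← toK_eq_zero_iff (𝒪 := 𝒪), map_sub, sub_eq_zero]
    have h1 : toK 𝒪 A ((∑ i, algebraMap 𝒪 A (ct i) • r (g i)) a' b') =
        (∑ i, cbar i • rbar ρbar bb (g i)) a' b' := by
      simp only [Matrix.sum_apply, Matrix.smul_apply, smul_eq_mul, map_sum, map_mul,
        AlgHom.commutes, ResidueField.algebraMap_eq, hct, hlK]
    rw [h1, hcbar]
    simp only [Matrix.single_apply]
    split_ifs <;> simp
  obtain ⟨u, hudet, hu1, huT⟩ := descent T.toSubring r g hT hgram hres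
  have huu : IsUnit u := (Matrix.isUnit_iff_isUnit_det u).mpr hudet
  obtain ⟨U, rfl⟩ := huu
  have hUinv : ((U⁻¹ : (M2 A)ˣ) : M2 A) = (U : M2 A)⁻¹ := Matrix.coe_units_inv U
  -- reduction of `U` and `U⁻¹`
  have hmapU : (toK 𝒪 A : A →+* ResidueField 𝒪).mapMatrix (U : M2 A) = 1 := by
    ext i j
    have := hu1 i j
    rw [← toK_eq_zero_iff (𝒪 := 𝒪), Matrix.sub_apply, map_sub, sub_eq_zero] at this
    rw [RingHom.mapMatrix_apply, Matrix.map_apply, RingHom.coe_coe, this, Matrix.one_apply,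
      Matrix.one_apply]
    split_ifs <;> simp
  have hmapUinv : (toK 𝒪 A : A →+* ResidueField 𝒪).mapMatrix ((U⁻¹ : (M2 A)ˣ) : M2 A) = 1 := by
    have h2 : (toK 𝒪 A : A →+* ResidueField 𝒪).mapMatrix ((U⁻¹ : (M2 A)ˣ) : M2 A) *
        (toK 𝒪 A : A →+* ResidueField 𝒪).mapMatrix (U : M2 A) = 1 := by
      rw [← map_mul, Units.inv_mul, map_one]
    rwa [hmapU, mul_one] at h2
  -- the conjugate representation
  have hl₁ : IsLift ρbar bb (conjHom U r) := by
    rw [isLift_iff_toK]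
    intro σ i j
    have h3 : (toK 𝒪 A : A →+* ResidueField 𝒪).mapMatrix (conjHom U r σ) =
        (toK 𝒪 A : A →+* ResidueField 𝒪).mapMatrix (r σ) := by
      rw [conjHom_apply, map_mul, map_mul, hmapU, hmapUinv, one_mul, mul_one]
    have h4 := congrFun (congrFun h3 i) j
    simp only [RingHom.mapMatrix_apply, Matrix.map_apply, RingHom.coe_coe] at h4
    rw [h4, hlK]
  have hD₁ : IsDLift ρbar bb 𝒟 (conjHom U r) := by
    refine IsDLift.of_conj h𝒟 h hl₁ ((U⁻¹ : (M2 A)ˣ) : M2 A) (U⁻¹).isUnit fun σ => ?_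
    rw [conjHom_apply, mul_assoc, mul_assoc, Units.mul_inv, mul_one]
  have hmem : ∀ σ i j, conjHom U r σ i j ∈ T := by
    intro σ i j
    have := huT σ i j
    rw [← hUinv] at this
    exact this
  refine ⟨liftToSub T (conjHom U r) hmem, ?_, fun σ => ?_⟩
  · apply IsDLift.of_map_injective h𝒟 T.val Subtype.val_injective
    rw [mapMat_liftToSub]
    exact hD₁
  · rw [trace_liftToSub, trace_conjHom]

/-- (A2) Rigidity: two `𝒟`-lifts over the same finite test algebra whose traces agree at the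
`h i` have the same traces. -/
theorem Setup.rigid (S : Setup 𝒪 ρbar 𝒟) {r r' : Gal →* M2 A}
    (h : IsDLift ρbar S.bb 𝒟 r) (h' : IsDLift ρbar S.bb 𝒟 r')
    (heq : ∀ i, Matrix.trace (r (S.h i)) = Matrix.trace (r' (S.h i))) (σ : Gal) :
    Matrix.trace (r σ) = Matrix.trace (r' σ) := by
  classical
  have hJ : IsDLift (A := fib 𝒪 A A) ρbar S.bb 𝒟 (jointLift (𝒪 := 𝒪) r r' h.lift h'.lift) :=
    IsDLift.joint S.h𝒟 h h'
  have hgen := S.gen (fib 𝒪 A A) (jointLift (𝒪 := 𝒪) r r' h.lift h'.lift) hJ σ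
  -- the diagonal subalgebra
  have hle : Algebra.adjoin 𝒪 (Set.range fun i =>
      Matrix.trace (jointLift (𝒪 := 𝒪) r r' h.lift h'.lift (S.h i))) ≤
      AlgHom.equalizer (fibFst 𝒪 A A) (fibSnd 𝒪 A A) := by
    rw [Algebra.adjoin_le_iff]
    rintro _ ⟨i, rfl⟩
    show fibFst 𝒪 A A _ = fibSnd 𝒪 A A _
    rw [fibFst_apply, fibSnd_apply, trace_jointLift]
    exact heq i
  have := hle hgen
  have h2 : fibFst 𝒪 A A (Matrix.trace (jointLift (𝒪 := 𝒪) r r' h.lift h'.lift σ)) =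
      fibSnd 𝒪 A A (Matrix.trace (jointLift (𝒪 := 𝒪) r r' h.lift h'.lift σ)) := this
  rw [fibFst_apply, fibSnd_apply, trace_jointLift] at h2
  exact h2

/-- (A3) Rigidity, conjugacy form (A2 + `conj_of_trace_eq` + `isUnit_gram_det`). -/
theorem Setup.rigid_conj (S : Setup 𝒪 ρbar 𝒟) {r r' : Gal →* M2 A}
    (h : IsDLift ρbar S.bb 𝒟 r) (h' : IsDLift ρbar S.bb 𝒟 r')
    (heq : ∀ i, Matrix.trace (r (S.h i)) = Matrix.trace (r' (S.h i))) :
    ∃ u : M2 A, IsUnit u ∧ ∀ σ, u * r σ = r' σ * u :=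
  conj_of_trace_eq r r' S.g (isUnit_gram_det ρbar S.bb r h.lift S.g S.hg)
    (fun σ => S.rigid h h' heq σ)

end

end Fermat.Agent.S53
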