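import Fermat.Agent.S53.Level
import Fermat.Agent.S53.Limit
import Fermat.Agent.S53.Rigid

/-!
# S53 contract D: the universal lift

`Setup.exists_univLift`: there is a universal lift `r : Gal →* M2 R`, obtained as the limit of a
compatible system of level lifts (contract C6), made compatible by rigidity (contract A) and
lifting of units (L8a).
-/

set_option autoImplicit false
set_option linter.unusedSectionVars false

namespace Fermat.Agent.S53

open IsLocalRing

noncomputable section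

namespace UnivLiftAux

section Generic

variable {𝒪 : Type} [CommRing 𝒪] [IsLocalRing 𝒪]
variable {ρbar : ResidualGaloisRep (ResidueField 𝒪)}
variable {𝒟 : ∀ ⦃A : Type⦄ [CommRing A] [IsLocalRing A] [Algebra 𝒪 A], GaloisRepAdic A → Prop}
variable (S : Setup 𝒪 ρbar 𝒟)
variable {A : Type} [CommRing A] [IsLocalRing A] [Algebra 𝒪 A] [TestAlg 𝒪 A] [Finite A]
variable {B : Type} [CommRing B] [IsLocalRing B] [Algebra 𝒪 B] [TestAlg 𝒪 B] [Finite B]

lemma trace_eq_of_t_eq {r r' : Gal →* M2 A}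
    (h : ∀ i, S.t r i = S.t r' i) (i : Fin S.d) :
    Matrix.trace (r (S.h i)) = Matrix.trace (r' (S.h i)) := by
  have := h i
  simp only [Setup.t] at this
  exact sub_left_injective this

lemma t_mapMat_gen (φ : B →ₐ[𝒪] A) (r : Gal →* M2 B) (i : Fin S.d) :
    S.t (mapMat (φ : B →+* A) r) i = φ (S.t r i) := by
  simp only [Setup.t, map_sub, AlgHom.commutes, Matrix.trace, Matrix.diag, map_sum, mapMat_apply,
    RingHom.coe_coe]

/-- units of `M₂` lift along `π` -/
def UnitsLift (π : B →+* A) : Prop :=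
  ∀ u : M2 A, IsUnit u → ∃ v : M2 B, IsUnit v ∧ ∀ i j, π (v i j) = u i j

/-- a `𝒟`-lift with prescribed `t`-values -/
structure DLiftWith (x : Fin S.d → A) where
  /-- the representation -/
  s : Gal →* M2 A
  isD : IsDLift ρbar S.bb 𝒟 s
  ht : ∀ i, S.t s i = x i

/-- One step, for a general map `π : B → A` of finite test algebras along which units of `M₂`
lift: a `𝒟`-lift over `B` can be conjugated so as to reduce to a given `𝒟`-lift over `A` with
the same `t`-values. -/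
lemma exists_step_gen (π : B →ₐ[𝒪] A) (hlift : UnitsLift (π : B →+* A))
    (x : Fin S.d → B) (L : DLiftWith S (fun i => π (x i))) (L₁ : DLiftWith S x) :
    ∃ L' : DLiftWith S x, mapMat (π : B →+* A) L'.s = L.s := by
  obtain ⟨s, hs, hts⟩ := L
  obtain ⟨s₁, hs₁, hts₁⟩ := L₁
  have hmap : IsDLift ρbar S.bb 𝒟 (mapMat (π : B →+* A) s₁) := IsDLift.map S.h𝒟 π hs₁
  have htr : ∀ i, Matrix.trace ((mapMat (π : B →+* A) s₁) (S.h i)) = Matrix.trace (s (S.h i)) := by
    apply trace_eq_of_t_eq S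
    intro i
    rw [t_mapMat_gen, hts₁ i, hts i]
  obtain ⟨u, hu, hconj⟩ := S.rigid_conj hmap hs htr
  obtain ⟨v, hv, hvu⟩ := hlift u hu
  obtain ⟨V, rfl⟩ := hv
  have hVu : (π : B →+* A).mapMatrix (V : M2 B) = u := by
    ext i j
    exact hvu i j
  obtain ⟨U, rfl⟩ := hu
  have hVinv : (π : B →+* A).mapMatrix ((V⁻¹ : (M2 B)ˣ) : M2 B) = ((U⁻¹ : (M2 A)ˣ) : M2 A) := by
    have h1 : (π : B →+* A).mapMatrix ((V⁻¹ : (M2 B)ˣ) : M2 B) * (U : M2 A) = 1 := by
      rw [← hVu, ← map_mul, Units.inv_mul, map_one]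
    exact (Units.eq_inv_of_mul_eq_one_right h1)
  obtain ⟨s', hs'⟩ : ∃ s' : Gal →* M2 B, s' = RigidAux.conjHom V⁻¹ s₁ := ⟨_, rfl⟩
  have hs'apply : ∀ σ, s' σ = (V : M2 B) * s₁ σ * ((V⁻¹ : (M2 B)ˣ) : M2 B) := by
    intro σ
    rw [hs', RigidAux.conjHom_apply, inv_inv]
  have hred : mapMat (π : B →+* A) s' = s := by
    ext σ : 1
    have h2 : (mapMat (π : B →+* A) s') σ = (π : B →+* A).mapMatrix (s' σ) := rfl
    have h3 : (π : B →+* A).mapMatrix (s₁ σ) = (mapMat (π : B →+* A) s₁) σ := rfl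
    rw [h2, hs'apply, map_mul, map_mul, hVu, hVinv, h3, hconj σ, mul_assoc, Units.mul_inv,
      mul_one]
  have hl' : IsLift ρbar S.bb s' := by
    rw [← isLift_mapMat_iff ρbar S.bb π s', hred]
    exact hs.lift
  have hD' : IsDLift ρbar S.bb 𝒟 s' := by
    refine IsDLift.of_conj S.h𝒟 hs₁ hl' (V : M2 B) V.isUnit fun σ => ?_
    rw [hs'apply, mul_assoc, Units.inv_mul, mul_one]
  refine ⟨⟨s', hD', fun i => ?_⟩, hred⟩
  rw [← hts₁ i]
  simp only [Setup.t, hs', RigidAux.trace_conjHom]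

end Generic

section Main

variable {𝒪 : Type} [CommRing 𝒪] [IsLocalRing 𝒪] [IsNoetherianRing 𝒪]
  [IsAdicComplete (maximalIdeal 𝒪) 𝒪] [Finite (ResidueField 𝒪)]
variable {ρbar : ResidualGaloisRep (ResidueField 𝒪)}
variable {𝒟 : ∀ ⦃A : Type⦄ [CommRing A] [IsLocalRing A] [Algebra 𝒪 A], GaloisRepAdic A → Prop}
variable (S : Setup 𝒪 ρbar 𝒟)

/-- the transition map `R/𝔪^(n+2) → R/𝔪^(n+1)` -/
def trans (n : ℕ) : S.Rn (n + 1) →ₐ[𝒪] S.Rn n :=
  Ideal.Quotient.factorₐ 𝒪 (Ideal.pow_le_pow_right (n + 1).le_succ)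

lemma trans_toRn (n : ℕ) (x : S.R) : trans S n (S.toRn (n + 1) x) = S.toRn n x := rfl

lemma trans_apply (n : ℕ) (x : S.Rn (n + 1)) :
    trans S n x = Ideal.Quotient.factor (Ideal.pow_le_pow_right (n + 1).le_succ) x := rfl

/-- A level lift. -/
abbrev LevelLift (n : ℕ) : Type :=
  DLiftWith (A := S.Rn n) S (fun i => S.toRn n (S.x i))

set_option maxHeartbeats 1000000 in
lemma exists_levelLift (n : ℕ) : Nonempty (LevelLift S n) := by
  obtain ⟨s, hs, ht⟩ := S.exists_level_lift n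
  exact ⟨⟨s, hs, ht⟩⟩

set_option maxHeartbeats 1000000 in
lemma unitsLift_trans (n : ℕ) :
    UnitsLift (A := S.Rn n) (B := S.Rn (n + 1)) (trans S n : S.Rn (n + 1) →+* S.Rn n) := by
  intro u hu
  exact exists_unit_lift (R := S.R) (n + 1) (by omega) u hu

lemma exists_levelLift_succ (n : ℕ) (L : LevelLift S n) :
    ∃ L' : LevelLift S (n + 1),
      mapMat (A := S.Rn (n + 1)) (B := S.Rn n) (trans S n : S.Rn (n + 1) →+* S.Rn n) L'.s = L.s := by
  obtain ⟨L₁⟩ := exists_levelLift S (n + 1)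
  have h := exists_step_gen (A := S.Rn n) (B := S.Rn (n + 1)) S (trans S n) (unitsLift_trans S n)
    (fun i => S.toRn (n + 1) (S.x i)) ⟨L.s, L.isD, L.ht⟩ L₁
  exact h

/-- a compatible sequence of level lifts -/
lemma exists_seq : ∃ seq : ∀ n : ℕ, LevelLift S n, ∀ n,
    mapMat (A := S.Rn (n + 1)) (B := S.Rn n) (trans S n : S.Rn (n + 1) →+* S.Rn n) (seq (n + 1)).s =
      (seq n).s := by
  classical
  choose f hf using exists_levelLift_succ S
  obtain ⟨L₀⟩ := exists_levelLift S 0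
  exact ⟨fun n => Nat.rec (motive := fun n => LevelLift S n) L₀ (fun n L => f n L) n,
    fun n => hf n _⟩

set_option maxHeartbeats 1000000 in
/-- reindexing: a family over all `R/𝔪^n` -/
lemma exists_reindex (seq : ∀ n : ℕ, LevelLift S n) :
    ∃ sh : ∀ n : ℕ, Gal →* Matrix (Fin 2) (Fin 2) (S.R ⧸ maximalIdeal S.R ^ n),
      ∀ (k : ℕ) (σ : Gal) (i j : Fin 2), sh (k + 1) σ i j = (seq k).s σ i j :=
  ⟨fun n => match n with
    | 0 => 1
    | (k + 1) => (seq k).s, fun _ _ _ _ => rfl⟩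

set_option maxHeartbeats 1000000 in
/-- the limit of a compatible sequence of level lifts -/
lemma exists_limit (seq : ∀ n : ℕ, LevelLift S n)
    (hseq : ∀ n, mapMat (A := S.Rn (n + 1)) (B := S.Rn n)
      (trans S n : S.Rn (n + 1) →+* S.Rn n) (seq (n + 1)).s = (seq n).s) :
    ∃ r : Gal →* M2 S.R, ∀ n : ℕ,
      mapMat (A := S.R) (B := S.Rn n) (S.toRn n : S.R →+* S.Rn n) r = (seq n).s := by
  have := S.R_isAdicComplete
  obtain ⟨sh, hsh0⟩ := exists_reindex S seq
  have hsh : ∀ (n : ℕ) (σ : Gal) (i j : Fin 2),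
      Ideal.Quotient.factor (Ideal.pow_le_pow_right n.le_succ) (sh (n + 1) σ i j) = sh n σ i j := by
    intro n σ i j
    cases n with
    | zero =>
      have : Subsingleton (S.R ⧸ maximalIdeal S.R ^ 0) := by
        rw [Ideal.Quotient.subsingleton_iff, pow_zero, Ideal.one_eq_top]
      exact Subsingleton.elim _ _
    | succ k =>
      rw [hsh0 (k + 1), hsh0 k, ← hseq k]
      rfl
  obtain ⟨r, hr⟩ := exists_limit_rep (R := S.R) sh hsh
  refine ⟨r, fun n => ?_⟩
  ext σ i j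
  have := hr (n + 1) σ i j
  rw [hsh0 n] at this
  exact this

/-- the `t`-values of the limit -/
lemma t_eq_of_levels (r : Gal →* M2 S.R) (seq : ∀ n : ℕ, LevelLift S n)
    (hrn : ∀ n : ℕ,
      mapMat (A := S.R) (B := S.Rn n) (S.toRn n : S.R →+* S.Rn n) r = (seq n).s) (i : Fin S.d)
    (k : ℕ) : S.toRn k (S.t r i) = S.toRn k (S.x i) := by
  have h1 := Setup.t_mapMat S (A := S.R) (B := S.Rn k) (S.toRn k) r i
  rw [← h1, hrn k]
  exact (seq k).ht i

/-- continuity of the limit -/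
lemma cont_of_levels (r : Gal →* M2 S.R) (seq : ∀ n : ℕ, LevelLift S n)
    (hrn : ∀ n : ℕ,
      mapMat (A := S.R) (B := S.Rn n) (S.toRn n : S.R →+* S.Rn n) r = (seq n).s) :
    MatCont r := by
  intro n
  cases n with
  | zero =>
    refine ⟨⊥, inferInstance, fun σ _ i j => ?_⟩
    rw [pow_zero, Ideal.one_eq_top]
    exact Submodule.mem_top
  | succ k =>
    obtain ⟨L, hL, h1⟩ := finLevel_of_matCont (A := S.Rn k) exists_pow_eq_bot (seq k).s
      (seq k).isD.cont
    refine ⟨L, hL, fun σ hσ i j => ?_⟩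
    have h2 := congrFun (congrFun (h1 σ hσ) i) j
    rw [← hrn k] at h2
    have h3 : S.toRn k ((r σ - 1) i j) = 0 := by
      rw [Matrix.sub_apply, map_sub, sub_eq_zero]
      refine Eq.trans h2 ?_
      simp only [Matrix.one_apply]
      split_ifs <;> simp
    exact Ideal.Quotient.eq_zero_iff_mem.mp h3

/-- the limit is a lift -/
lemma lift_of_levels (r : Gal →* M2 S.R) (seq : ∀ n : ℕ, LevelLift S n)
    (hrn : ∀ n : ℕ,
      mapMat (A := S.R) (B := S.Rn n) (S.toRn n : S.R →+* S.Rn n) r = (seq n).s) :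
    IsLift ρbar S.bb r := by
  have h1 := (isLift_mapMat_iff (A := S.R) (B := S.Rn 0) ρbar S.bb (S.toRn 0) r).mp
  apply h1
  rw [hrn 0]
  exact (seq 0).isD.lift

/-- the `t`-values of the limit, Hausdorff form -/
lemma t_eq_x_of_levels (r : Gal →* M2 S.R) (seq : ∀ n : ℕ, LevelLift S n)
    (hrn : ∀ n : ℕ,
      mapMat (A := S.R) (B := S.Rn n) (S.toRn n : S.R →+* S.Rn n) r = (seq n).s) (i : Fin S.d) :
    S.t r i = S.x i := by
  have := S.R_isAdicComplete
  rw [IsHausdorff.eq_iff_smodEq (I := maximalIdeal S.R)]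
  intro n
  rw [LimitAux.smodEq_iff_mk_eq]
  cases n with
  | zero =>
    have : Subsingleton (S.R ⧸ maximalIdeal S.R ^ 0) := by
      rw [Ideal.Quotient.subsingleton_iff, pow_zero, Ideal.one_eq_top]
    exact Subsingleton.elim _ _
  | succ k => exact t_eq_of_levels S r seq hrn i k

end Main

end UnivLiftAux

open UnivLiftAux

variable {𝒪 : Type} [CommRing 𝒪] [IsLocalRing 𝒪] [IsNoetherianRing 𝒪]
  [IsAdicComplete (maximalIdeal 𝒪) 𝒪] [Finite (ResidueField 𝒪)]
variable {ρbar : ResidualGaloisRep (ResidueField 𝒪)}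
variable {𝒟 : ∀ ⦃A : Type⦄ [CommRing A] [IsLocalRing A] [Algebra 𝒪 A], GaloisRepAdic A → Prop}
variable (S : Setup 𝒪 ρbar 𝒟)

/-- (D1) Contract D: the universal lift exists. -/
theorem Setup.exists_univLift : ∃ r : Gal →* M2 S.R, S.IsUnivLift r := by
  obtain ⟨seq, hseq⟩ := exists_seq S
  obtain ⟨r, hrn⟩ := exists_limit S seq hseq
  refine ⟨r, cont_of_levels S r seq hrn, lift_of_levels S r seq hrn,
    t_eq_x_of_levels S r seq hrn, fun n => ?_⟩
  rw [hrn n]
  exact (seq n).isD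

end

end Fermat.Agent.S53
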