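import Fermat.Agent.S53.UnivAux

/-!
# The universal lift satisfies `𝒟`; uniqueness of the classifying map (contracts E1, E3)
-/

set_option autoImplicit false
set_option linter.unusedSectionVars false
set_option linter.style.haveILetI false

namespace Fermat.Agent.S53

open IsLocalRing

noncomputable section

variable {𝒪 : Type} [CommRing 𝒪] [IsLocalRing 𝒪] [IsNoetherianRing 𝒪]
  [IsAdicComplete (maximalIdeal 𝒪) 𝒪] [Finite (ResidueField 𝒪)]
variable {ρbar : ResidualGaloisRep (ResidueField 𝒪)}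
variable {𝒟 : ∀ ⦃A : Type⦄ [CommRing A] [IsLocalRing A] [Algebra 𝒪 A], GaloisRepAdic A → Prop}
variable (S : Setup 𝒪 ρbar 𝒟)

/-- (E1) the universal lift satisfies `𝒟` (via `iff_forall_surjective`). -/
theorem Setup.univLift_isD {r : Gal →* M2 S.R} (hr : S.IsUnivLift r) :
    𝒟 (ofMat r hr.cont) := by
  haveI := S.R_isAdicComplete
  rw [S.h𝒟.iff_forall_surjective (A := S.R) inferInstance TestAlg.residue_surjective]
  intro B _ _ _ hB q hq hqs
  haveI : TestAlg 𝒪 B := ⟨hB.isLocalHom, hB.residue_surjective⟩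
  haveI := hB.isArtinian
  obtain ⟨N, hN⟩ : ∃ N : ℕ, maximalIdeal B ^ N = ⊥ := by
    have h : IsNilpotent (maximalIdeal B) :=
      (isArtinianRing_iff_isNilpotent_maximalIdeal B).mp inferInstance
    obtain ⟨N, hN⟩ := h
    exact ⟨N, hN⟩
  have hker : ∀ a ∈ maximalIdeal S.R ^ (N + 1), q a = 0 := fun a ha =>
    maximalIdeal_pow_le_ker q (N + 1) (by rw [pow_succ, hN]; exact Ideal.bot_mul _) ha
  haveI : Finite B := by
    refine Finite.of_surjective (Ideal.Quotient.liftₐ (maximalIdeal S.R ^ (N + 1)) q hker) ?_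
    intro b
    obtain ⟨a, rfl⟩ := hqs b
    exact ⟨Ideal.Quotient.mk _ a, rfl⟩
  have h2 := hr.isDLift_mapMat q
  exact S.h𝒟.of_isEquiv hB (isEquiv_symm (baseChangeAlong_ofMat (q : S.R →+* B) hq r hr.cont))
    h2.isD

section Univ

variable (A : Type) [CommRing A] [IsLocalRing A] [IsNoetherianRing A]
  [IsAdicComplete (maximalIdeal A) A] [Algebra 𝒪 A] [IsLocalHom (algebraMap 𝒪 A)]

/-- (E3) uniqueness -/
theorem Setup.univ_unique {r : Gal →* M2 S.R} (hr : S.IsUnivLift r)
    (hsurj : Function.Surjective (IsLocalRing.residue A ∘ algebraMap 𝒪 A))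
    (ρA : GaloisRepAdic A)
    (φ φ' : S.R →ₐ[𝒪] A) (hφ : IsLocalHom (φ : S.R →+* A)) (hφ' : IsLocalHom (φ' : S.R →+* A))
    (h : ((ofMat r hr.cont).baseChangeAlong (φ : S.R →+* A) hφ).IsEquiv ρA)
    (h' : ((ofMat r hr.cont).baseChangeAlong (φ' : S.R →+* A) hφ').IsEquiv ρA) : φ = φ' := by
  haveI : TestAlg 𝒪 A := ⟨inferInstance, hsurj⟩
  have htr : ∀ σ, φ (Matrix.trace (r σ)) = φ' (Matrix.trace (r σ)) := by
    intro σ
    have e1 := trace_eq_of_isEquiv h σ
    have e2 := trace_eq_of_isEquiv h' σ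
    rw [trace_baseChangeAlong, trace_ofMat] at e1 e2
    exact e1.trans e2.symm
  apply S.algHom_ext_R_hausdorff
  intro i
  rw [← hr.tr_h i, Setup.t, map_sub, map_sub, AlgHom.commutes, AlgHom.commutes]
  exact congrArg (· - _) (htr (S.h i))

end Univ

end

end Fermat.Agent.S53
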