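import Fermat.Agent.S53.Setup

/-!
# The residual representation is a `𝒟`-lift over `k`; the family `fam` is nonempty; `J ≠ ⊤`
-/

set_option autoImplicit false
set_option linter.unusedSectionVars false

namespace Fermat.Agent.S53

open IsLocalRing

noncomputable section

section Base

variable {𝒪 : Type} [CommRing 𝒪] [IsLocalRing 𝒪]
variable {ρbar : ResidualGaloisRep (ResidueField 𝒪)}
variable {𝒟 : ∀ ⦃A : Type⦄ [CommRing A] [IsLocalRing A] [Algebra 𝒪 A], GaloisRepAdic A → Prop}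

lemma toK_self (x : ResidueField 𝒪) : toK 𝒪 (ResidueField 𝒪) x = x :=
  (congrArg (fun f : ResidueField 𝒪 →ₐ[𝒪] ResidueField 𝒪 => f x)
    (algHom_eq_toK (AlgHom.id 𝒪 (ResidueField 𝒪)))).symm

lemma rbar_finLevel (bb : Module.Basis (Fin 2) (ResidueField 𝒪) ρbar.V) :
    GaloisFactorsThroughFiniteLevel (rbar ρbar bb) := by
  obtain ⟨L, hL, h1⟩ := ρbar.factorsThroughFiniteLevel
  refine ⟨L, hL, fun σ hσ => ?_⟩
  rw [rbar_apply, h1 σ hσ]
  exact LinearMap.toMatrix_one bb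

lemma isLift_rbar (bb : Module.Basis (Fin 2) (ResidueField 𝒪) ρbar.V) :
    IsLift ρbar bb (rbar ρbar bb) := by
  rw [isLift_iff_toK]
  intro σ i j
  exact toK_self _

lemma ofResidual_isEquiv_ofMat (bb : Module.Basis (Fin 2) (ResidueField 𝒪) ρbar.V)
    (hc : MatCont (rbar ρbar bb)) :
    (GaloisRepAdic.ofResidualGaloisRep ρbar).IsEquiv (ofMat (rbar ρbar bb) hc) := by
  refine ⟨⟨bb.equivFun, fun σ x => ?_⟩⟩
  show bb.equivFun (ρbar.ρ σ x) = (rbar ρbar bb σ).mulVec (bb.equivFun x)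
  rw [rbar_apply]
  exact (LinearMap.toMatrix_mulVec_repr bb bb (ρbar.ρ σ) x).symm

variable (S : Setup 𝒪 ρbar 𝒟)

theorem Setup.isDLift_rbar [Finite (ResidueField 𝒪)] :
    IsDLift ρbar S.bb 𝒟 (rbar ρbar S.bb) where
  cont := matCont_of_finLevel _ (rbar_finLevel S.bb)
  lift := isLift_rbar S.bb
  isD := S.h𝒟.of_isEquiv isArtinianTest (ofResidual_isEquiv_ofMat S.bb _) S.hbar

lemma Setup.t_rbar (i : Fin S.d) : S.t (rbar ρbar S.bb) i = 0 := by
  rw [Setup.t, ← S.hτ i, ResidueField.algebraMap_eq, sub_self]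

/-- The base datum `(k, rbar)`. -/
def Setup.baseDatum [Finite (ResidueField 𝒪)] : LiftDatum S where
  A := ResidueField 𝒪
  r := rbar ρbar S.bb
  isL := S.isDLift_rbar

/-- The images of the variables lie in the maximal ideal. -/
lemma Setup.t_mem {A : Type} [CommRing A] [IsLocalRing A] [Algebra 𝒪 A] [TestAlg 𝒪 A]
    {r : Gal →* M2 A} (hl : IsLift ρbar S.bb r) (i : Fin S.d) : S.t r i ∈ maximalIdeal A := by
  rw [isLift_iff_toK] at hl
  rw [← toK_eq_zero_iff (𝒪 := 𝒪), Setup.t, map_sub, AlgHom.commutes,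
    ResidueField.algebraMap_eq, S.hτ i]
  simp only [Matrix.trace, Matrix.diag, map_sum, hl, sub_self]

/-- Existence of the classifying map of a lift datum. -/
lemma Setup.exists_ev (D : LiftDatum S) :
    ∃ ev : S.P →ₐ[𝒪] D.A, (∀ i, ev (MvPowerSeries.X i) = S.t D.r i) ∧
      ev.range = Algebra.adjoin 𝒪 (Set.range (S.t D.r)) :=
  PS_exists_eval exists_pow_eq_bot (S.t D.r) (S.t_mem D.isL.lift)

lemma Setup.ker_ne_top {A : Type} [CommRing A] [IsLocalRing A] [Algebra 𝒪 A]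
    (ev : S.P →ₐ[𝒪] A) : RingHom.ker (ev : S.P →+* A) ≠ ⊤ :=
  RingHom.ker_ne_top _

lemma Setup.fam_nonempty [Finite (ResidueField 𝒪)] : S.fam.Nonempty := by
  obtain ⟨ev, h1, -⟩ := S.exists_ev S.baseDatum
  exact ⟨_, S.baseDatum, ev, h1, rfl⟩

theorem Setup.J_ne_top [Finite (ResidueField 𝒪)] : S.J ≠ ⊤ := by
  obtain ⟨I, hI⟩ := S.fam_nonempty
  obtain ⟨D, ev, -, rfl⟩ := id hI
  exact ne_top_of_le_ne_top (S.ker_ne_top ev) (sInf_le hI)

instance Setup.instNontrivialR [Finite (ResidueField 𝒪)] : Nontrivial S.R :=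
  Ideal.Quotient.nontrivial_iff.mpr S.J_ne_top

instance instNontrivialQuotPow (A : Type) [CommRing A] [IsLocalRing A] (n : ℕ) :
    Nontrivial (A ⧸ maximalIdeal A ^ (n + 1)) :=
  Ideal.Quotient.nontrivial_iff.mpr
    (ne_top_of_le_ne_top (maximalIdeal.isMaximal A).ne_top (Ideal.pow_le_self n.succ_ne_zero))

example [Finite (ResidueField 𝒪)] : IsLocalRing S.R := inferInstance
example [Finite (ResidueField 𝒪)] : TestAlg 𝒪 S.R := inferInstance
example [Finite (ResidueField 𝒪)] [IsNoetherianRing 𝒪] : IsNoetherianRing S.R := inferInstance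
example [Finite (ResidueField 𝒪)] (n : ℕ) : TestAlg 𝒪 (S.R ⧸ maximalIdeal S.R ^ (n + 1)) :=
  inferInstance

end Base

end

end Fermat.Agent.S53
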