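import Mathlib

/-!
S53 sub-lemma L7a (Mittag-Leffler / Chevalley-type compactness).
-/

set_option autoImplicit false

namespace Fermat.Agent.S53

open IsLocalRing

namespace CompactAux

variable {P : Type*} [CommRing P]

/-- In a downward directed nonempty family of ideals, modulo an ideal `J` of finite index there is
a member which is smallest modulo `J`. -/
theorem exists_least_mod (J : Ideal P) [Finite (P ⧸ J)] (S : Set (Ideal P)) (hne : S.Nonempty)
    (hdir : ∀ I ∈ S, ∀ I' ∈ S, ∃ I'' ∈ S, I'' ≤ I ⊓ I') :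
    ∃ I ∈ S, ∀ I' ∈ S, ∀ x ∈ I, ∃ y ∈ I', x - y ∈ J := by
  classical
  let f : Ideal P → Set (P ⧸ J) := fun I => (Ideal.Quotient.mk J) '' (I : Set P)
  have hwf : WellFounded ((· < ·) : Set (P ⧸ J) → Set (P ⧸ J) → Prop) := wellFounded_lt
  obtain ⟨I0, hI0S⟩ := hne
  obtain ⟨_, ⟨I, hIS, rfl⟩, hmin⟩ := hwf.has_min (f '' S) ⟨f I0, I0, hI0S, rfl⟩
  refine ⟨I, hIS, fun I' hI' x hx => ?_⟩
  obtain ⟨I'', hI''S, hle⟩ := hdir I hIS I' hI'
  have h1 : f I'' ≤ f I := Set.image_mono fun z hz => (hle hz).1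
  have h2 : f I'' = f I := by
    by_contra hne'
    exact hmin (f I'') ⟨I'', hI''S, rfl⟩ (lt_of_le_of_ne h1 hne')
  have h3 : Ideal.Quotient.mk J x ∈ f I'' := by
    rw [h2]
    exact ⟨x, hx, rfl⟩
  obtain ⟨y, hy, hyx⟩ := h3
  exact ⟨y, (hle hy).2, Ideal.Quotient.eq.mp hyx.symm⟩

end CompactAux

open CompactAux in
/-- Let `P` be a local ring, complete for its maximal ideal `𝔪`, with all `P/𝔪^m` finite.
Let `S` be a nonempty, downward directed family of `𝔪`-adically open ideals.  Then for every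
`n` the ideal `sInf S + 𝔪^n` is of the form `I + 𝔪^n` with `I ∈ S`. -/
theorem exists_sup_pow_eq_sInf_sup_pow {P : Type*} [CommRing P] [IsLocalRing P]
    [IsAdicComplete (maximalIdeal P) P] (hfin : ∀ m : ℕ, Finite (P ⧸ maximalIdeal P ^ m))
    (S : Set (Ideal P)) (hne : S.Nonempty)
    (hopen : ∀ I ∈ S, ∃ N : ℕ, maximalIdeal P ^ N ≤ I)
    (hdir : ∀ I ∈ S, ∀ I' ∈ S, ∃ I'' ∈ S, I'' ≤ I ⊓ I') (n : ℕ) :
    ∃ I ∈ S, sInf S ⊔ maximalIdeal P ^ n = I ⊔ maximalIdeal P ^ n := by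
  classical
  set 𝔪 := maximalIdeal P with h𝔪
  have step1 : ∀ m : ℕ, ∃ I ∈ S, ∀ I' ∈ S, ∀ x ∈ I, ∃ y ∈ I', x - y ∈ 𝔪 ^ m := fun m =>
    haveI := hfin m
    exists_least_mod (𝔪 ^ m) S hne hdir
  choose Ifun hIS hIL using step1
  refine ⟨Ifun n, hIS n, le_antisymm (sup_le_sup_right (sInf_le (hIS n)) _) ?_⟩
  refine sup_le ?_ le_sup_right
  intro x hx
  -- recursive construction of a Cauchy sequence `w k ∈ Ifun (n + k)` starting at `x`
  have hstep : ∀ k : ℕ, ∀ w : {w : P // w ∈ Ifun (n + k)},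
      ∃ w' : {w' : P // w' ∈ Ifun (n + (k + 1))}, (w : P) - (w' : P) ∈ 𝔪 ^ (n + k) := by
    intro k w
    obtain ⟨y, hy, hyw⟩ := hIL (n + k) (Ifun (n + (k + 1))) (hIS _) w.1 w.2
    exact ⟨⟨y, hy⟩, hyw⟩
  choose next hnext using hstep
  let W : (k : ℕ) → {w : P // w ∈ Ifun (n + k)} :=
    fun k => Nat.rec (motive := fun k => {w : P // w ∈ Ifun (n + k)}) ⟨x, hx⟩
      (fun k w => next k w) k
  have hW0 : (W 0 : P) = x := rfl
  have hWs : ∀ k, (W k : P) - (W (k + 1) : P) ∈ 𝔪 ^ (n + k) := fun k => hnext k (W k)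
  have hWle : ∀ k l, k ≤ l → (W k : P) - (W l : P) ∈ 𝔪 ^ (n + k) := by
    intro k l hkl
    induction l, hkl using Nat.le_induction with
    | base => simp
    | succ l hkl ih =>
      have h1 : (W l : P) - (W (l + 1) : P) ∈ 𝔪 ^ (n + k) :=
        Ideal.pow_le_pow_right (by omega) (hWs l)
      have := Ideal.add_mem _ ih h1
      simpa using this
  -- the limit
  obtain ⟨L, hL⟩ := IsPrecomplete.prec (I := 𝔪) (M := P) inferInstance (f := fun k => (W k : P))
    (by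
      intro k l hkl
      rw [SModEq.sub_mem, smul_eq_mul, Ideal.mul_top]
      exact Ideal.pow_le_pow_right (by omega) (hWle k l hkl))
  have hL' : ∀ k, (W k : P) - L ∈ 𝔪 ^ (n + k) := by
    intro k
    have h1 := hL (n + k)
    rw [SModEq.sub_mem, smul_eq_mul, Ideal.mul_top] at h1
    have h2 := hWle k (n + k) (by omega)
    have := Ideal.add_mem _ h2 h1
    simpa using this
  -- `L ∈ sInf S`
  have hLS : L ∈ sInf S := by
    rw [Submodule.mem_sInf]
    intro I hI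
    obtain ⟨N, hN⟩ := hopen I hI
    obtain ⟨y, hy, hyw⟩ := hIL (n + N) I hI (W N) (W N).2
    have hle : 𝔪 ^ (n + N) ≤ I := le_trans (Ideal.pow_le_pow_right (by omega)) hN
    have hWN : (W N : P) ∈ I := by
      have := I.add_mem (hle hyw) hy
      simpa using this
    have := I.sub_mem hWN (hle (hL' N))
    simpa using this
  have hxL : x - L ∈ 𝔪 ^ n := by
    have := hL' 0
    rwa [hW0, add_zero] at this
  have : x = L + (x - L) := by ring
  rw [this]
  exact Ideal.add_mem _ (Ideal.mem_sup_left hLS) (Ideal.mem_sup_right hxL)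

end Fermat.Agent.S53
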