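import Fermat.Agent.S53.Skolem

set_option autoImplicit false

namespace Fermat.Agent.S53

open Matrix

section Conj

variable {A : Type*} [CommRing A] [IsLocalRing A] {G : Type*} [Monoid G]

/-- L2: two multiplicative maps to `M₂(A)` (A local) with the same traces, such that the Gram
determinant of the images of four fixed elements is a unit, are conjugate. -/
theorem conj_of_trace_eq
    (r r' : G →* Matrix (Fin 2) (Fin 2) A) (g : Fin 4 → G)
    (hdet : IsUnit (gram (fun i => r (g i))).det)
    (htr : ∀ x, Matrix.trace (r x) = Matrix.trace (r' x)) :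
    ∃ u : Matrix (Fin 2) (Fin 2) A, IsUnit u ∧ ∀ x, u * r x = r' x * u := by
  classical
  set b : Fin 4 → Matrix (Fin 2) (Fin 2) A := fun i => r (g i) with hb
  set b' : Fin 4 → Matrix (Fin 2) (Fin 2) A := fun i => r' (g i) with hb'
  have hgram : gram b' = gram b := by
    ext i j
    simp only [gram, Matrix.of_apply, hb, hb', ← map_mul, htr]
  have hdet' : IsUnit (gram b').det := by rw [hgram]; exact hdet
  -- the coefficient map
  let coef : Matrix (Fin 2) (Fin 2) A →ₗ[A] (Fin 4 → A) :=
    (Matrix.mulVecLin (gram b)ᵀ⁻¹).comp (trVec b)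
  have hcoef : ∀ x, comb b (coef x) = x := fun x => comb_trVec b hdet x
  let α₀ : Matrix (Fin 2) (Fin 2) A →ₗ[A] Matrix (Fin 2) (Fin 2) A := (comb b').comp coef
  have hα_r : ∀ x : G, α₀ (r x) = r' x := by
    intro x
    have h1 : trVec b (r x) = trVec b' (r' x) := by
      ext j
      simp only [trVec_apply, hb, hb', ← map_mul, htr]
    show comb b' ((gram b)ᵀ⁻¹ *ᵥ trVec b (r x)) = r' x
    rw [h1, ← hgram]
    exact comb_trVec b' hdet' (r' x)
  have hα_comb : ∀ c : Fin 4 → A, α₀ (comb b c) = comb b' c := by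
    intro c
    simp only [comb_apply, map_sum, map_smul, hb, hb', hα_r]
  have hα_mul : ∀ m m', α₀ (m * m') = α₀ m * α₀ m' := by
    intro m m'
    rw [← hcoef m, ← hcoef m', hα_comb, hα_comb]
    simp only [comb_apply, Finset.sum_mul, Finset.mul_sum, Matrix.smul_mul, Matrix.mul_smul,
      map_sum, map_smul, hb, hb', ← map_mul, hα_r]
  have hα_one : α₀ 1 = 1 := by
    have := hα_r 1
    rw [map_one r, map_one r'] at this
    exact this
  let α : Matrix (Fin 2) (Fin 2) A →ₐ[A] Matrix (Fin 2) (Fin 2) A :=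
    AlgHom.ofLinearMap α₀ hα_one hα_mul
  obtain ⟨u, hu, h⟩ := skolem_noether_two α
  refine ⟨u, hu, fun x => ?_⟩
  have := h (r x)
  rw [show α (r x) = r' x from hα_r x] at this
  exact this.symm

end Conj

end Fermat.Agent.S53
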