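import Mathlib

set_option autoImplicit false

namespace Fermat.Agent.S53

open Matrix

section Gram

variable {A : Type*} [CommRing A]

/-- Gram matrix of four 2x2 matrices with respect to the trace form. -/
def gram (b : Fin 4 → Matrix (Fin 2) (Fin 2) A) : Matrix (Fin 4) (Fin 4) A :=
  Matrix.of fun i j => Matrix.trace (b i * b j)

/-- The vector of traces `tr (x * b j)`. -/
def trVec (b : Fin 4 → Matrix (Fin 2) (Fin 2) A) : Matrix (Fin 2) (Fin 2) A →ₗ[A] (Fin 4 → A) where
  toFun x := fun j => Matrix.trace (x * b j)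
  map_add' x y := by ext j; simp [add_mul]
  map_smul' a x := by ext j; simp

/-- Linear combinations of the `b i`. -/
def comb (b : Fin 4 → Matrix (Fin 2) (Fin 2) A) : (Fin 4 → A) →ₗ[A] Matrix (Fin 2) (Fin 2) A where
  toFun c := ∑ i, c i • b i
  map_add' x y := by simp [add_smul, Finset.sum_add_distrib]
  map_smul' a x := by simp [Finset.smul_sum, mul_smul]

lemma trVec_apply (b : Fin 4 → Matrix (Fin 2) (Fin 2) A) (x : Matrix (Fin 2) (Fin 2) A) (j : Fin 4) :
    trVec b x j = Matrix.trace (x * b j) := rfl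

lemma comb_apply (b : Fin 4 → Matrix (Fin 2) (Fin 2) A) (c : Fin 4 → A) :
    comb b c = ∑ i, c i • b i := rfl

lemma trVec_comb (b : Fin 4 → Matrix (Fin 2) (Fin 2) A) (c : Fin 4 → A) :
    trVec b (comb b c) = (gram b)ᵀ *ᵥ c := by
  ext j
  simp only [trVec_apply, comb_apply, Finset.sum_mul, Matrix.trace_sum, Matrix.smul_mul,
    Matrix.trace_smul, Matrix.mulVec, dotProduct, Matrix.transpose_apply, gram, Matrix.of_apply,
    smul_eq_mul]
  exact Finset.sum_congr rfl fun i _ => mul_comm _ _

/-- An auxiliary injective linear map from 2x2 matrices to `Fin 4 → A`. -/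
def flat4 : Matrix (Fin 2) (Fin 2) A →ₗ[A] (Fin 4 → A) where
  toFun x := ![x 0 0, x 0 1, x 1 0, x 1 1]
  map_add' x y := by ext j; fin_cases j <;> simp
  map_smul' a x := by ext j; fin_cases j <;> simp

lemma flat4_injective : Function.Injective (flat4 (A := A)) := by
  intro x y h
  have h0 := congrFun h 0
  have h1 := congrFun h 1
  have h2 := congrFun h 2
  have h3 := congrFun h 3
  simp only [flat4, LinearMap.coe_mk, AddHom.coe_mk, Matrix.cons_val_zero, Matrix.cons_val_one]
    at h0 h1
  have h2' : x 1 0 = y 1 0 := h2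
  have h3' : x 1 1 = y 1 1 := h3
  ext i j
  fin_cases i <;> fin_cases j <;> assumption

variable (b : Fin 4 → Matrix (Fin 2) (Fin 2) A)

lemma trVec_injective (h : IsUnit (gram b).det) : Function.Injective (trVec b) := by
  have hsurj : Function.Surjective (trVec b) := by
    intro y
    have hT : IsUnit (gram b)ᵀ.det := by rwa [Matrix.det_transpose]
    refine ⟨comb b ((gram b)ᵀ⁻¹ *ᵥ y), ?_⟩
    rw [trVec_comb, Matrix.mulVec_mulVec, Matrix.mul_nonsing_inv _ hT, Matrix.one_mulVec]
  exact OrzechProperty.injective_of_surjective_of_injective flat4 (trVec b) flat4_injective hsurj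

/-- Every 2x2 matrix is the explicit combination of the `b i` determined by traces. -/
theorem comb_trVec (h : IsUnit (gram b).det) (x : Matrix (Fin 2) (Fin 2) A) :
    comb b ((gram b)ᵀ⁻¹ *ᵥ trVec b x) = x := by
  apply trVec_injective b h
  have hT : IsUnit (gram b)ᵀ.det := by rwa [Matrix.det_transpose]
  rw [trVec_comb, Matrix.mulVec_mulVec, Matrix.mul_nonsing_inv _ hT, Matrix.one_mulVec]

theorem comb_injective (h : IsUnit (gram b).det) : Function.Injective (comb b) := by
  intro c c' hc
  have hT : IsUnit (gram b)ᵀ.det := by rwa [Matrix.det_transpose]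
  have := congrArg (trVec b) hc
  rw [trVec_comb, trVec_comb] at this
  have h2 := congrArg ((gram b)ᵀ⁻¹ *ᵥ ·) this
  simpa [Matrix.mulVec_mulVec, Matrix.nonsing_inv_mul _ hT] using h2

end Gram

end Fermat.Agent.S53
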