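import Mathlib
import Fermat.Agent.S53.Gram

/-!
# Carayol descent for `2 × 2` representations over finite local rings (S53, sub-lemma L3)

Let `A` be a finite local ring, `T ⊆ A` a subring, `r : G →* M₂(A)` with all traces in `T`, such
that the `T`-span of the `r (g i)` contains lifts of the four matrix units modulo `𝔪_A`. Then `r` is
conjugate, by a matrix `u ≡ 1 mod 𝔪_A`, to a representation with entries in `T`.
-/

set_option autoImplicit false

namespace Fermat.Agent.S53

open Matrix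

namespace DescentAux

variable {A : Type*} [CommRing A]

/-- Reduction of `2 × 2` matrices modulo an ideal. -/
noncomputable abbrev red (I : Ideal A) :
    Matrix (Fin 2) (Fin 2) A →+* Matrix (Fin 2) (Fin 2) (A ⧸ I) :=
  (Ideal.Quotient.mk I).mapMatrix

theorem red_apply (I : Ideal A) (y : Matrix (Fin 2) (Fin 2) A) (i j : Fin 2) :
    red I y i j = Ideal.Quotient.mk I (y i j) := rfl

theorem red_eq_iff (I : Ideal A) (y z : Matrix (Fin 2) (Fin 2) A) :
    red I y = red I z ↔ ∀ i j, y i j - z i j ∈ I := by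
  constructor
  · intro h i j
    have := congrFun (congrFun h i) j
    rw [red_apply, red_apply] at this
    exact Ideal.Quotient.eq.mp this
  · intro h
    ext i j
    rw [red_apply, red_apply]
    exact Ideal.Quotient.eq.mpr (h i j)

theorem red_single (I : Ideal A) (a b : Fin 2) :
    red I (Matrix.single a b (1 : A)) = Matrix.single a b (1 : A ⧸ I) := by
  ext i j
  rw [red_apply, Matrix.single_apply, Matrix.single_apply]
  split_ifs <;> simp

theorem pow_entries_mem (I : Ideal A) (y : Matrix (Fin 2) (Fin 2) A) (hy : ∀ i j, y i j ∈ I)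
    (k : ℕ) : ∀ i j, (y ^ k) i j ∈ I ^ k := by
  induction k with
  | zero => intro i j; simp
  | succ k ih =>
    intro i j
    rw [pow_succ y, Matrix.mul_apply, pow_succ]
    exact Ideal.sum_mem _ fun l _ => Ideal.mul_mem_mul (ih i l) (hy l j)

section Local

variable [IsLocalRing A]

theorem isUnit_of_sub_one_mem {x : A} (h : x - 1 ∈ IsLocalRing.maximalIdeal A) : IsUnit x := by
  rw [← IsLocalRing.notMem_maximalIdeal]
  intro hx
  have h1 : (1 : A) ∈ IsLocalRing.maximalIdeal A := by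
    have := Ideal.sub_mem _ hx h
    simpa using this
  exact (Ideal.ne_top_iff_one _).mp (IsLocalRing.maximalIdeal.isMaximal A).ne_top h1

theorem isUnit_of_mk_eq_one {x : A}
    (h : Ideal.Quotient.mk (IsLocalRing.maximalIdeal A) x = 1) : IsUnit x := by
  apply isUnit_of_sub_one_mem
  rw [← Ideal.Quotient.eq_zero_iff_mem, map_sub, h, map_one, sub_self]

variable [Finite A]

theorem exists_pow_eq_zero_of_red_eq_zero (y : Matrix (Fin 2) (Fin 2) A)
    (hy : red (IsLocalRing.maximalIdeal A) y = 0) : ∃ n : ℕ, y ^ n = 0 := by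
  obtain ⟨N, hN⟩ := IsArtinianRing.isNilpotent_jacobson_bot (R := A)
  rw [IsLocalRing.jacobson_eq_maximalIdeal ⊥ bot_ne_top] at hN
  refine ⟨N, ?_⟩
  have hy' : ∀ i j, y i j ∈ IsLocalRing.maximalIdeal A := by
    intro i j
    have := congrFun (congrFun hy i) j
    rw [red_apply] at this
    exact Ideal.Quotient.eq_zero_iff_mem.mp this
  ext i j
  have := pow_entries_mem _ y hy' N i j
  rw [hN] at this
  simpa using this

omit [IsLocalRing A] in
theorem exists_inv_mem (T : Subring A) {a : A} (ha : a ∈ T) (hu : IsUnit a) :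
    ∃ a' ∈ T, a' * a = 1 := by
  obtain ⟨n, hn, hpow⟩ := (isOfFinOrder_of_finite hu.unit).exists_pow_eq_one
  refine ⟨a ^ (n - 1), T.pow_mem ha _, ?_⟩
  have h2 : a ^ n = 1 := by
    have := congrArg Units.val hpow
    simpa using this
  rw [← pow_succ, Nat.sub_add_cancel hn, h2]

end Local

section Entries

theorem trace_single_mul (a : Fin 2) (x : Matrix (Fin 2) (Fin 2) A) :
    (Matrix.single a a (1 : A) * x).trace = x a a := by
  fin_cases a <;> simp [Matrix.trace_fin_two, Matrix.mul_apply, Matrix.single]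

theorem trace_single_mul_single_mul (a b : Fin 2) (x y : Matrix (Fin 2) (Fin 2) A) :
    (Matrix.single a a (1 : A) * x * Matrix.single b b (1 : A) * y).trace = x a b * y b a := by
  fin_cases a <;> fin_cases b <;>
    simp [Matrix.trace_fin_two, Matrix.mul_apply, Matrix.single, Fin.sum_univ_two]

theorem single_add_single_eq_one :
    (Matrix.single 0 0 (1 : A) + Matrix.single 1 1 (1 : A) : Matrix (Fin 2) (Fin 2) A) = 1 := by
  ext i j
  fin_cases i <;> fin_cases j <;> simp [Matrix.single]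

end Entries

end DescentAux

open DescentAux in
theorem descent {A : Type*} [CommRing A] [IsLocalRing A] [Finite A]
    (T : Subring A) {G : Type*} [Monoid G] (r : G →* Matrix (Fin 2) (Fin 2) A) (g : Fin 4 → G)
    (htr : ∀ x, Matrix.trace (r x) ∈ T)
    (hgram : IsUnit (gram (fun i => r (g i))).det)
    (hres : ∀ a b : Fin 2, ∃ c : Fin 4 → A, (∀ i, c i ∈ T) ∧
      ∀ a' b', (∑ i, c i • r (g i)) a' b' - (Matrix.single a b (1 : A)) a' b'
        ∈ IsLocalRing.maximalIdeal A) :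
    ∃ u : Matrix (Fin 2) (Fin 2) A, IsUnit u.det ∧
      (∀ a b, (u - 1) a b ∈ IsLocalRing.maximalIdeal A) ∧
      ∀ x a b, (u⁻¹ * r x * u) a b ∈ T := by
  classical
  set 𝔪 := IsLocalRing.maximalIdeal A with h𝔪
  -- the `T`-algebra generated by the image of `r`
  set M : Subalgebra T (Matrix (Fin 2) (Fin 2) A) := Algebra.adjoin T (Set.range r) with hM
  have hrM : ∀ x, r x ∈ M := fun x => Algebra.subset_adjoin ⟨x, rfl⟩
  have hsmulM : ∀ (t : A), t ∈ T → ∀ m ∈ M, t • m ∈ M := by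
    intro t ht m hm
    exact M.smul_mem hm (⟨t, ht⟩ : T)
  -- traces of elements of `M` lie in `T`
  have htrS : ∀ m ∈ Submodule.span T (Set.range r), Matrix.trace m ∈ T := by
    intro m hm
    induction hm using Submodule.span_induction with
    | mem x hx =>
      obtain ⟨y, rfl⟩ := hx
      exact htr y
    | zero => simp
    | add x y _ _ hx hy =>
      rw [Matrix.trace_add]
      exact T.add_mem hx hy
    | smul t x _ hx =>
      have : Matrix.trace (t • x) = (t : A) * Matrix.trace x := by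
        change Matrix.trace ((t : A) • x) = _
        rw [Matrix.trace_smul, smul_eq_mul]
      rw [this]
      exact T.mul_mem t.2 hx
  have htrM : ∀ m ∈ M, Matrix.trace m ∈ T := by
    intro m hm
    have hm' : m ∈ Subalgebra.toSubmodule M := hm
    rw [hM, Algebra.adjoin_eq_span] at hm'
    have hcl : (Submonoid.closure (Set.range r) : Set (Matrix (Fin 2) (Fin 2) A)) = Set.range r := by
      rw [← MonoidHom.coe_mrange, Submonoid.closure_eq]
    rw [hcl] at hm'
    exact htrS m hm'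
  -- lifts of the matrix units
  have hlift : ∀ a b : Fin 2, ∃ X ∈ M, red 𝔪 X = Matrix.single a b (1 : A ⧸ 𝔪) := by
    intro a b
    obtain ⟨c, hc, hcong⟩ := hres a b
    refine ⟨∑ i, c i • r (g i), ?_, ?_⟩
    · exact M.sum_mem fun i _ => hsmulM _ (hc i) _ (hrM _)
    · rw [← red_single, red_eq_iff]
      exact hcong
  -- Step 1: an idempotent `e ∈ M` lifting `E₁₁`
  obtain ⟨a, haM, hared⟩ := hlift 0 0
  have hE : IsIdempotentElem (Matrix.single 0 0 (1 : A ⧸ 𝔪) : Matrix (Fin 2) (Fin 2) (A ⧸ 𝔪)) := by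
    unfold IsIdempotentElem
    simp
  obtain ⟨n, hn⟩ := exists_pow_eq_zero_of_red_eq_zero (a - a ^ 2) (by
    rw [map_sub, map_pow, hared, pow_two, hE.eq, sub_self])
  have hn1 : (a - a ^ 2) ^ (n + 1) = 0 := by rw [pow_succ, hn, zero_mul]
  obtain ⟨e, he⟩ : ∃ e : Matrix (Fin 2) (Fin 2) A, e = 1 - (1 - a ^ (n + 1)) ^ (n + 1) := ⟨_, rfl⟩
  have hee : e * e = e := by
    rw [he]; exact (isIdempotentElem_one_sub_one_sub_pow_pow a (n + 1) hn1).eq
  have heM : e ∈ M := by
    rw [he]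
    exact M.sub_mem M.one_mem (M.pow_mem (M.sub_mem M.one_mem (M.pow_mem haM _)) _)
  have hered : red 𝔪 e = Matrix.single 0 0 (1 : A ⧸ 𝔪) := by
    rw [he, map_sub, map_one, map_pow, map_sub, map_one, map_pow, hared, hE.pow_succ_eq,
      hE.one_sub.pow_succ_eq, sub_sub_cancel]
  have hfM : (1 - e) ∈ M := M.sub_mem M.one_mem heM
  -- Step 2: conjugate `e` to `E₁₁`
  obtain ⟨E0, hE0⟩ : ∃ E0 : Matrix (Fin 2) (Fin 2) A, E0 = Matrix.single 0 0 (1 : A) := ⟨_, rfl⟩
  obtain ⟨E1, hE1⟩ : ∃ E1 : Matrix (Fin 2) (Fin 2) A, E1 = Matrix.single 1 1 (1 : A) := ⟨_, rfl⟩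
  have hE01 : E0 + E1 = 1 := by rw [hE0, hE1]; exact single_add_single_eq_one
  have hE0E0 : E0 * E0 = E0 := by simp [hE0]
  have hE1E1 : E1 * E1 = E1 := by simp [hE1]
  have hE1E0 : E1 * E0 = 0 := by simp [hE0, hE1]
  have hE0E1 : E0 * E1 = 0 := by simp [hE0, hE1]
  obtain ⟨v, hv⟩ : ∃ v : Matrix (Fin 2) (Fin 2) A, v = e * E0 + (1 - e) * E1 := ⟨_, rfl⟩
  have hvred : red 𝔪 v = 1 := by
    rw [hv, map_add, map_mul, map_mul, map_sub, map_one, hered, hE0, hE1, red_single, red_single,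
      sub_mul, one_mul]
    simp only [Matrix.single_mul_single_same, mul_one]
    rw [Matrix.single_mul_single_of_ne _ _ _ _ (by decide : (0 : Fin 2) ≠ 1), sub_zero]
    exact single_add_single_eq_one
  have hvdet : IsUnit v.det := by
    apply isUnit_of_mk_eq_one
    rw [RingHom.map_det]
    change (red 𝔪 v).det = 1
    rw [hvred, Matrix.det_one]
  have hvvi : v * v⁻¹ = 1 := Matrix.mul_nonsing_inv v hvdet
  have hviv : v⁻¹ * v = 1 := Matrix.nonsing_inv_mul v hvdet
  have hvired : red 𝔪 v⁻¹ = 1 := by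
    have := congrArg (red 𝔪) hviv
    rwa [map_mul, hvred, mul_one, map_one] at this
  have hev : e * v = v * E0 := by
    rw [hv, Matrix.mul_add, ← Matrix.mul_assoc, ← Matrix.mul_assoc, hee, mul_sub, mul_one, hee,
      sub_self, Matrix.zero_mul, add_zero, Matrix.add_mul, Matrix.mul_assoc, Matrix.mul_assoc,
      hE0E0, hE1E0, Matrix.mul_zero, add_zero]
  have hfv : (1 - e) * v = v * E1 := by
    have h3 : v * E0 + v * E1 = v := by rw [← Matrix.mul_add, hE01, Matrix.mul_one]
    rw [sub_mul, one_mul, hev]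
    exact sub_eq_of_eq_add' h3.symm
  have hE0vi : E0 * v⁻¹ = v⁻¹ * e := by
    calc E0 * v⁻¹ = v⁻¹ * (v * E0) * v⁻¹ := by
          rw [← Matrix.mul_assoc, hviv, Matrix.one_mul]
      _ = v⁻¹ * (e * v) * v⁻¹ := by rw [hev]
      _ = v⁻¹ * e := by rw [Matrix.mul_assoc, Matrix.mul_assoc, hvvi, Matrix.mul_one]
  have hvE1vi : v * E1 * v⁻¹ = 1 - e := by
    rw [← hfv, Matrix.mul_assoc, hvvi, Matrix.mul_one]
  -- Step 3: entries of the conjugated elements
  have h00 : ∀ X ∈ M, (v⁻¹ * X * v) 0 0 ∈ T := by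
    intro X hX
    have h1 : (v⁻¹ * X * v) 0 0 = (e * X).trace := by
      rw [← trace_single_mul 0 (v⁻¹ * X * v), ← hE0, ← Matrix.mul_assoc, ← Matrix.mul_assoc, hE0vi,
        Matrix.trace_mul_cycle, ← Matrix.mul_assoc, hvvi, Matrix.one_mul]
    rw [h1]
    exact htrM _ (M.mul_mem heM hX)
  have h11 : ∀ X ∈ M, (v⁻¹ * X * v) 1 1 ∈ T := by
    intro X hX
    have h1 : (v⁻¹ * X * v) 1 1 = ((1 - e) * X).trace := by
      rw [← trace_single_mul 1 (v⁻¹ * X * v), ← hE1, ← hvE1vi]
      rw [show E1 * (v⁻¹ * X * v) = v⁻¹ * (v * E1 * v⁻¹ * X) * v by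
        simp only [Matrix.mul_assoc]
        rw [← Matrix.mul_assoc v⁻¹ v, hviv, Matrix.one_mul]]
      rw [Matrix.trace_mul_cycle, hvvi, Matrix.one_mul]
    rw [h1]
    exact htrM _ (M.mul_mem hfM hX)
  have h01 : ∀ X ∈ M, ∀ Y ∈ M, (v⁻¹ * X * v) 0 1 * (v⁻¹ * Y * v) 1 0 ∈ T := by
    intro X hX Y hY
    have h1 : (v⁻¹ * X * v) 0 1 * (v⁻¹ * Y * v) 1 0 = (e * X * (1 - e) * Y).trace := by
      rw [← trace_single_mul_single_mul 0 1 (v⁻¹ * X * v) (v⁻¹ * Y * v), ← hE0, ← hE1]
      rw [show E0 * (v⁻¹ * X * v) * E1 * (v⁻¹ * Y * v) =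
          v⁻¹ * (e * X * (v * E1 * v⁻¹) * Y) * v by
        simp only [Matrix.mul_assoc]
        rw [← Matrix.mul_assoc E0, hE0vi]
        simp only [Matrix.mul_assoc]]
      rw [Matrix.trace_mul_cycle, hvvi, Matrix.one_mul, hvE1vi]
    rw [h1]
    exact htrM _ (M.mul_mem (M.mul_mem (M.mul_mem heM hX) hfM) hY)
  -- Step 4: normalise the off-diagonal entries
  obtain ⟨X10, hX10M, hX10red⟩ := hlift 1 0
  obtain ⟨X01, hX01M, hX01red⟩ := hlift 0 1
  obtain ⟨s, hs⟩ : ∃ s : A, s = (v⁻¹ * X10 * v) 1 0 := ⟨_, rfl⟩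
  obtain ⟨s', hs'⟩ : ∃ s' : A, s' = (v⁻¹ * X01 * v) 0 1 := ⟨_, rfl⟩
  have hsu : IsUnit s := by
    apply isUnit_of_mk_eq_one
    have : red 𝔪 (v⁻¹ * X10 * v) = Matrix.single 1 0 (1 : A ⧸ 𝔪) := by
      rw [map_mul, map_mul, hvred, hvired, hX10red, one_mul, mul_one]
    have h2 := congrFun (congrFun this 1) 0
    rw [red_apply] at h2
    rw [hs, h2]
    simp
  have hs'u : IsUnit s' := by
    apply isUnit_of_mk_eq_one
    have : red 𝔪 (v⁻¹ * X01 * v) = Matrix.single 0 1 (1 : A ⧸ 𝔪) := by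
      rw [map_mul, map_mul, hvred, hvired, hX01red, one_mul, mul_one]
    have h2 := congrFun (congrFun this 0) 1
    rw [red_apply] at h2
    rw [hs', h2]
    simp
  have hs's : s' * s ∈ T := by rw [hs, hs']; exact h01 X01 hX01M X10 hX10M
  obtain ⟨w, hwT, hw⟩ := exists_inv_mem T hs's (hs'u.mul hsu)
  obtain ⟨si, hsi⟩ := hsu.exists_left_inv
  -- `si = w * s'`
  have hsi' : si = w * s' := by
    calc si = (w * (s' * s)) * si := by rw [hw, one_mul]
      _ = w * s' * (si * s) := by ring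
      _ = w * s' := by rw [hsi, mul_one]
  obtain ⟨D, hD⟩ : ∃ D : Matrix (Fin 2) (Fin 2) A, D = Matrix.diagonal ![1, s] := ⟨_, rfl⟩
  obtain ⟨D', hD'⟩ : ∃ D' : Matrix (Fin 2) (Fin 2) A, D' = Matrix.diagonal ![1, si] := ⟨_, rfl⟩
  have hD'D : D' * D = 1 := by
    rw [hD, hD', Matrix.diagonal_mul_diagonal]
    rw [← Matrix.diagonal_one]
    congr 1
    ext i
    fin_cases i
    · simp
    · simpa using hsi
  have hmks : Ideal.Quotient.mk 𝔪 s = 1 := by
    have : red 𝔪 (v⁻¹ * X10 * v) = Matrix.single 1 0 (1 : A ⧸ 𝔪) := by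
      rw [map_mul, map_mul, hvred, hvired, hX10red, one_mul, mul_one]
    have h2 := congrFun (congrFun this 1) 0
    rw [red_apply] at h2
    rw [hs, h2]
    simp
  have hDred : red 𝔪 D = 1 := by
    ext i j
    rw [red_apply, hD]
    fin_cases i <;> fin_cases j <;> simp [Matrix.diagonal, hmks]
  obtain ⟨u, hu⟩ : ∃ u : Matrix (Fin 2) (Fin 2) A, u = v * D := ⟨_, rfl⟩
  have hwu : (D' * v⁻¹) * u = 1 := by
    rw [hu, Matrix.mul_assoc, ← Matrix.mul_assoc v⁻¹, hviv, Matrix.one_mul, hD'D]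
  have huinv : u⁻¹ = D' * v⁻¹ := Matrix.inv_eq_left_inv hwu
  refine ⟨u, ?_, ?_, ?_⟩
  · rw [hu, Matrix.det_mul]
    refine hvdet.mul ?_
    rw [hD, Matrix.det_diagonal]
    simpa [Fin.prod_univ_two] using hsu
  · have hured : red 𝔪 (u - 1) = 0 := by
      rw [map_sub, hu, map_mul, hvred, hDred, mul_one, map_one, sub_self]
    intro a b
    have := congrFun (congrFun hured a) b
    rw [red_apply] at this
    exact Ideal.Quotient.eq_zero_iff_mem.mp this
  · intro x a b
    have hx := hrM x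
    have hentry : (u⁻¹ * r x * u) a b = ![1, si] a * (v⁻¹ * r x * v) a b * ![1, s] b := by
      rw [huinv, hu]
      rw [show D' * v⁻¹ * r x * (v * D) = D' * ((v⁻¹ * r x * v) * D) by
        simp only [Matrix.mul_assoc]]
      rw [hD', Matrix.diagonal_mul, hD, Matrix.mul_diagonal]
      ring
    rw [hentry]
    fin_cases a <;> fin_cases b
    · simpa using h00 _ hx
    · have := h01 _ hx _ hX10M
      rw [← hs] at this
      simpa using this
    · have h2 : s' * (v⁻¹ * r x * v) 1 0 ∈ T := by rw [hs']; exact h01 _ hX01M _ hx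
      have h3 : si * (v⁻¹ * r x * v) 1 0 = w * (s' * (v⁻¹ * r x * v) 1 0) := by
        rw [hsi']; ring
      simpa [h3] using T.mul_mem hwT h2
    · have h2 : si * (v⁻¹ * r x * v) 1 1 * s = (v⁻¹ * r x * v) 1 1 := by
        calc si * (v⁻¹ * r x * v) 1 1 * s = (si * s) * (v⁻¹ * r x * v) 1 1 := by ring
          _ = (v⁻¹ * r x * v) 1 1 := by rw [hsi, one_mul]
      simpa [h2] using h11 _ hx

end Fermat.Agent.S53
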