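import Fermat.Agent.S53.TestSub
import Fermat.Agent.S53.Descent

/-!
# `𝒟`-lifts: matrix-valued deformations of `ρbar` satisfying the deformation condition
-/

set_option autoImplicit false
set_option linter.unusedSectionVars false

namespace Fermat.Agent.S53

open IsLocalRing Matrix

section FinLevel

variable {A : Type} [CommRing A] [IsLocalRing A]

lemma exists_pow_eq_bot [Finite A] : ∃ N : ℕ, maximalIdeal A ^ N = ⊥ := by
  have h : IsNilpotent (maximalIdeal A) :=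
    (isArtinianRing_iff_isNilpotent_maximalIdeal A).mp inferInstance
  obtain ⟨N, hN⟩ := h
  exact ⟨N, hN⟩

lemma matCont_of_finLevel (r : Gal →* M2 A) (h : GaloisFactorsThroughFiniteLevel r) :
    MatCont r := by
  obtain ⟨L, hL, h1⟩ := h
  intro n
  refine ⟨L, hL, fun σ hσ i j => ?_⟩
  rw [h1 σ hσ, sub_self]
  exact Ideal.zero_mem _

lemma finLevel_of_matCont (hN : ∃ N : ℕ, maximalIdeal A ^ N = ⊥) (r : Gal →* M2 A)
    (h : MatCont r) : GaloisFactorsThroughFiniteLevel r := by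
  obtain ⟨N, hN⟩ := hN
  obtain ⟨L, hL, h1⟩ := h N
  refine ⟨L, hL, fun σ hσ => ?_⟩
  have : r σ - 1 = 0 := by
    ext i j
    have := h1 σ hσ i j
    rwa [hN, Ideal.mem_bot] at this
  exact sub_eq_zero.mp this

end FinLevel

section Lift

variable {𝒪 : Type} [CommRing 𝒪] [IsLocalRing 𝒪]
variable (ρbar : ResidualGaloisRep (ResidueField 𝒪))
variable (bb : Module.Basis (Fin 2) (ResidueField 𝒪) ρbar.V)
variable {A : Type} [CommRing A] [IsLocalRing A] [Algebra 𝒪 A] [TestAlg 𝒪 A]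
variable {B : Type} [CommRing B] [IsLocalRing B] [Algebra 𝒪 B] [TestAlg 𝒪 B]

lemma isLift_iff_toK (r : Gal →* M2 A) :
    IsLift ρbar bb r ↔ ∀ σ i j, toK 𝒪 A (r σ i j) = rbar ρbar bb σ i j := by
  simp only [IsLift, toK_eq_iff]

lemma isLift_mapMat_iff (φ : A →ₐ[𝒪] B) (r : Gal →* M2 A) :
    IsLift ρbar bb (mapMat (φ : A →+* B) r) ↔ IsLift ρbar bb r := by
  rw [isLift_iff_toK, isLift_iff_toK]
  simp only [mapMat_apply, RingHom.coe_coe, toK_comp]

/-- The reduction of the Gram matrix. -/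
lemma toK_gram_det (r : Gal →* M2 A) (hl : IsLift ρbar bb r) (g : Fin 4 → Gal) :
    toK 𝒪 A (gram (fun i => r (g i))).det = (gram (fun i => rbar ρbar bb (g i))).det := by
  rw [isLift_iff_toK] at hl
  have h1 : (toK 𝒪 A : A →+* ResidueField 𝒪) (gram (fun i => r (g i))).det =
      ((toK 𝒪 A : A →+* ResidueField 𝒪).mapMatrix (gram (fun i => r (g i)))).det :=
    RingHom.map_det _ _
  have h2 : (toK 𝒪 A : A →+* ResidueField 𝒪).mapMatrix (gram (fun i => r (g i))) =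
      gram (fun i => rbar ρbar bb (g i)) := by
    ext i j
    simp only [RingHom.mapMatrix_apply, Matrix.map_apply, gram, Matrix.of_apply, ← map_mul,
      Matrix.trace, Matrix.diag, map_sum, RingHom.coe_coe, hl]
  rw [← h2]
  exact h1

lemma isUnit_gram_det (r : Gal →* M2 A) (hl : IsLift ρbar bb r) (g : Fin 4 → Gal)
    (hg : (gram (fun i => rbar ρbar bb (g i))).det ≠ 0) :
    IsUnit (gram (fun i => r (g i))).det := by
  rw [← toK_ne_zero_iff (𝒪 := 𝒪), toK_gram_det ρbar bb r hl g]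
  exact hg

end Lift

section DLift

variable {𝒪 : Type} [CommRing 𝒪] [IsLocalRing 𝒪]
variable (ρbar : ResidualGaloisRep (ResidueField 𝒪))
variable (bb : Module.Basis (Fin 2) (ResidueField 𝒪) ρbar.V)
variable (𝒟 : ∀ ⦃A : Type⦄ [CommRing A] [IsLocalRing A] [Algebra 𝒪 A], GaloisRepAdic A → Prop)
variable {A : Type} [CommRing A] [IsLocalRing A] [Algebra 𝒪 A] [TestAlg 𝒪 A]
variable {B : Type} [CommRing B] [IsLocalRing B] [Algebra 𝒪 B] [TestAlg 𝒪 B]

/-- A `𝒟`-lift of `ρbar` (in the basis `bb`) over the test algebra `A`. -/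
structure IsDLift (r : Gal →* M2 A) : Prop where
  cont : MatCont r
  lift : IsLift ρbar bb r
  isD : 𝒟 (ofMat r cont)

variable {ρbar bb 𝒟}

lemma isEquiv_symm {R : Type} [CommRing R] [IsLocalRing R] {ρ₁ ρ₂ : GaloisRepAdic R}
    (h : ρ₁.IsEquiv ρ₂) : ρ₂.IsEquiv ρ₁ := by
  obtain ⟨e⟩ := h
  exact ⟨e.symm⟩

lemma isEquiv_trans {R : Type} [CommRing R] [IsLocalRing R] {ρ₁ ρ₂ ρ₃ : GaloisRepAdic R}
    (h : ρ₁.IsEquiv ρ₂) (h' : ρ₂.IsEquiv ρ₃) : ρ₁.IsEquiv ρ₃ := by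
  obtain ⟨e⟩ := h
  obtain ⟨e'⟩ := h'
  exact ⟨e.trans e'⟩

variable (h𝒟 : GaloisRep.IsDeformationCondition 𝒪 𝒟)
include h𝒟

theorem IsDLift.map [Finite A] [Finite B] (φ : A →ₐ[𝒪] B) {r : Gal →* M2 A}
    (h : IsDLift ρbar bb 𝒟 r) : IsDLift ρbar bb 𝒟 (mapMat (φ : A →+* B) r) where
  cont := mapMat_cont _ (isLocalHom_algHom φ) h.cont
  lift := (isLift_mapMat_iff ρbar bb φ r).mpr h.lift
  isD := h𝒟.of_isEquiv isArtinianTest
    (baseChangeAlong_ofMat (φ : A →+* B) (isLocalHom_algHom φ) r h.cont)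
    (h𝒟.baseChangeAlong isArtinianTest isArtinianTest φ (isLocalHom_algHom φ) h.isD)

theorem IsDLift.of_conj [Finite A] {r r' : Gal →* M2 A} (h : IsDLift ρbar bb 𝒟 r)
    (hl : IsLift ρbar bb r') (u : M2 A) (hu : IsUnit u) (hc : ∀ σ, u * r σ = r' σ * u) :
    IsDLift ρbar bb 𝒟 r' := by
  have hcont : MatCont r' := by
    apply matCont_of_finLevel
    obtain ⟨L, hL, h1⟩ := finLevel_of_matCont exists_pow_eq_bot r h.cont
    refine ⟨L, hL, fun σ hσ => ?_⟩
    have := hc σ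
    rw [h1 σ hσ, mul_one] at this
    obtain ⟨v, rfl⟩ := hu
    have h2 : r' σ * ↑v * ↑v⁻¹ = ↑v * ↑v⁻¹ := by rw [← this]
    rwa [mul_assoc, Units.mul_inv, mul_one] at h2
  exact ⟨hcont, hl, h𝒟.of_isEquiv isArtinianTest (isEquiv_of_conj h.cont hcont u hu hc) h.isD⟩

theorem IsDLift.of_map_injective [Finite A] [Finite B] (φ : A →ₐ[𝒪] B)
    (hφ : Function.Injective φ) {r : Gal →* M2 A}
    (h : IsDLift ρbar bb 𝒟 (mapMat (φ : A →+* B) r)) : IsDLift ρbar bb 𝒟 r := by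
  have hcont : MatCont r := by
    apply matCont_of_finLevel
    obtain ⟨L, hL, h1⟩ := finLevel_of_matCont exists_pow_eq_bot _ h.cont
    refine ⟨L, hL, fun σ hσ => ?_⟩
    ext i j
    apply hφ
    have := congrFun (congrFun (h1 σ hσ) i) j
    rw [mapMat_apply] at this
    rw [RingHom.coe_coe] at this
    rw [this]
    by_cases hij : i = j
    · subst hij; simp
    · simp [hij]
  refine ⟨hcont, (isLift_mapMat_iff ρbar bb φ r).mp h.lift, ?_⟩
  exact h𝒟.of_baseChangeAlong_injective isArtinianTest isArtinianTest φ (isLocalHom_algHom φ) hφ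
    (h𝒟.of_isEquiv isArtinianTest
      (isEquiv_symm (baseChangeAlong_ofMat (φ : A →+* B) (isLocalHom_algHom φ) r hcont)) h.isD)

end DLift

end Fermat.Agent.S53
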