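import Fermat.Agent.S53.DLift

/-!
# Joint lifts over fibre products and descent to subalgebras containing the traces
-/

set_option autoImplicit false
set_option linter.unusedSectionVars false

namespace Fermat.Agent.S53

open IsLocalRing Matrix

section Sub

variable {𝒪 : Type} [CommRing 𝒪] {E : Type} [CommRing E] [Algebra 𝒪 E]

/-- A matrix representation with entries in a subalgebra, as a representation over the
subalgebra. -/
noncomputable def liftToSub (T : Subalgebra 𝒪 E) (r : Gal →* M2 E) (h : ∀ σ i j, r σ i j ∈ T) :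
    Gal →* M2 T where
  toFun σ := Matrix.of fun i j => ⟨r σ i j, h σ i j⟩
  map_one' := by
    ext i j
    simp only [Matrix.of_apply, map_one, Matrix.one_apply]
    split_ifs <;> rfl
  map_mul' σ τ := by
    ext i j
    simp only [Matrix.of_apply, map_mul, Matrix.mul_apply, Fin.sum_univ_two]
    rfl

@[simp] lemma liftToSub_apply (T : Subalgebra 𝒪 E) (r : Gal →* M2 E) (h : ∀ σ i j, r σ i j ∈ T)
    (σ : Gal) (i j : Fin 2) : ((liftToSub T r h σ i j : T) : E) = r σ i j := rfl

lemma mapMat_liftToSub (T : Subalgebra 𝒪 E) (r : Gal →* M2 E) (h : ∀ σ i j, r σ i j ∈ T) :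
    mapMat (T.val : T →+* E) (liftToSub T r h) = r := by
  ext σ i j
  rfl

lemma trace_liftToSub (T : Subalgebra 𝒪 E) (r : Gal →* M2 E) (h : ∀ σ i j, r σ i j ∈ T)
    (σ : Gal) : ((Matrix.trace (liftToSub T r h σ) : T) : E) = Matrix.trace (r σ) := by
  simp [Matrix.trace, Fin.sum_univ_two]

variable {E' : Type} [CommRing E']

/-- The pair of two matrix representations. -/
noncomputable def pairMat (r : Gal →* M2 E) (r' : Gal →* M2 E') : Gal →* M2 (E × E') where
  toFun σ := Matrix.of fun i j => (r σ i j, r' σ i j)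
  map_one' := by
    ext i j
    · simp only [Matrix.of_apply, map_one, Matrix.one_apply]
      split_ifs <;> rfl
    · simp only [Matrix.of_apply, map_one, Matrix.one_apply]
      split_ifs <;> rfl
  map_mul' σ τ := by
    ext i j
    · simp only [Matrix.of_apply, map_mul, Matrix.mul_apply, Fin.sum_univ_two]
      rfl
    · simp only [Matrix.of_apply, map_mul, Matrix.mul_apply, Fin.sum_univ_two]
      rfl

@[simp] lemma pairMat_apply (r : Gal →* M2 E) (r' : Gal →* M2 E') (σ : Gal) (i j : Fin 2) :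
    pairMat r r' σ i j = (r σ i j, r' σ i j) := rfl

end Sub

section Joint

variable {𝒪 : Type} [CommRing 𝒪] [IsLocalRing 𝒪]
variable {ρbar : ResidualGaloisRep (ResidueField 𝒪)}
variable {bb : Module.Basis (Fin 2) (ResidueField 𝒪) ρbar.V}
variable {𝒟 : ∀ ⦃A : Type⦄ [CommRing A] [IsLocalRing A] [Algebra 𝒪 A], GaloisRepAdic A → Prop}
variable {A : Type} [CommRing A] [IsLocalRing A] [Algebra 𝒪 A] [TestAlg 𝒪 A] [Finite A]
variable {B : Type} [CommRing B] [IsLocalRing B] [Algebra 𝒪 B] [TestAlg 𝒪 B] [Finite B]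

lemma pairMat_mem_fib {r : Gal →* M2 A} {r' : Gal →* M2 B} (hl : IsLift ρbar bb r)
    (hl' : IsLift ρbar bb r') (σ : Gal) (i j : Fin 2) : pairMat r r' σ i j ∈ fib 𝒪 A B := by
  rw [isLift_iff_toK] at hl hl'
  rw [mem_fib, pairMat_apply, hl, hl']

/-- The joint lift over the fibre product. -/
noncomputable def jointLift (r : Gal →* M2 A) (r' : Gal →* M2 B) (hl : IsLift ρbar bb r)
    (hl' : IsLift ρbar bb r') : Gal →* M2 (fib 𝒪 A B) :=
  liftToSub (fib 𝒪 A B) (pairMat r r') (pairMat_mem_fib hl hl')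

lemma mapMat_fibFst_jointLift (r : Gal →* M2 A) (r' : Gal →* M2 B) (hl : IsLift ρbar bb r)
    (hl' : IsLift ρbar bb r') :
    mapMat (fibFst 𝒪 A B : fib 𝒪 A B →+* A) (jointLift r r' hl hl') = r := by
  ext σ i j
  rfl

lemma mapMat_fibSnd_jointLift (r : Gal →* M2 A) (r' : Gal →* M2 B) (hl : IsLift ρbar bb r)
    (hl' : IsLift ρbar bb r') :
    mapMat (fibSnd 𝒪 A B : fib 𝒪 A B →+* B) (jointLift r r' hl hl') = r' := by
  ext σ i j
  rfl

lemma trace_jointLift (r : Gal →* M2 A) (r' : Gal →* M2 B) (hl : IsLift ρbar bb r)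
    (hl' : IsLift ρbar bb r') (σ : Gal) :
    ((Matrix.trace (jointLift r r' hl hl' σ) : fib 𝒪 A B) : A × B) =
      (Matrix.trace (r σ), Matrix.trace (r' σ)) := by
  simp [Matrix.trace, Fin.sum_univ_two, jointLift]

variable (h𝒟 : GaloisRep.IsDeformationCondition 𝒪 𝒟)
include h𝒟

theorem IsDLift.joint {r : Gal →* M2 A} {r' : Gal →* M2 B} (h : IsDLift ρbar bb 𝒟 r)
    (h' : IsDLift ρbar bb 𝒟 r') :
    IsDLift (A := fib 𝒪 A B) ρbar bb 𝒟 (jointLift (𝒪 := 𝒪) r r' h.lift h'.lift) := by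
  have hcont : MatCont (A := fib 𝒪 A B) (jointLift r r' h.lift h'.lift) := by
    apply matCont_of_finLevel
    obtain ⟨L, hL, h1⟩ := finLevel_of_matCont exists_pow_eq_bot r h.cont
    obtain ⟨L', hL', h1'⟩ := finLevel_of_matCont exists_pow_eq_bot r' h'.cont
    refine ⟨L ⊔ L', inferInstance, fun σ hσ => ?_⟩
    have e1 := h1 σ fun x hx => hσ x ((le_sup_left : L ≤ L ⊔ L') hx)
    have e2 := h1' σ fun x hx => hσ x ((le_sup_right : L' ≤ L ⊔ L') hx)
    ext i j
    · show r σ i j = ((1 : M2 (fib 𝒪 A B)) i j : A × B).1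
      rw [e1]
      simp only [Matrix.one_apply]
      split_ifs <;> rfl
    · show r' σ i j = ((1 : M2 (fib 𝒪 A B)) i j : A × B).2
      rw [e2]
      simp only [Matrix.one_apply]
      split_ifs <;> rfl
  have hlift : IsLift (A := fib 𝒪 A B) ρbar bb (jointLift r r' h.lift h'.lift) := by
    rw [← isLift_mapMat_iff ρbar bb (fibFst 𝒪 A B), mapMat_fibFst_jointLift]
    exact h.lift
  refine ⟨hcont, hlift, ?_⟩
  have hA : 𝒟 ((ofMat (A := fib 𝒪 A B) (jointLift r r' h.lift h'.lift) hcont).baseChangeAlong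
      (fibFst 𝒪 A B : fib 𝒪 A B →+* A) (isLocalHom_algHom _)) := by
    refine h𝒟.of_isEquiv isArtinianTest (isEquiv_symm (baseChangeAlong_ofMat _ _ _ hcont)) ?_
    have := h.isD
    convert this using 2
    exact mapMat_fibFst_jointLift r r' h.lift h'.lift
  have hB : 𝒟 ((ofMat (A := fib 𝒪 A B) (jointLift r r' h.lift h'.lift) hcont).baseChangeAlong
      (fibSnd 𝒪 A B : fib 𝒪 A B →+* B) (isLocalHom_algHom _)) := by
    refine h𝒟.of_isEquiv isArtinianTest (isEquiv_symm (baseChangeAlong_ofMat _ _ _ hcont)) ?_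
    have := h'.isD
    convert this using 2
    exact mapMat_fibSnd_jointLift r r' h.lift h'.lift
  haveI : Finite (ResidueField 𝒪) := Finite.of_surjective (toK 𝒪 A) toK_surjective
  exact h𝒟.of_fibreProduct (A := A) (B := B) (C := ResidueField 𝒪) (P := fib 𝒪 A B)
    isArtinianTest isArtinianTest isArtinianTest isArtinianTest
    (toK 𝒪 A) (toK 𝒪 B) (fibFst 𝒪 A B) (fibSnd 𝒪 A B) (isLocalHom_algHom _) (isLocalHom_algHom _)
    fib_comp_eq fib_injective (fun a b hab => fib_exists a b hab) hA hB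

end Joint

end Fermat.Agent.S53
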