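import Fermat.Agent.S53.Base

/-!
# Level rings and the notion of a universal lift
-/

set_option autoImplicit false
set_option linter.unusedSectionVars false

namespace Fermat.Agent.S53

open IsLocalRing

noncomputable section

variable {𝒪 : Type} [CommRing 𝒪] [IsLocalRing 𝒪] [Finite (ResidueField 𝒪)]
variable {ρbar : ResidualGaloisRep (ResidueField 𝒪)}
variable {𝒟 : ∀ ⦃A : Type⦄ [CommRing A] [IsLocalRing A] [Algebra 𝒪 A], GaloisRepAdic A → Prop}
variable (S : Setup 𝒪 ρbar 𝒟)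

/-- The level rings `R/𝔪^(n+1)`. -/
abbrev Setup.Rn (n : ℕ) : Type := S.R ⧸ maximalIdeal S.R ^ (n + 1)

/-- The reduction `R → R/𝔪^(n+1)` as an `𝒪`-algebra map. -/
abbrev Setup.toRn (n : ℕ) : S.R →ₐ[𝒪] S.Rn n := Ideal.Quotient.mkₐ 𝒪 (maximalIdeal S.R ^ (n + 1))

/-- The image of the variable `X i` in `R`. -/
abbrev Setup.x (i : Fin S.d) : S.R := Ideal.Quotient.mk S.J (MvPowerSeries.X i)

/-- The properties of a universal lift. -/
structure Setup.IsUnivLift (r : Gal →* M2 S.R) : Prop where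
  cont : MatCont r
  lift : IsLift ρbar S.bb r
  tr_h : ∀ i, S.t r i = S.x i
  level : ∀ n : ℕ, IsDLift (A := S.Rn n) ρbar S.bb 𝒟 (mapMat (S.toRn n : S.R →+* S.Rn n) r)

end

end Fermat.Agent.S53
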