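import Mathlib
import Fermat.Prelude.Def_GaloisRep_DeformationRingData
import Fermat.Prelude.Def_GaloisRep_DeformationCondition

set_option autoImplicit false
open scoped TensorProduct

namespace Fermat.Agent.S53

/-- The absolute Galois group of `ℚ`. -/
abbrev Gal : Type := AlgebraicClosure ℚ ≃ₐ[ℚ] AlgebraicClosure ℚ

/-- 2x2 matrices. -/
abbrev M2 (A : Type) : Type := Matrix (Fin 2) (Fin 2) A

section Basic

variable {A : Type} [CommRing A] [IsLocalRing A]

/-- adic continuity for matrix-valued maps -/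
def MatCont (r : Gal →* M2 A) : Prop :=
  ∀ n : ℕ, ∃ L : IntermediateField ℚ (AlgebraicClosure ℚ), FiniteDimensional ℚ L ∧
    ∀ σ : Gal, (∀ x ∈ L, σ x = x) → ∀ i j, (r σ - 1) i j ∈ IsLocalRing.maximalIdeal A ^ n

omit [IsLocalRing A] in
lemma mem_smul_top_pi (I : Ideal A) (v : Fin 2 → A) (hv : ∀ i, v i ∈ I) :
    v ∈ I • (⊤ : Submodule A (Fin 2 → A)) := by
  have : v = ∑ i, v i • (Pi.single i 1 : Fin 2 → A) := by
    ext j
    simp [Finset.sum_apply, Pi.single_apply]
  rw [this]
  exact Submodule.sum_mem _ fun i _ => Submodule.smul_mem_smul (hv i) Submodule.mem_top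

omit [IsLocalRing A] in
lemma apply_mem_of_mem_smul_top_pi (I : Ideal A) (v : Fin 2 → A)
    (hv : v ∈ I • (⊤ : Submodule A (Fin 2 → A))) (i : Fin 2) : v i ∈ I := by
  refine Submodule.smul_induction_on hv ?_ ?_
  · intro a ha w _
    simpa using I.mul_mem_right (w i) ha
  · intro x y hx hy
    simpa using I.add_mem hx hy

/-- The monoid hom from matrices to endomorphisms of `Fin 2 → A`. -/
noncomputable def matToEnd (A : Type) [CommRing A] : M2 A →* Module.End A (Fin 2 → A) :=
  (Matrix.toLinAlgEquiv' (R := A) (n := Fin 2)).toAlgHom.toRingHom.toMonoidHom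

omit [IsLocalRing A] in
@[simp] lemma matToEnd_apply (m : M2 A) (v : Fin 2 → A) : matToEnd A m v = m.mulVec v := rfl

/-- The `GaloisRepAdic` attached to a continuous matrix-valued representation. -/
noncomputable def ofMat (r : Gal →* M2 A) (hr : MatCont r) : GaloisRepAdic A where
  V := Fin 2 → A
  finrank_eq := by simp
  ρ := (matToEnd A).comp r
  isAdicContinuous := by
    intro n
    obtain ⟨L, hL, h⟩ := hr n
    refine ⟨L, hL, fun σ hσ v => ?_⟩
    apply mem_smul_top_pi
    intro i
    have : ((matToEnd A).comp r) σ v - v = (r σ - 1).mulVec v := by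
      simp [Matrix.sub_mulVec]
    rw [this]
    simp only [Matrix.mulVec, dotProduct]
    exact Ideal.sum_mem _ fun j _ => Ideal.mul_mem_right _ _ (h σ hσ i j)

@[simp] lemma ofMat_V (r : Gal →* M2 A) (hr : MatCont r) : (ofMat r hr).V = (Fin 2 → A) := rfl

lemma ofMat_ρ_apply (r : Gal →* M2 A) (hr : MatCont r) (σ : Gal) (v : Fin 2 → A) :
    (ofMat r hr).ρ σ v = (r σ).mulVec v := rfl

end Basic

end Fermat.Agent.S53
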