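import Fermat.Agent.S53.Dict

set_option autoImplicit false
open scoped TensorProduct

namespace Fermat.Agent.S53

section Conj

variable {A : Type} [CommRing A] [IsLocalRing A]

/-- Conjugate matrix representations give equivalent `GaloisRepAdic`s. -/
theorem isEquiv_of_conj {r r' : Gal →* M2 A} (hr : MatCont r) (hr' : MatCont r')
    (u : M2 A) (hu : IsUnit u) (h : ∀ σ, u * r σ = r' σ * u) :
    (ofMat r hr).IsEquiv (ofMat r' hr') := by
  obtain ⟨v, hv⟩ := hu
  have h1 : (↑v⁻¹ : M2 A) * u = 1 := by rw [← hv]; exact v.inv_mul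
  have h2 : u * (↑v⁻¹ : M2 A) = 1 := by rw [← hv]; exact v.mul_inv
  refine ⟨⟨Matrix.toLin'OfInv h1 h2, fun σ (x : Fin 2 → A) => ?_⟩⟩
  show u.mulVec ((r σ).mulVec x) = (r' σ).mulVec (u.mulVec x)
  rw [Matrix.mulVec_mulVec, Matrix.mulVec_mulVec, h σ]

/-- Equivalent `GaloisRepAdic`s have equal traces. -/
theorem trace_eq_of_isEquiv {ρ₁ ρ₂ : GaloisRepAdic A} (h : ρ₁.IsEquiv ρ₂) (σ : Gal) :
    LinearMap.trace A ρ₁.V (ρ₁.ρ σ) = LinearMap.trace A ρ₂.V (ρ₂.ρ σ) := by
  obtain ⟨e⟩ := h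
  have : ρ₂.ρ σ = e.toLinearEquiv.conj (ρ₁.ρ σ) := by
    ext x
    simp only [LinearEquiv.conj_apply, LinearMap.coe_comp, LinearEquiv.coe_coe,
      Function.comp_apply]
    rw [e.map_apply, LinearEquiv.apply_symm_apply]
  rw [this, LinearMap.trace_conj']

theorem trace_ofMat (r : Gal →* M2 A) (hr : MatCont r) (σ : Gal) :
    LinearMap.trace A (ofMat r hr).V ((ofMat r hr).ρ σ) = Matrix.trace (r σ) := by
  show LinearMap.trace A (Fin 2 → A) (Matrix.toLin' (r σ)) = _
  exact Matrix.trace_toLin'_eq _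

theorem trace_eq_of_ofMat_isEquiv {r r' : Gal →* M2 A} {hr : MatCont r} {hr' : MatCont r'}
    (h : (ofMat r hr).IsEquiv (ofMat r' hr')) (σ : Gal) :
    Matrix.trace (r σ) = Matrix.trace (r' σ) := by
  rw [← trace_ofMat r hr, ← trace_ofMat r' hr']
  exact trace_eq_of_isEquiv h σ

theorem trace_baseChangeAlong {B : Type} [CommRing B] [IsLocalRing B] (φ : A →+* B)
    (hφ : IsLocalHom φ) (ρ : GaloisRepAdic A) (σ : Gal) :
    LinearMap.trace B (ρ.baseChangeAlong φ hφ).V ((ρ.baseChangeAlong φ hφ).ρ σ) =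
      φ (LinearMap.trace A ρ.V (ρ.ρ σ)) := by
  let _ : Algebra A B := φ.toAlgebra
  show LinearMap.trace B (B ⊗[A] ρ.V) ((ρ.ρ σ).baseChange B) = _
  rw [LinearMap.trace_baseChange]
  rfl

end Conj

section BaseChange

variable {A : Type} [CommRing A] [IsLocalRing A] {B : Type} [CommRing B] [IsLocalRing B]

/-- Pushforward of a matrix representation along a ring hom. -/
noncomputable def mapMat (φ : A →+* B) (r : Gal →* M2 A) : Gal →* M2 B :=
  (φ.mapMatrix (m := Fin 2)).toMonoidHom.comp r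

omit [IsLocalRing A] [IsLocalRing B] in
@[simp] lemma mapMat_apply (φ : A →+* B) (r : Gal →* M2 A) (σ : Gal) (i j : Fin 2) :
    mapMat φ r σ i j = φ (r σ i j) := rfl

lemma mapMat_cont (φ : A →+* B) (hφ : IsLocalHom φ) {r : Gal →* M2 A} (hr : MatCont r) :
    MatCont (mapMat φ r) := by
  intro n
  obtain ⟨L, hL, h⟩ := hr n
  refine ⟨L, hL, fun σ hσ i j => ?_⟩
  have hmap : (IsLocalRing.maximalIdeal A ^ n).map φ ≤ IsLocalRing.maximalIdeal B ^ n := by
    rw [Ideal.map_pow]
    exact Ideal.pow_right_mono (Ideal.map_le_iff_le_comap.mpr fun a ha =>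
      Ideal.mem_comap.mpr (haveI := hφ; map_nonunit φ a ha)) n
  have : (mapMat φ r σ - 1) i j = φ ((r σ - 1) i j) := by
    simp only [Matrix.sub_apply, mapMat_apply, map_sub]
    congr 1
    by_cases hij : i = j
    · subst hij; simp
    · simp [hij]
  rw [this]
  exact hmap (Ideal.mem_map_of_mem φ (h σ hσ i j))

omit [IsLocalRing A] [IsLocalRing B] in
lemma piScalarRight_baseChange_toLin' [Algebra A B] (m : M2 A) (x : B ⊗[A] (Fin 2 → A)) :
    TensorProduct.piScalarRight A B B (Fin 2) ((Matrix.toLin' m).baseChange B x) =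
      (m.map (algebraMap A B)).mulVec (TensorProduct.piScalarRight A B B (Fin 2) x) := by
  induction x using TensorProduct.induction_on with
  | zero => simp only [map_zero, Matrix.mulVec_zero]
  | tmul b v =>
    rw [LinearMap.baseChange_tmul]
    ext i
    simp only [TensorProduct.piScalarRight_apply, TensorProduct.piScalarRightHom_tmul,
      Matrix.toLin'_apply, Matrix.mulVec, dotProduct, Matrix.map_apply]
    rw [Finset.sum_smul]
    refine Finset.sum_congr rfl fun j _ => ?_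
    rw [mul_smul, Algebra.smul_def, Algebra.smul_def]
  | add x y hx hy => simp only [map_add, hx, hy, Matrix.mulVec_add]

theorem baseChangeAlong_ofMat (φ : A →+* B) (hφ : IsLocalHom φ) (r : Gal →* M2 A)
    (hr : MatCont r) :
    ((ofMat r hr).baseChangeAlong φ hφ).IsEquiv (ofMat (mapMat φ r) (mapMat_cont φ hφ hr)) := by
  let _ : Algebra A B := φ.toAlgebra
  refine ⟨⟨TensorProduct.piScalarRight A B B (Fin 2), fun σ x => ?_⟩⟩
  exact piScalarRight_baseChange_toLin' (r σ) x

end BaseChange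

end Fermat.Agent.S53
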