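import Fermat.Agent.S53.Dict2

set_option autoImplicit false
open scoped TensorProduct

namespace Fermat.Agent.S53

section

variable {A : Type} [CommRing A]

lemma repr_mem_of_mem_smul_top {V : Type} [AddCommGroup V] [Module A V]
    (b : Module.Basis (Fin 2) A V) (I : Ideal A) (x : V)
    (hx : x ∈ I • (⊤ : Submodule A V)) (i : Fin 2) : b.repr x i ∈ I := by
  refine Submodule.smul_induction_on hx ?_ ?_
  · intro a ha w _
    simpa using I.mul_mem_right (b.repr w i) ha
  · intro x y hx hy
    simpa using I.add_mem hx hy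

end

section Generic

variable {k k' : Type} [Field k] [Field k']

/-- A basis of the base change of a residual representation along a field hom, in which
the matrices are the images of the original matrices. -/
theorem exists_basis_baseChangeAlong (ψ : k →+* k') (ρ : ResidualGaloisRep k)
    (bb : Module.Basis (Fin 2) k ρ.V) :
    ∃ cb : Module.Basis (Fin 2) k' (ρ.baseChangeAlong ψ).V,
      ∀ σ, LinearMap.toMatrix cb cb ((ρ.baseChangeAlong ψ).ρ σ) =
        (LinearMap.toMatrix bb bb (ρ.ρ σ)).map ψ := by
  letI : Algebra k k' := ψ.toAlgebra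
  refine ⟨Algebra.TensorProduct.basis k' bb, fun σ => ?_⟩
  exact LinearMap.toMatrix_baseChange k' (ρ.ρ σ) bb bb

end Generic

section Lift

variable {𝒪 : Type} [CommRing 𝒪] [IsLocalRing 𝒪]
variable (ρbar : ResidualGaloisRep (IsLocalRing.ResidueField 𝒪))
variable (bb : Module.Basis (Fin 2) (IsLocalRing.ResidueField 𝒪) ρbar.V)

/-- The matrix form of the residual representation. -/
noncomputable def rbar : Gal →* M2 (IsLocalRing.ResidueField 𝒪) :=
  (LinearMap.toMatrixAlgEquiv bb).toAlgHom.toRingHom.toMonoidHom.comp ρbar.ρ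

lemma rbar_apply (σ : Gal) : rbar ρbar bb σ = LinearMap.toMatrix bb bb (ρbar.ρ σ) := rfl

variable {A : Type} [CommRing A] [IsLocalRing A] [Algebra 𝒪 A] [IsLocalHom (algebraMap 𝒪 A)]

/-- `r` reduces exactly to the matrix form of `ρbar`. -/
def IsLift (r : Gal →* M2 A) : Prop :=
  ∀ σ i j, IsLocalRing.residue A (r σ i j) =
    IsLocalRing.ResidueField.map (algebraMap 𝒪 A) (rbar ρbar bb σ i j)

/-- Every deformation of `ρbar` is equivalent to the `GaloisRepAdic` of a lift. -/
theorem exists_lift (ρA : GaloisRepAdic A)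
    (hres : ρA.residual.IsEquiv
      (ρbar.baseChangeAlong (IsLocalRing.ResidueField.map (algebraMap 𝒪 A)))) :
    ∃ (r : Gal →* M2 A) (hr : MatCont r), IsLift ρbar bb r ∧ (ofMat r hr).IsEquiv ρA := by
  classical
  obtain ⟨e⟩ := hres
  obtain ⟨cb, hcb⟩ := exists_basis_baseChangeAlong
    (IsLocalRing.ResidueField.map (algebraMap 𝒪 A)) ρbar bb
  -- the linear equivalence between the residual spaces
  let E : (IsLocalRing.ResidueField A ⊗[A] ρA.V) ≃ₗ[IsLocalRing.ResidueField A]
      (ρbar.baseChangeAlong (IsLocalRing.ResidueField.map (algebraMap 𝒪 A))).V := e.toLinearEquiv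
  have hE : ∀ (σ : Gal) (x : IsLocalRing.ResidueField A ⊗[A] ρA.V),
      E ((ρA.ρ σ).baseChange (IsLocalRing.ResidueField A) x) =
        (ρbar.baseChangeAlong (IsLocalRing.ResidueField.map (algebraMap 𝒪 A))).ρ σ (E x) :=
    fun σ x => e.map_apply σ x
  let c : Module.Basis (Fin 2) (IsLocalRing.ResidueField A)
      (IsLocalRing.ResidueField A ⊗[A] ρA.V) := cb.map E.symm
  have hsurj : ∀ i, ∃ v : ρA.V, (1 : IsLocalRing.ResidueField A) ⊗ₜ[A] v = c i := fun i =>
    TensorProduct.mk_surjective A ρA.V (IsLocalRing.ResidueField A)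
      IsLocalRing.residue_surjective (c i)
  choose v hv using hsurj
  have hcomp : (TensorProduct.mk A (IsLocalRing.ResidueField A) ρA.V 1 ∘ v) = c := by
    funext i
    exact hv i
  have hli : LinearIndependent A v := by
    apply Module.IsLocalRing.linearIndependent_of_flat
    rw [hcomp]
    exact c.linearIndependent
  have hspan : Submodule.span A (Set.range v) = ⊤ :=
    IsLocalRing.span_eq_top_of_tmul_eq_basis v c hv
  let vA : Module.Basis (Fin 2) A ρA.V := Module.Basis.mk hli hspan.ge
  have hvA : ∀ i, vA i = v i := fun i => Module.Basis.mk_apply hli hspan.ge i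
  have hcvA : c = Algebra.TensorProduct.basis (IsLocalRing.ResidueField A) vA := by
    apply Module.Basis.eq_of_apply_eq
    intro i
    rw [Algebra.TensorProduct.basis_apply, hvA, hv]
  let r : Gal →* M2 A := (LinearMap.toMatrixAlgEquiv vA).toAlgHom.toRingHom.toMonoidHom.comp ρA.ρ
  have hr_apply : ∀ σ, r σ = LinearMap.toMatrix vA vA (ρA.ρ σ) := fun σ => rfl
  have hr : MatCont r := by
    intro n
    obtain ⟨L, hL, h⟩ := ρA.isAdicContinuous n
    refine ⟨L, hL, fun σ hσ i j => ?_⟩
    have h1 : (r σ - 1) i j = vA.repr (ρA.ρ σ (vA j) - vA j) i := by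
      rw [Matrix.sub_apply, hr_apply, LinearMap.toMatrix_apply, map_sub, Finsupp.sub_apply,
        Module.Basis.repr_self, Matrix.one_apply, Finsupp.single_apply]
      congr 1
      by_cases hij : i = j
      · subst hij; simp
      · rw [if_neg hij, if_neg (Ne.symm hij)]
    rw [h1]
    exact repr_mem_of_mem_smul_top vA _ _ (h σ hσ (vA j)) i
  refine ⟨r, hr, ?_, ?_⟩
  · intro σ i j
    have h1 : LinearMap.toMatrix c c ((ρA.ρ σ).baseChange (IsLocalRing.ResidueField A)) =
        (r σ).map (algebraMap A (IsLocalRing.ResidueField A)) := by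
      rw [hcvA, LinearMap.toMatrix_baseChange, hr_apply]
    have h2 := hcb σ
    have h3 : LinearMap.toMatrix c c ((ρA.ρ σ).baseChange (IsLocalRing.ResidueField A)) =
        LinearMap.toMatrix cb cb
          ((ρbar.baseChangeAlong (IsLocalRing.ResidueField.map (algebraMap 𝒪 A))).ρ σ) := by
      ext i j
      rw [LinearMap.toMatrix_apply, LinearMap.toMatrix_apply]
      show (cb.map E.symm).repr (((ρA.ρ σ).baseChange (IsLocalRing.ResidueField A))
        ((cb.map E.symm) j)) i = _
      rw [Module.Basis.map_repr, Module.Basis.map_apply]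
      simp only [LinearEquiv.trans_apply, LinearEquiv.symm_symm]
      rw [hE, LinearEquiv.apply_symm_apply]
    have h4 := congrFun (congrFun (h1.symm.trans (h3.trans h2)) i) j
    simpa [rbar_apply] using h4
  · refine ⟨⟨vA.equivFun.symm, fun σ (x : Fin 2 → A) => ?_⟩⟩
    show vA.equivFun.symm ((r σ).mulVec x) = ρA.ρ σ (vA.equivFun.symm x)
    apply vA.equivFun.injective
    rw [LinearEquiv.apply_symm_apply]
    have := LinearMap.toMatrix_mulVec_repr vA vA (ρA.ρ σ) (vA.equivFun.symm x)
    rw [hr_apply]
    rw [show (vA.repr (vA.equivFun.symm x) : Fin 2 → A) = x from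
      vA.equivFun.apply_symm_apply x] at this
    rw [this]
    rfl

omit [IsLocalRing 𝒪] [Algebra 𝒪 A] [IsLocalHom (algebraMap 𝒪 A)] in
lemma equivFun_symm_mulVec {k' : Type} [Field k'] {V : Type} [AddCommGroup V] [Module k' V]
    (cb : Module.Basis (Fin 2) k' V) (G : V →ₗ[k'] V) (y : Fin 2 → k') :
    cb.equivFun.symm ((LinearMap.toMatrix cb cb G).mulVec y) = G (cb.equivFun.symm y) := by
  apply cb.equivFun.injective
  rw [LinearEquiv.apply_symm_apply]
  have := LinearMap.toMatrix_mulVec_repr cb cb G (cb.equivFun.symm y)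
  rw [show (cb.repr (cb.equivFun.symm y) : Fin 2 → k') = y from
    cb.equivFun.apply_symm_apply y] at this
  rw [this]
  rfl

/-- The residual representation of the `GaloisRepAdic` of a lift is `ρbar`. -/
theorem residual_ofMat (r : Gal →* M2 A) (hr : MatCont r) (hl : IsLift ρbar bb r) :
    (ofMat r hr).residual.IsEquiv
      (ρbar.baseChangeAlong (IsLocalRing.ResidueField.map (algebraMap 𝒪 A))) := by
  classical
  obtain ⟨cb, hcb⟩ := exists_basis_baseChangeAlong
    (IsLocalRing.ResidueField.map (algebraMap 𝒪 A)) ρbar bb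
  have key : ∀ (σ : Gal) (x : IsLocalRing.ResidueField A ⊗[A] (Fin 2 → A)),
      cb.equivFun.symm (TensorProduct.piScalarRight A (IsLocalRing.ResidueField A)
        (IsLocalRing.ResidueField A) (Fin 2)
        ((Matrix.toLin' (r σ)).baseChange (IsLocalRing.ResidueField A) x)) =
      (ρbar.baseChangeAlong (IsLocalRing.ResidueField.map (algebraMap 𝒪 A))).ρ σ
        (cb.equivFun.symm (TensorProduct.piScalarRight A (IsLocalRing.ResidueField A)
        (IsLocalRing.ResidueField A) (Fin 2) x)) := by
    intro σ x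
    rw [piScalarRight_baseChange_toLin', ← equivFun_symm_mulVec, hcb σ]
    congr 2
    ext i j
    simp only [Matrix.map_apply]
    exact hl σ i j
  exact ⟨⟨(TensorProduct.piScalarRight A (IsLocalRing.ResidueField A)
    (IsLocalRing.ResidueField A) (Fin 2)).trans cb.equivFun.symm, fun σ x => key σ x⟩⟩

end Lift

end Fermat.Agent.S53
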