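import Mathlib
import Fermat.Agent.S53.Dict3
import Fermat.Agent.S53.Gram

set_option autoImplicit false
open scoped TensorProduct

namespace Fermat.Agent.S53

section BurnsideAbstract

variable {K : Type*} [Field K] [IsAlgClosed K] {V : Type*} [AddCommGroup V] [Module K V]
variable {G : Type*} [Monoid G]

omit [IsAlgClosed K] in
/-- The span of the image of a monoid representation, as a subalgebra. -/
lemma h4_span_range_eq_adjoin (ρ : G →* Module.End K V) :
    Submodule.span K (Set.range ρ) =
      Subalgebra.toSubmodule (Algebra.adjoin K (Set.range ρ)) := by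
  rw [Algebra.adjoin_eq_span]
  congr 1
  have : (Set.range ρ) = ((MonoidHom.mrange ρ : Submonoid (Module.End K V)) : Set _) := by
    ext x; simp
  rw [this, Submonoid.closure_eq]

omit [IsAlgClosed K] in
/-- A subspace stable under all `ρ g` is stable under the span of the `ρ g`. -/
lemma h4_stable_of_mem_span (ρ : G →* Module.End K V) (W : Submodule K V)
    (hW : ∀ g, ∀ x ∈ W, ρ g x ∈ W) {a : Module.End K V}
    (ha : a ∈ Submodule.span K (Set.range ρ)) : ∀ x ∈ W, a x ∈ W := by
  intro x hx
  induction ha using Submodule.span_induction with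
  | mem a ha =>
    obtain ⟨g, rfl⟩ := ha
    exact hW g x hx
  | zero => simp
  | add a b _ _ ha hb => simpa using W.add_mem ha hb
  | smul c a _ ha => simpa using W.smul_mem c ha

/-- **Burnside's theorem** in dimension two: an irreducible two-dimensional representation of
a monoid over an algebraically closed field spans the full endomorphism algebra. -/
theorem h4_burnside_span_eq_top (hV : Module.finrank K V = 2) (ρ : G →* Module.End K V)
    (hirr : ∀ W : Submodule K V, (∀ g, ∀ x ∈ W, ρ g x ∈ W) → W = ⊥ ∨ W = ⊤) :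
    Submodule.span K (Set.range ρ) = ⊤ := by
  classical
  have : FiniteDimensional K V := Module.finite_of_finrank_eq_succ hV
  have : Nontrivial V := Module.nontrivial_of_finrank_pos (R := K) (by rw [hV]; norm_num)
  set 𝒜 : Submodule K (Module.End K V) := Submodule.span K (Set.range ρ) with h𝒜
  have h𝒜alg : 𝒜 = Subalgebra.toSubmodule (Algebra.adjoin K (Set.range ρ)) :=
    h4_span_range_eq_adjoin ρ
  have hone : (1 : Module.End K V) ∈ 𝒜 := by
    rw [h𝒜alg]; exact (Algebra.adjoin K (Set.range ρ)).one_mem
  have hmul : ∀ a b, a ∈ 𝒜 → b ∈ 𝒜 → a * b ∈ 𝒜 := by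
    intro a b ha hb
    rw [h𝒜alg] at ha hb ⊢
    exact (Algebra.adjoin K (Set.range ρ)).mul_mem ha hb
  -- a line is never ⊥ or ⊤
  have hline : ∀ v : V, v ≠ 0 → ¬ (∀ g, ∀ x ∈ Submodule.span K {v}, ρ g x ∈ Submodule.span K {v}) := by
    intro v hv hstab
    rcases hirr _ hstab with h | h
    · exact hv ((Submodule.span_singleton_eq_bot).mp h)
    · have h1 : Module.finrank K (Submodule.span K {v}) = 1 := finrank_span_singleton hv
      rw [h] at h1
      rw [finrank_top, hV] at h1
      omega
  -- Step 1: a nonzero element of 𝒜 with a nonzero kernel vector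
  obtain ⟨a', ha'mem, ha'ne, v0, hv0, ha'v0⟩ :
      ∃ a' ∈ 𝒜, a' ≠ 0 ∧ ∃ v0 : V, v0 ≠ 0 ∧ a' v0 = 0 := by
    by_contra hcon
    push Not at hcon
    -- then every ρ g is a scalar
    have hscal : ∀ g, ∃ μ : K, ρ g = μ • (1 : Module.End K V) := by
      intro g
      obtain ⟨μ, hμ⟩ := Module.End.exists_eigenvalue (ρ g)
      obtain ⟨v, hv⟩ := hμ.exists_hasEigenvector
      refine ⟨μ, ?_⟩
      by_contra hne
      have hmem : ρ g - μ • (1 : Module.End K V) ∈ 𝒜 :=
        𝒜.sub_mem (Submodule.subset_span ⟨g, rfl⟩) (𝒜.smul_mem μ hone)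
      have hne' : ρ g - μ • (1 : Module.End K V) ≠ 0 := fun h => hne (sub_eq_zero.mp h)
      refine hcon _ hmem hne' v hv.2 ?_
      simp [hv.apply_eq_smul]
    obtain ⟨v, hv⟩ := exists_ne (0 : V)
    refine hline v hv ?_
    intro g x hx
    obtain ⟨μ, hμ⟩ := hscal g
    rw [hμ]
    simpa using (Submodule.span K {v}).smul_mem μ hx
  -- Step 2: evaluation at v0 is surjective
  let ev : 𝒜 →ₗ[K] V :=
    { toFun := fun a => (a : Module.End K V) v0
      map_add' := fun a b => by simp
      map_smul' := fun c a => by simp }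
  have hev_range : LinearMap.range ev = ⊤ := by
    have hstab : ∀ g, ∀ x ∈ LinearMap.range ev, ρ g x ∈ LinearMap.range ev := by
      rintro g _ ⟨a, rfl⟩
      refine ⟨⟨ρ g * a, hmul _ _ (Submodule.subset_span ⟨g, rfl⟩) a.2⟩, rfl⟩
    rcases hirr _ hstab with h | h
    · exfalso
      have : v0 ∈ LinearMap.range ev := ⟨⟨1, hone⟩, by simp [ev]⟩
      rw [h] at this
      exact hv0 ((Submodule.mem_bot K).mp this)
    · exact h
  -- Step 3: dimension count
  have hrank := LinearMap.finrank_range_add_finrank_ker ev
  rw [hev_range, finrank_top, hV] at hrank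
  have hEnd : Module.finrank K (Module.End K V) = 4 := by
    rw [Module.finrank_linearMap, hV]
  by_contra htop
  have hlt : Module.finrank K 𝒜 < 4 := by
    rw [← hEnd]
    exact Submodule.finrank_lt htop
  have hker : Module.finrank K (LinearMap.ker ev) ≤ 1 := by omega
  -- a' spans the kernel
  have ha'ker : (⟨a', ha'mem⟩ : 𝒜) ∈ LinearMap.ker ev := by
    simp [ev, ha'v0]
  have ha'ne' : (⟨⟨a', ha'mem⟩, ha'ker⟩ : LinearMap.ker ev) ≠ 0 := by
    intro h
    apply ha'ne
    have := congrArg (fun x : LinearMap.ker ev => ((x : 𝒜) : Module.End K V)) h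
    simpa using this
  have hker1 : Module.finrank K (LinearMap.ker ev) = 1 := by
    have hpos : 0 < Module.finrank K (LinearMap.ker ev) :=
      (Module.finrank_pos_iff_exists_ne_zero (R := K) (M := ↥(LinearMap.ker ev))).mpr ⟨_, ha'ne'⟩
    omega
  have hspan : ∀ w : LinearMap.ker ev, ∃ c : K,
      c • (⟨⟨a', ha'mem⟩, ha'ker⟩ : LinearMap.ker ev) = w :=
    (finrank_eq_one_iff_of_nonzero' (K := K) (V := ↥(LinearMap.ker ev)) _ ha'ne').mp hker1
  -- every b ∈ 𝒜 satisfies b * a' = χ • a'
  have hchi : ∀ b ∈ 𝒜, ∃ c : K, b * a' = c • a' := by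
    intro b hb
    have hmem : (⟨b * a', hmul _ _ hb ha'mem⟩ : 𝒜) ∈ LinearMap.ker ev := by
      simp [ev, ha'v0]
    obtain ⟨c, hc⟩ := hspan ⟨_, hmem⟩
    refine ⟨c, ?_⟩
    have := congrArg (fun x : LinearMap.ker ev => ((x : 𝒜) : Module.End K V)) hc
    simpa using this.symm
  -- pick v1 with a' v1 ≠ 0
  obtain ⟨v1, hv1⟩ : ∃ v1, a' v1 ≠ 0 := by
    by_contra h
    push Not at h
    exact ha'ne (LinearMap.ext h)
  refine hline (a' v1) hv1 ?_
  intro g x hx
  obtain ⟨d, rfl⟩ := Submodule.mem_span_singleton.mp hx
  obtain ⟨c, hc⟩ := hchi (ρ g) (Submodule.subset_span ⟨g, rfl⟩)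
  have h1 : ρ g (a' v1) = c • a' v1 := by
    have := congrArg (fun f : Module.End K V => f v1) hc
    simpa using this
  rw [map_smul, h1]
  exact Submodule.smul_mem _ _ (Submodule.smul_mem _ _ (Submodule.mem_span_singleton_self _))

end BurnsideAbstract


section Descent

variable {k : Type} [Field k]

/-- The matrix form of a residual representation in a basis. -/
noncomputable def h4rb (ρ : ResidualGaloisRep k) (bb : Module.Basis (Fin 2) k ρ.V) (σ : Gal) :
    M2 k :=
  LinearMap.toMatrix bb bb (ρ.ρ σ)

/-- For an absolutely irreducible residual representation, the matrices `ρ σ` span `M₂(k)`. -/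
theorem h4_span_rb_eq_top (ρ : ResidualGaloisRep k) (bb : Module.Basis (Fin 2) k ρ.V)
    (habs : ρ.IsAbsolutelyIrreducible) :
    Submodule.span k (Set.range (h4rb ρ bb)) = ⊤ := by
  classical
  set Kb := AlgebraicClosure k with hKb
  set ρb := ρ.baseChange Kb with hρb
  have hspan : Submodule.span Kb (Set.range ρb.ρ) = ⊤ :=
    h4_burnside_span_eq_top ρb.finrank_eq ρb.ρ habs
  let cb : Module.Basis (Fin 2) Kb ρb.V := Algebra.TensorProduct.basis Kb bb
  have hmat : ∀ σ, LinearMap.toMatrix cb cb (ρb.ρ σ) =
      (h4rb ρ bb σ).map (algebraMap k Kb) := fun σ =>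
    LinearMap.toMatrix_baseChange Kb (ρ.ρ σ) bb bb
  by_contra hne
  obtain ⟨f, hf0, hf⟩ := Submodule.exists_le_ker_of_lt_top _ (lt_top_iff_ne_top.mpr hne)
  -- the functional over the algebraic closure
  let F : Module.End Kb ρb.V →ₗ[Kb] Kb :=
    { toFun := fun φ => ∑ i, ∑ j, algebraMap k Kb (f (Matrix.single i j 1)) *
        (LinearMap.toMatrix cb cb φ) i j
      map_add' := fun φ ψ => by
        simp only [map_add, Matrix.add_apply, mul_add, Finset.sum_add_distrib]
      map_smul' := fun c φ => by
        simp only [map_smul, Matrix.smul_apply, smul_eq_mul, RingHom.id_apply]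
        rw [Finset.mul_sum]
        refine Finset.sum_congr rfl fun i _ => ?_
        rw [Finset.mul_sum]
        refine Finset.sum_congr rfl fun j _ => by ring }
  have hfsum : ∀ m : M2 k, f m = ∑ i, ∑ j, f (Matrix.single i j 1) * m i j := by
    intro m
    conv_lhs => rw [Matrix.matrix_eq_sum_single m]
    simp only [map_sum]
    refine Finset.sum_congr rfl fun i _ => Finset.sum_congr rfl fun j _ => ?_
    have : Matrix.single i j (m i j) = (m i j) • (Matrix.single i j (1 : k) : M2 k) := by
      rw [Matrix.smul_single, smul_eq_mul, mul_one]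
    rw [this, map_smul, smul_eq_mul, mul_comm]
  have hFρ : ∀ σ, F (ρb.ρ σ) = 0 := by
    intro σ
    have h1 : f (h4rb ρ bb σ) = 0 := hf (Submodule.subset_span ⟨σ, rfl⟩)
    show ∑ i, ∑ j, algebraMap k Kb (f (Matrix.single i j 1)) *
        (LinearMap.toMatrix cb cb (ρb.ρ σ)) i j = 0
    rw [hmat σ]
    simp only [Matrix.map_apply, ← map_mul, ← map_sum]
    rw [← hfsum, h1, map_zero]
  have hF0 : F = 0 := LinearMap.ext_on_range hspan (fun σ => by rw [hFρ σ, LinearMap.zero_apply])
  apply hf0
  have hcoef : ∀ i j, f (Matrix.single i j 1) = 0 := by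
    intro i j
    have h1 : F (LinearMap.toMatrix cb cb |>.symm (Matrix.single i j 1)) = 0 := by
      rw [hF0, LinearMap.zero_apply]
    have h2 : F (LinearMap.toMatrix cb cb |>.symm (Matrix.single i j 1)) =
        algebraMap k Kb (f (Matrix.single i j 1)) := by
      show ∑ i', ∑ j', algebraMap k Kb (f (Matrix.single i' j' 1)) *
        (LinearMap.toMatrix cb cb (LinearMap.toMatrix cb cb |>.symm (Matrix.single i j 1))) i' j' = _
      rw [LinearEquiv.apply_symm_apply]
      fin_cases i <;> fin_cases j <;> simp [Matrix.single_apply, Fin.sum_univ_two]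
    rw [h2] at h1
    exact (map_eq_zero (algebraMap k Kb)).mp h1
  apply LinearMap.ext
  intro m
  rw [hfsum m]
  simp [hcoef]


/-- Extracting four group elements whose matrices form a basis. -/
theorem h4_exists_four (ρ : ResidualGaloisRep k) (bb : Module.Basis (Fin 2) k ρ.V)
    (habs : ρ.IsAbsolutelyIrreducible) :
    ∃ g : Fin 4 → Gal, LinearIndependent k (fun i => h4rb ρ bb (g i)) ∧
      Submodule.span k (Set.range (fun i => h4rb ρ bb (g i))) = ⊤ := by
  classical
  have hspan := h4_span_rb_eq_top ρ bb habs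
  obtain ⟨b, hb, hbspan, hli⟩ := exists_linearIndependent k (Set.range (h4rb ρ bb))
  rw [hspan] at hbspan
  have hfin : Finite b := hli.finite
  let _inst : Fintype b := Fintype.ofFinite b
  let B : Module.Basis b k (M2 k) := Module.Basis.mk hli (by rw [Subtype.range_coe]; exact hbspan.ge)
  have hcard : Fintype.card b = 4 := by
    have h1 := Module.finrank_eq_card_basis B
    have h2 : Module.finrank k (M2 k) = 4 := by
      simp [M2, Module.finrank_matrix]
    omega
  let e : Fin 4 ≃ b := (Fintype.equivFinOfCardEq hcard).symm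
  choose! γ hγ using fun x (hx : x ∈ b) => hb hx
  refine ⟨fun i => γ (e i).1, ?_, ?_⟩
  · have : (fun i => h4rb ρ bb (γ (e i).1)) = (Subtype.val : b → M2 k) ∘ e := by
      funext i
      exact hγ _ (e i).2
    rw [this]
    exact hli.comp e e.injective
  · have : (fun i => h4rb ρ bb (γ (e i).1)) = (Subtype.val : b → M2 k) ∘ e := by
      funext i
      exact hγ _ (e i).2
    rw [this, Set.range_comp, Set.range_eq_univ.mpr e.surjective, Set.image_univ,
      Subtype.range_coe]
    exact hbspan

end Descent

section GramField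

variable {k : Type*} [Field k]

/-- For a basis of `M₂(k)`, the Gram determinant of the trace form is nonzero. -/
theorem h4_gram_det_ne_zero (b : Fin 4 → Matrix (Fin 2) (Fin 2) k)
    (hli : LinearIndependent k b) (hspan : Submodule.span k (Set.range b) = ⊤) :
    (gram b).det ≠ 0 := by
  classical
  intro hdet
  have hdet' : ((gram b).transpose).det = 0 := by rw [Matrix.det_transpose, hdet]
  obtain ⟨c, hc0, hc⟩ := Matrix.exists_mulVec_eq_zero_iff.mpr hdet'
  have htr : trVec b (comb b c) = 0 := by rw [trVec_comb, hc]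
  -- `x = comb b c` is trace-orthogonal to everything
  have horth : ∀ y : Matrix (Fin 2) (Fin 2) k, Matrix.trace (comb b c * y) = 0 := by
    intro y
    have hy : y ∈ Submodule.span k (Set.range b) := by rw [hspan]; trivial
    induction hy using Submodule.span_induction with
    | mem y hy =>
      obtain ⟨j, rfl⟩ := hy
      have := congrFun htr j
      simpa [trVec_apply] using this
    | zero => simp
    | add y z _ _ hy hz => rw [mul_add, Matrix.trace_add, hy, hz, add_zero]
    | smul a y _ hy => rw [Matrix.mul_smul, Matrix.trace_smul, hy, smul_zero]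
  have hx0 : comb b c = 0 := by
    ext i j
    have := horth (Matrix.single j i 1)
    rw [Matrix.trace_fin_two] at this
    fin_cases i <;> fin_cases j <;>
      simpa [Matrix.mul_apply, Fin.sum_univ_two, Matrix.single_apply] using this
  rw [comb_apply] at hx0
  have := (Fintype.linearIndependent_iff.mp hli) c hx0
  exact hc0 (funext this)

end GramField

section Main

open Matrix

/-- L1a (Burnside, 2x2): over an algebraically closed field, a multiplicative family of
2x2 matrices with no common invariant line spans the full matrix algebra. -/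
theorem burnside_two {K : Type*} [Field K] [IsAlgClosed K] {G : Type*} [Monoid G]
    (r : G →* Matrix (Fin 2) (Fin 2) K)
    (hirr : ∀ W : Submodule K (Fin 2 → K), (∀ g, ∀ v ∈ W, (r g).mulVec v ∈ W) → W = ⊥ ∨ W = ⊤) :
    Submodule.span K (Set.range r) = ⊤ := by
  classical
  let E : Matrix (Fin 2) (Fin 2) K ≃ₐ[K] Module.End K (Fin 2 → K) := Matrix.toLinAlgEquiv'
  let ρ : G →* Module.End K (Fin 2 → K) := (E : Matrix (Fin 2) (Fin 2) K →* _).comp r
  have hV : Module.finrank K (Fin 2 → K) = 2 := by simp
  have h := h4_burnside_span_eq_top hV ρ (fun W hW => hirr W (fun g v hv => by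
    have := hW g v hv
    simpa [ρ, E, Matrix.toLinAlgEquiv'_apply] using this))
  have hrange : Set.range ρ = (E.toLinearMap : _ →ₗ[K] _) '' (Set.range r) := by
    ext x
    simp [ρ, Set.mem_image]
  rw [hrange, Submodule.span_image] at h
  have htop : Submodule.map (E.toLinearMap : _ →ₗ[K] _) ⊤ = ⊤ := by
    rw [Submodule.map_top]
    exact LinearMap.range_eq_top.mpr E.surjective
  rw [← htop] at h
  exact Submodule.map_injective_of_injective (f := (E.toLinearMap : _ →ₗ[K] _)) E.injective h

/-- L1 (what the main proof uses): for an absolutely irreducible residual representation, in any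
basis `bb`, there are four Galois elements whose matrices have nonzero Gram determinant. -/
theorem exists_gram_ne_zero {k : Type} [Field k] (ρbar : ResidualGaloisRep k)
    (habs : ρbar.IsAbsolutelyIrreducible) (bb : Module.Basis (Fin 2) k ρbar.V) :
    ∃ g : Fin 4 → Gal,
      (gram (fun i => LinearMap.toMatrix bb bb (ρbar.ρ (g i)))).det ≠ 0 := by
  obtain ⟨g, hli, hspan⟩ := h4_exists_four ρbar bb habs
  exact ⟨g, h4_gram_det_ne_zero _ hli hspan⟩

/-- L1' (bonus): if the Gram determinant is a unit then every matrix is a combination of the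
four. -/
theorem exists_comb_eq {A : Type*} [CommRing A] (b : Fin 4 → Matrix (Fin 2) (Fin 2) A)
    (h : IsUnit (gram b).det) (x : Matrix (Fin 2) (Fin 2) A) :
    ∃ c : Fin 4 → A, ∑ i, c i • b i = x :=
  ⟨_, comb_trVec b h x⟩

end Main

end Fermat.Agent.S53
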