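import Fermat.Agent.S53.Defs2
import Fermat.Agent.S53.Rigid
import Fermat.Prelude.Thm_IsLocalRing_isAdicComplete_of_module_finite

/-!
# The ring `R = P/J`: completeness, finite quotients, level lifts, classifying maps
-/

set_option autoImplicit false
set_option linter.unusedSectionVars false

namespace Fermat.Agent.S53

open IsLocalRing

noncomputable section

section General

variable {𝒪 : Type} [CommRing 𝒪] [IsLocalRing 𝒪]

lemma trace_mapMat {A B : Type} [CommRing A] [CommRing B] (φ : A →+* B) (r : Gal →* M2 A)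
    (σ : Gal) : Matrix.trace (mapMat φ r σ) = φ (Matrix.trace (r σ)) := by
  simp [Matrix.trace, Fin.sum_univ_two, mapMat_apply]

lemma finite_residueField (𝒪 : Type) [CommRing 𝒪] [IsLocalRing 𝒪] [Finite (ResidueField 𝒪)]
    (A : Type) [CommRing A] [IsLocalRing A] [Algebra 𝒪 A] [TestAlg 𝒪 A] :
    Finite (ResidueField A) :=
  Finite.of_surjective (resEquiv 𝒪 A) (resEquiv 𝒪 A).surjective

lemma finite_quot_pow (𝒪 : Type) [CommRing 𝒪] [IsLocalRing 𝒪] [Finite (ResidueField 𝒪)]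
    (A : Type) [CommRing A] [IsLocalRing A] [IsNoetherianRing A] [Algebra 𝒪 A] [TestAlg 𝒪 A]
    (n : ℕ) : Finite (A ⧸ maximalIdeal A ^ n) := by
  have := finite_residueField 𝒪 A
  exact finite_quotient_maximalIdeal_pow A n

/-- An algebra hom between test algebras maps `𝔪^n` into `𝔪^n`. -/
lemma map_maximalIdeal_pow_le {A B : Type} [CommRing A] [IsLocalRing A] [Algebra 𝒪 A]
    [TestAlg 𝒪 A] [CommRing B] [IsLocalRing B] [Algebra 𝒪 B] [TestAlg 𝒪 B] (φ : A →ₐ[𝒪] B)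
    (n : ℕ) : (maximalIdeal A ^ n).map (φ : A →+* B) ≤ maximalIdeal B ^ n := by
  rw [Ideal.map_pow]
  refine Ideal.pow_right_mono (Ideal.map_le_iff_le_comap.mpr fun a ha => ?_) n
  exact (algHom_mem_maximalIdeal_iff φ a).mpr ha

lemma maximalIdeal_pow_le_ker {A B : Type} [CommRing A] [IsLocalRing A] [Algebra 𝒪 A]
    [TestAlg 𝒪 A] [CommRing B] [IsLocalRing B] [Algebra 𝒪 B] [TestAlg 𝒪 B] (φ : A →ₐ[𝒪] B)
    (n : ℕ) (hn : maximalIdeal B ^ n = ⊥) :
    maximalIdeal A ^ n ≤ RingHom.ker (φ : A →+* B) := by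
  intro a ha
  have := map_maximalIdeal_pow_le φ n (Ideal.mem_map_of_mem _ ha)
  rw [hn] at this
  exact this

end General

variable {𝒪 : Type} [CommRing 𝒪] [IsLocalRing 𝒪] [IsNoetherianRing 𝒪]
  [IsAdicComplete (maximalIdeal 𝒪) 𝒪] [Finite (ResidueField 𝒪)]
variable {ρbar : ResidualGaloisRep (ResidueField 𝒪)}
variable {𝒟 : ∀ ⦃A : Type⦄ [CommRing A] [IsLocalRing A] [Algebra 𝒪 A], GaloisRepAdic A → Prop}
variable (S : Setup 𝒪 ρbar 𝒟)

lemma Setup.t_mapMat {A B : Type} [CommRing A] [Algebra 𝒪 A] [CommRing B] [Algebra 𝒪 B]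
    (φ : A →ₐ[𝒪] B) (r : Gal →* M2 A) (i : Fin S.d) :
    S.t (mapMat (φ : A →+* B) r) i = φ (S.t r i) := by
  rw [Setup.t, Setup.t, trace_mapMat, map_sub, AlgHom.commutes]
  rfl

/-- The joint datum. -/
abbrev Setup.jointDatum (D D' : LiftDatum S) : LiftDatum S where
  A := fib 𝒪 D.A D'.A
  r := jointLift D.r D'.r D.isL.lift D'.isL.lift
  isL := IsDLift.joint S.h𝒟 D.isL D'.isL

/-- (C1) -/
theorem Setup.fam_directed : ∀ I ∈ S.fam, ∀ I' ∈ S.fam, ∃ I'' ∈ S.fam, I'' ≤ I ⊓ I' := by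
  rintro I ⟨D, ev, hev, rfl⟩ I' ⟨D', ev', hev', rfl⟩
  obtain ⟨ev'', hev'', -⟩ := S.exists_ev (S.jointDatum D D')
  refine ⟨_, ⟨S.jointDatum D D', ev'', hev'', rfl⟩, ?_⟩
  have h1 : (fibFst 𝒪 D.A D'.A).comp ev'' = ev := by
    apply PS_algHom_ext (exists_pow_eq_bot (A := D.A))
    · intro i
      rw [AlgHom.comp_apply, hev'', ← Setup.t_mapMat]
      exact S.t_mem ((isLift_mapMat_iff ρbar S.bb _ _).mpr (S.jointDatum D D').isL.lift) i
    · intro i
      rw [AlgHom.comp_apply, hev'', hev, ← Setup.t_mapMat]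
      congr 1
  have h2 : (fibSnd 𝒪 D.A D'.A).comp ev'' = ev' := by
    apply PS_algHom_ext (exists_pow_eq_bot (A := D'.A))
    · intro i
      rw [AlgHom.comp_apply, hev'', ← Setup.t_mapMat]
      exact S.t_mem ((isLift_mapMat_iff ρbar S.bb _ _).mpr (S.jointDatum D D').isL.lift) i
    · intro i
      rw [AlgHom.comp_apply, hev'', hev', ← Setup.t_mapMat]
      congr 1
  intro x hx
  rw [RingHom.mem_ker] at hx
  refine ⟨?_, ?_⟩
  · show (ev : S.P →+* D.A) x = 0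
    rw [← h1]
    show fibFst 𝒪 D.A D'.A (ev'' x) = 0
    rw [show ev'' x = 0 from hx, map_zero]
  · show (ev' : S.P →+* D'.A) x = 0
    rw [← h2]
    show fibSnd 𝒪 D.A D'.A (ev'' x) = 0
    rw [show ev'' x = 0 from hx, map_zero]

/-- (C2) -/
theorem Setup.fam_open : ∀ I ∈ S.fam, ∃ N : ℕ, maximalIdeal S.P ^ N ≤ I := by
  rintro I ⟨D, ev, -, rfl⟩
  obtain ⟨N, hN⟩ := exists_pow_eq_bot (A := D.A)
  exact ⟨N, maximalIdeal_pow_le_ker ev N hN⟩

/-- (C3) -/
theorem Setup.exists_level (n : ℕ) :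
    ∃ I ∈ S.fam, S.J ⊔ maximalIdeal S.P ^ n = I ⊔ maximalIdeal S.P ^ n := by
  haveI : IsAdicComplete (maximalIdeal S.P) S.P := PS_isAdicComplete 𝒪 S.d
  exact exists_sup_pow_eq_sInf_sup_pow (fun m => finite_quot_pow 𝒪 S.P m) S.fam S.fam_nonempty
    S.fam_open S.fam_directed n

/-- (C4) -/
theorem Setup.R_isAdicComplete : IsAdicComplete (maximalIdeal S.R) S.R := by
  haveI : IsAdicComplete (maximalIdeal S.P) S.P := PS_isAdicComplete 𝒪 S.d
  haveI : IsLocalHom (algebraMap S.P S.R) := instIsLocalHomQuotMk S.J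
  exact IsLocalRing.isAdicComplete_of_module_finite (𝒪 := S.P) (T := S.R)

/-- (C5) -/
theorem Setup.finite_R_quot (n : ℕ) : Finite (S.R ⧸ maximalIdeal S.R ^ n) :=
  finite_quot_pow 𝒪 S.R n

instance Setup.instFiniteRn (n : ℕ) : Finite (S.Rn n) := S.finite_R_quot (n + 1)

/-- (C7) classifying maps factor through `R`. -/
theorem Setup.exists_classifying (D : LiftDatum S) :
    ∃ φ : S.R →ₐ[𝒪] D.A, ∀ i, φ (S.x i) = S.t D.r i := by
  obtain ⟨ev, hev, -⟩ := S.exists_ev D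
  have hJ : ∀ a ∈ S.J, ev a = 0 := fun a ha =>
    (sInf_le (⟨D, ev, hev, rfl⟩ : RingHom.ker (ev : S.P →+* D.A) ∈ S.fam) : S.J ≤ _) ha
  exact ⟨Ideal.Quotient.liftₐ S.J ev hJ, fun i => by
    change ev (MvPowerSeries.X i) = _
    exact hev i⟩

/-- Descending the projection `P → R/𝔪^(n+1)` along the range restriction of a classifying
map. -/
lemma Setup.exists_range_lift (n : ℕ) {A : Type} [CommRing A] [Algebra 𝒪 A] (ev : S.P →ₐ[𝒪] A)
    (hI : RingHom.ker (ev : S.P →+* A) ≤ S.J ⊔ maximalIdeal S.P ^ (n + 1)) :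
    ∃ q : ev.range →ₐ[𝒪] S.Rn n,
      ∀ x, q (ev.rangeRestrict x) = S.toRn n (Ideal.Quotient.mk S.J x) := by
  have hJπ : S.J ⊔ maximalIdeal S.P ^ (n + 1) ≤
      RingHom.ker ((S.toRn n).comp (Ideal.Quotient.mkₐ 𝒪 S.J)).toRingHom := by
    refine sup_le (fun a ha => ?_) (fun a ha => ?_)
    · show S.toRn n (Ideal.Quotient.mk S.J a) = 0
      rw [Ideal.Quotient.eq_zero_iff_mem.mpr ha, map_zero]
    · show Ideal.Quotient.mk (maximalIdeal S.R ^ (n + 1)) (Ideal.Quotient.mkₐ 𝒪 S.J a) = 0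
      rw [Ideal.Quotient.eq_zero_iff_mem]
      exact map_maximalIdeal_pow_le (Ideal.Quotient.mkₐ 𝒪 S.J) (n + 1)
        (Ideal.mem_map_of_mem _ ha)
  have hker : RingHom.ker ev.rangeRestrict.toRingHom ≤
      RingHom.ker ((S.toRn n).comp (Ideal.Quotient.mkₐ 𝒪 S.J)).toRingHom := by
    intro a ha
    have ha' : a ∈ RingHom.ker (ev : S.P →+* A) := by
      rw [RingHom.mem_ker] at ha ⊢
      exact congrArg Subtype.val ha
    exact hJπ (hI ha')
  refine ⟨AlgHom.liftOfSurjective (B := ev.range) (C := S.Rn n) ev.rangeRestrict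
      ev.rangeRestrict_surjective ((S.toRn n).comp (Ideal.Quotient.mkₐ 𝒪 S.J)) hker, fun x => ?_⟩
  have h1 : (Ideal.quotientKerAlgEquivOfSurjective ev.rangeRestrict_surjective).symm
      (ev.rangeRestrict x) = Ideal.Quotient.mk _ x :=
    Ideal.quotientKerAlgEquivOfSurjective_symm_apply _ x
  show Ideal.Quotient.liftₐ _ _ hker ((Ideal.quotientKerAlgEquivOfSurjective
    ev.rangeRestrict_surjective).symm (ev.rangeRestrict x)) = _
  rw [h1]
  rfl

/-- (C6) every `R/𝔪^(n+1)` carries a `𝒟`-lift with the universal traces at the `h i`. -/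
theorem Setup.exists_level_lift (n : ℕ) :
    ∃ s : Gal →* M2 (S.Rn n), IsDLift (A := S.Rn n) ρbar S.bb 𝒟 s ∧
      ∀ i, S.t s i = S.toRn n (S.x i) := by
  obtain ⟨I, ⟨D, ev, hev, rfl⟩, hI⟩ := S.exists_level (n + 1)
  -- the traces lie in the range of `ev`
  have hT : ∀ σ, Matrix.trace (D.r σ) ∈ ev.range := by
    intro σ
    refine (Algebra.adjoin_le ?_) (S.gen D.A D.r D.isL σ)
    rintro _ ⟨i, rfl⟩
    refine ⟨MvPowerSeries.X i + algebraMap 𝒪 S.P (S.τ i), ?_⟩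
    show ev (MvPowerSeries.X i + algebraMap 𝒪 S.P (S.τ i)) = Matrix.trace (D.r (S.h i))
    rw [map_add, hev, AlgHom.commutes, Setup.t, sub_add_cancel]
  obtain ⟨rT, hrT, htr⟩ := IsDLift.descend S.h𝒟 D.isL S.g S.hg ev.range hT
  obtain ⟨q, hq⟩ := S.exists_range_lift n ev (by rw [hI]; exact le_sup_left)
  have hmap : IsDLift (A := S.Rn n) ρbar S.bb 𝒟 (mapMat (q : ev.range →+* S.Rn n) rT) :=
    IsDLift.map (A := ev.range) (B := S.Rn n) S.h𝒟 q hrT
  refine ⟨mapMat (A := ev.range) (B := S.Rn n) (q : ev.range →+* S.Rn n) rT, hmap, fun i => ?_⟩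
  rw [Setup.t_mapMat]
  have h1 : S.t rT i = ev.rangeRestrict (MvPowerSeries.X i) := by
    apply Subtype.ext
    show ((S.t rT i : ev.range) : D.A) = ev (MvPowerSeries.X i)
    rw [hev, Setup.t, Setup.t]
    push_cast
    rw [htr]
  rw [h1, hq]

end

end Fermat.Agent.S53
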