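import Mathlib

/-!
# S53, sub-lemma L4: power series library

`P = MvPowerSeries (Fin d) 𝒪` over a complete Noetherian local ring `𝒪`:
* (G1) `A ⧸ 𝔪 ^ n` is finite for a Noetherian local ring with finite residue field;
* (P1) `algebraMap 𝒪 P` is local, residue-surjective, the variables lie in the maximal ideal;
* (P2) `P` is complete with respect to its maximal ideal;
* (P4) evaluation maps `P →ₐ[𝒪] B` for local `B` with nilpotent maximal ideal;
* (P5) uniqueness of such maps.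
-/

set_option autoImplicit false
set_option linter.unusedSectionVars false

namespace Fermat.Agent.S53

open IsLocalRing

section General

/-- (G1) quotients by powers of the maximal ideal are finite. -/
theorem finite_quotient_maximalIdeal_pow (A : Type*) [CommRing A] [IsLocalRing A]
    [IsNoetherianRing A] [Finite (ResidueField A)] (n : ℕ) :
    Finite (A ⧸ maximalIdeal A ^ n) := by
  have : Finite (A ⧸ maximalIdeal A) := ‹Finite (ResidueField A)›
  exact Ideal.finite_quotient_pow (IsNoetherian.noetherian (maximalIdeal A)) n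

end General

section PS

variable (𝒪 : Type) [CommRing 𝒪] [IsLocalRing 𝒪]

/-- The power series ring in `d` variables. -/
abbrev PS (d : ℕ) : Type := MvPowerSeries (Fin d) 𝒪

variable (d : ℕ)

variable {𝒪 d} in
theorem PS_mem_maximalIdeal_iff (f : PS 𝒪 d) :
    f ∈ maximalIdeal (PS 𝒪 d) ↔ MvPowerSeries.constantCoeff f ∈ maximalIdeal 𝒪 := by
  rw [mem_maximalIdeal, mem_maximalIdeal, mem_nonunits_iff, mem_nonunits_iff,
    MvPowerSeries.isUnit_iff_constantCoeff]

/-- (P1) -/
theorem PS_isLocalHom_algebraMap : IsLocalHom (algebraMap 𝒪 (PS 𝒪 d)) := by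
  constructor
  intro a ha
  rw [MvPowerSeries.algebraMap_apply, MvPowerSeries.isUnit_iff_constantCoeff] at ha
  simpa using ha

/-- (P1') -/
theorem PS_residue_surjective :
    Function.Surjective (IsLocalRing.residue (PS 𝒪 d) ∘ algebraMap 𝒪 (PS 𝒪 d)) := by
  intro y
  obtain ⟨f, rfl⟩ := IsLocalRing.residue_surjective y
  refine ⟨MvPowerSeries.constantCoeff f, ?_⟩
  simp only [Function.comp_apply]
  rw [← sub_eq_zero, ← map_sub, IsLocalRing.residue_eq_zero_iff, PS_mem_maximalIdeal_iff, map_sub,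
    MvPowerSeries.algebraMap_apply]
  simp

/-- (P1'') the variables lie in the maximal ideal. -/
theorem PS_X_mem_maximalIdeal (i : Fin d) :
    (MvPowerSeries.X i : PS 𝒪 d) ∈ maximalIdeal (PS 𝒪 d) := by
  rw [PS_mem_maximalIdeal_iff, MvPowerSeries.constantCoeff_X]
  exact zero_mem _

theorem PS_C_mem_maximalIdeal {a : 𝒪} (ha : a ∈ maximalIdeal 𝒪) :
    (MvPowerSeries.C a : PS 𝒪 d) ∈ maximalIdeal (PS 𝒪 d) := by
  rw [PS_mem_maximalIdeal_iff, MvPowerSeries.constantCoeff_C]
  exact ha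

/-- The ideal generated by the variables. -/
noncomputable abbrev PSvars : Ideal (PS 𝒪 d) := Ideal.span (Set.range (MvPowerSeries.X : Fin d → PS 𝒪 d))

theorem PSvars_le_maximalIdeal : PSvars 𝒪 d ≤ maximalIdeal (PS 𝒪 d) := by
  rw [PSvars, Ideal.span_le]
  rintro _ ⟨i, rfl⟩
  exact PS_X_mem_maximalIdeal 𝒪 d i

theorem PS_C_mem_maximalIdeal_pow {a : 𝒪} {n : ℕ} (ha : a ∈ maximalIdeal 𝒪 ^ n) :
    (MvPowerSeries.C a : PS 𝒪 d) ∈ maximalIdeal (PS 𝒪 d) ^ n := by
  have h1 : Ideal.map (MvPowerSeries.C : 𝒪 →+* PS 𝒪 d) (maximalIdeal 𝒪) ≤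
      maximalIdeal (PS 𝒪 d) := by
    rw [Ideal.map_le_iff_le_comap]
    intro b hb
    exact PS_C_mem_maximalIdeal 𝒪 d hb
  have h2 : Ideal.map (MvPowerSeries.C : 𝒪 →+* PS 𝒪 d) (maximalIdeal 𝒪 ^ n) ≤
      maximalIdeal (PS 𝒪 d) ^ n := by
    rw [Ideal.map_pow]
    exact Ideal.pow_right_mono h1 n
  exact h2 (Ideal.mem_map_of_mem _ ha)

/-- A power series all of whose coefficients of degree `< d * n + 1` vanish lies in the `n`-th
power of the ideal generated by the variables. -/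
theorem PS_mem_PSvars_pow (n : ℕ) (g : PS 𝒪 d)
    (hg : ∀ x : Fin d →₀ ℕ, Finsupp.degree x < d * n + 1 → MvPowerSeries.coeff x g = 0) :
    g ∈ PSvars 𝒪 d ^ n := by
  classical
  let h : Fin d → PS 𝒪 d := fun i x =>
    if n ≤ x i ∧ ∀ j < i, x j < n then MvPowerSeries.coeff x g else 0
  have hcoeff : ∀ i x, MvPowerSeries.coeff x (h i) =
      if n ≤ x i ∧ ∀ j < i, x j < n then MvPowerSeries.coeff x g else 0 := fun i x => rfl
  have hsum : g = ∑ i, h i := by
    ext x
    rw [map_sum]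
    simp only [hcoeff]
    by_cases hx : ∃ i, n ≤ x i
    · have hne : (Finset.univ.filter fun i => n ≤ x i).Nonempty := by
        obtain ⟨i, hi⟩ := hx
        exact ⟨i, by simp [hi]⟩
      set i₀ := (Finset.univ.filter fun i => n ≤ x i).min' hne with hi₀
      have hi₀mem : n ≤ x i₀ := by
        have := Finset.min'_mem _ hne
        simpa using this
      have hmin : ∀ j < i₀, x j < n := by
        intro j hj
        by_contra hcon
        have hjmem : j ∈ Finset.univ.filter fun i => n ≤ x i := by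
          simp only [Finset.mem_filter, Finset.mem_univ, true_and]
          omega
        have := Finset.min'_le _ j hjmem
        exact absurd (lt_of_lt_of_le hj this) (lt_irrefl _)
      rw [Finset.sum_eq_single i₀]
      · rw [if_pos ⟨hi₀mem, hmin⟩]
      · intro j _ hj
        rw [if_neg]
        rintro ⟨hj1, hj2⟩
        rcases lt_or_gt_of_ne hj with hlt | hgt
        · have := hmin j hlt
          omega
        · have := hj2 i₀ hgt
          omega
      · intro hcon
        exact absurd (Finset.mem_univ i₀) hcon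
    · push Not at hx
      have hdeg : Finsupp.degree x < d * n + 1 := by
        rw [Finsupp.degree_eq_sum]
        have : ∑ i : Fin d, x i ≤ ∑ _i : Fin d, n :=
          Finset.sum_le_sum fun i _ => (hx i).le
        simp only [Finset.sum_const, Finset.card_univ, Fintype.card_fin, smul_eq_mul] at this
        omega
      rw [hg x hdeg]
      symm
      apply Finset.sum_eq_zero
      intro i _
      simp
  rw [hsum]
  refine Ideal.sum_mem _ fun i _ => ?_
  have hdvd : (MvPowerSeries.X i : PS 𝒪 d) ^ n ∣ h i := by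
    rw [MvPowerSeries.X_pow_dvd_iff]
    intro m hm
    rw [hcoeff, if_neg]
    rintro ⟨h1, -⟩
    omega
  obtain ⟨c, hc⟩ := hdvd
  rw [hc]
  exact Ideal.mul_mem_right _ _ (Ideal.pow_mem_pow (Ideal.subset_span (Set.mem_range_self i)) n)

/-- The ideal of power series whose `x`-coefficient lies in `𝔪 ^ (n - deg x)`. -/
def PSW (n : ℕ) : Ideal (PS 𝒪 d) where
  carrier := {f | ∀ x : Fin d →₀ ℕ,
    MvPowerSeries.coeff x f ∈ maximalIdeal 𝒪 ^ (n - Finsupp.degree x)}
  add_mem' := by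
    intro a b ha hb x
    rw [map_add]
    exact Ideal.add_mem _ (ha x) (hb x)
  zero_mem' := by
    intro x
    rw [map_zero]
    exact zero_mem _
  smul_mem' := by
    classical
    intro c f hf x
    rw [smul_eq_mul, MvPowerSeries.coeff_mul]
    refine Ideal.sum_mem _ fun q hq => ?_
    have hq' : q.1 + q.2 = x := Finset.HasAntidiagonal.mem_antidiagonal.mp hq
    have hdeg : Finsupp.degree q.2 ≤ Finsupp.degree x := by
      rw [← hq', map_add]
      omega
    exact Ideal.mul_mem_left _ _ (Ideal.pow_le_pow_right (by omega) (hf q.2))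

variable {𝒪 d} in
theorem mem_PSW_iff {n : ℕ} {f : PS 𝒪 d} :
    f ∈ PSW 𝒪 d n ↔ ∀ x : Fin d →₀ ℕ,
      MvPowerSeries.coeff x f ∈ maximalIdeal 𝒪 ^ (n - Finsupp.degree x) := Iff.rfl

theorem maximalIdeal_le_PSW_one : maximalIdeal (PS 𝒪 d) ≤ PSW 𝒪 d 1 := by
  intro f hf x
  by_cases hx : Finsupp.degree x = 0
  · have hx0 : x = 0 := (Finsupp.degree_eq_zero_iff x).mp hx
    subst hx0
    rw [MvPowerSeries.coeff_zero_eq_constantCoeff_apply]
    simpa using (PS_mem_maximalIdeal_iff f).mp hf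
  · have : 1 - Finsupp.degree x = 0 := by omega
    rw [this, pow_zero, Ideal.one_eq_top]
    exact Submodule.mem_top

theorem maximalIdeal_mul_PSW_le (n : ℕ) :
    maximalIdeal (PS 𝒪 d) * PSW 𝒪 d n ≤ PSW 𝒪 d (n + 1) := by
  classical
  rw [Ideal.mul_le]
  intro a ha b hb x
  rw [MvPowerSeries.coeff_mul]
  refine Ideal.sum_mem _ fun q hq => ?_
  have hq' : q.1 + q.2 = x := Finset.HasAntidiagonal.mem_antidiagonal.mp hq
  have hdeg : Finsupp.degree q.1 + Finsupp.degree q.2 = Finsupp.degree x := by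
    rw [← hq', map_add]
  by_cases h1 : Finsupp.degree q.1 = 0
  · have hq0 : q.1 = 0 := (Finsupp.degree_eq_zero_iff q.1).mp h1
    have ha0 : MvPowerSeries.coeff q.1 a ∈ maximalIdeal 𝒪 := by
      rw [hq0, MvPowerSeries.coeff_zero_eq_constantCoeff_apply]
      exact (PS_mem_maximalIdeal_iff a).mp ha
    have hb0 := hb q.2
    have hmul : MvPowerSeries.coeff q.1 a * MvPowerSeries.coeff q.2 b ∈
        maximalIdeal 𝒪 ^ (n - Finsupp.degree q.2 + 1) := by
      rw [pow_succ']
      exact Ideal.mul_mem_mul ha0 hb0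
    exact Ideal.pow_le_pow_right (by omega) hmul
  · exact Ideal.mul_mem_left _ _ (Ideal.pow_le_pow_right (by omega) (hb q.2))

theorem maximalIdeal_pow_le_PSW (n : ℕ) : maximalIdeal (PS 𝒪 d) ^ n ≤ PSW 𝒪 d n := by
  induction n with
  | zero =>
    intro f _ x
    rw [Nat.zero_sub, pow_zero, Ideal.one_eq_top]
    exact Submodule.mem_top
  | succ n ih =>
    rw [pow_succ']
    exact (Ideal.mul_mono_right ih).trans (maximalIdeal_mul_PSW_le 𝒪 d n)

theorem PS_coe_mem_maximalIdeal_pow (n : ℕ) (p : MvPolynomial (Fin d) 𝒪)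
    (hp : ∀ x, MvPolynomial.coeff x p ∈ maximalIdeal 𝒪 ^ n) :
    ((p : MvPolynomial (Fin d) 𝒪) : PS 𝒪 d) ∈ maximalIdeal (PS 𝒪 d) ^ n := by
  rw [MvPolynomial.as_sum p]
  have : (((∑ v ∈ p.support, MvPolynomial.monomial v (MvPolynomial.coeff v p) :
      MvPolynomial (Fin d) 𝒪)) : PS 𝒪 d) =
      ∑ v ∈ p.support, MvPowerSeries.monomial v (MvPolynomial.coeff v p) := by
    rw [← MvPolynomial.coeToMvPowerSeries.ringHom_apply, map_sum]
    refine Finset.sum_congr rfl fun v _ => ?_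
    rw [MvPolynomial.coeToMvPowerSeries.ringHom_apply, MvPolynomial.coe_monomial]
  rw [this]
  refine Ideal.sum_mem _ fun v _ => ?_
  have hmon : (MvPowerSeries.monomial v (MvPolynomial.coeff v p) : PS 𝒪 d) =
      MvPowerSeries.C (MvPolynomial.coeff v p) * MvPowerSeries.monomial v 1 := by
    rw [← MvPowerSeries.monomial_zero_eq_C_apply, MvPowerSeries.monomial_mul_monomial, zero_add,
      mul_one]
  rw [hmon]
  exact Ideal.mul_mem_right _ _ (PS_C_mem_maximalIdeal_pow 𝒪 d (hp v))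

/-- Cofinality: `PSW (d * n + 1 + n) ≤ 𝔪_P ^ n`. -/
theorem PSW_le_maximalIdeal_pow (n : ℕ) :
    PSW 𝒪 d (d * n + 1 + n) ≤ maximalIdeal (PS 𝒪 d) ^ n := by
  intro f hf
  set p : MvPolynomial (Fin d) 𝒪 := MvPowerSeries.truncTotal (d * n + 1) f with hp
  have hsplit : f = (f - (p : PS 𝒪 d)) + (p : PS 𝒪 d) := by ring
  rw [hsplit]
  refine Ideal.add_mem _ ?_ ?_
  · refine Ideal.pow_right_mono (PSvars_le_maximalIdeal 𝒪 d) n (PS_mem_PSvars_pow 𝒪 d n _ ?_)
    intro x hx
    rw [map_sub, MvPolynomial.coeff_coe, hp, MvPowerSeries.coeff_truncTotal _ hx, sub_self]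
  · apply PS_coe_mem_maximalIdeal_pow
    intro x
    rw [hp, MvPowerSeries.coeff_truncTotal_eq_ite]
    split_ifs with hx
    · exact Ideal.pow_le_pow_right (by omega) (hf x)
    · exact zero_mem _

/-- (P2) completeness with respect to the maximal ideal `(𝔪_𝒪, X_1, …, X_d)`. -/
theorem PS_isAdicComplete [IsNoetherianRing 𝒪] [IsAdicComplete (maximalIdeal 𝒪) 𝒪] :
    IsAdicComplete (maximalIdeal (PS 𝒪 d)) (PS 𝒪 d) := by
  have hH : IsHausdorff (maximalIdeal (PS 𝒪 d)) (PS 𝒪 d) := inferInstance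
  have hP : IsPrecomplete (maximalIdeal (PS 𝒪 d)) (PS 𝒪 d) := by
    refine ⟨fun f hf => ?_⟩
    have hf' : ∀ {m n : ℕ}, m ≤ n → f m - f n ∈ maximalIdeal (PS 𝒪 d) ^ m := by
      intro m n hmn
      have := hf hmn
      rwa [SModEq.sub_mem, smul_eq_mul, Ideal.mul_top] at this
    -- coefficientwise limits
    have hex : ∀ x : Fin d →₀ ℕ, ∃ c : 𝒪, ∀ k : ℕ,
        MvPowerSeries.coeff x (f (k + Finsupp.degree x)) - c ∈ maximalIdeal 𝒪 ^ k := by
      intro x
      have hcau : ∀ {m n : ℕ}, m ≤ n →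
          MvPowerSeries.coeff x (f (m + Finsupp.degree x)) ≡
            MvPowerSeries.coeff x (f (n + Finsupp.degree x))
            [SMOD (maximalIdeal 𝒪 ^ m • ⊤ : Submodule 𝒪 𝒪)] := by
        intro m n hmn
        rw [SModEq.sub_mem, smul_eq_mul, Ideal.mul_top, ← map_sub]
        have h1 := maximalIdeal_pow_le_PSW 𝒪 d _
          (hf' (Nat.add_le_add_right hmn (Finsupp.degree x))) x
        simpa using h1
      obtain ⟨c, hc⟩ := IsPrecomplete.prec (I := maximalIdeal 𝒪) (M := 𝒪) inferInstance hcau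
      refine ⟨c, fun k => ?_⟩
      have := hc k
      rwa [SModEq.sub_mem, smul_eq_mul, Ideal.mul_top] at this
    choose c hc using hex
    let L : PS 𝒪 d := fun x => c x
    have hLcoeff : ∀ x, MvPowerSeries.coeff x L = c x := fun x => rfl
    refine ⟨L, fun n => ?_⟩
    rw [SModEq.sub_mem, smul_eq_mul, Ideal.mul_top]
    have hN : n ≤ d * n + 1 + n := by omega
    have h1 : f n - f (d * n + 1 + n) ∈ maximalIdeal (PS 𝒪 d) ^ n := hf' hN
    have h2 : f (d * n + 1 + n) - L ∈ maximalIdeal (PS 𝒪 d) ^ n := by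
      apply PSW_le_maximalIdeal_pow
      intro x
      rw [map_sub, hLcoeff]
      by_cases hx : Finsupp.degree x ≤ d * n + 1 + n
      · have := hc x (d * n + 1 + n - Finsupp.degree x)
        rwa [Nat.sub_add_cancel hx] at this
      · have h0 : d * n + 1 + n - Finsupp.degree x = 0 := by omega
        rw [h0, pow_zero, Ideal.one_eq_top]
        exact Submodule.mem_top
    have : f n - L = (f n - f (d * n + 1 + n)) + (f (d * n + 1 + n) - L) := by ring
    rw [this]
    exact Ideal.add_mem _ h1 h2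
  exact { toIsHausdorff := hH, toIsPrecomplete := hP }

variable {𝒪 d}
variable {B : Type*} [CommRing B] [IsLocalRing B] [Algebra 𝒪 B]

theorem PS_map_aeval_idealOfVars_pow_le (t : Fin d → B) (ht : ∀ i, t i ∈ maximalIdeal B)
    (n : ℕ) {a : MvPolynomial (Fin d) 𝒪} (ha : a ∈ MvPolynomial.idealOfVars (Fin d) 𝒪 ^ n) :
    MvPolynomial.aeval t a ∈ maximalIdeal B ^ n := by
  have h1 : Ideal.map (MvPolynomial.aeval t : MvPolynomial (Fin d) 𝒪 →ₐ[𝒪] B)
      (MvPolynomial.idealOfVars (Fin d) 𝒪) ≤ maximalIdeal B := by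
    rw [MvPolynomial.idealOfVars, Ideal.map_span, Ideal.span_le]
    rintro _ ⟨_, ⟨i, rfl⟩, rfl⟩
    simpa using ht i
  have h2 : Ideal.map (MvPolynomial.aeval t : MvPolynomial (Fin d) 𝒪 →ₐ[𝒪] B)
      (MvPolynomial.idealOfVars (Fin d) 𝒪 ^ n) ≤ maximalIdeal B ^ n := by
    rw [Ideal.map_pow]
    exact Ideal.pow_right_mono h1 n
  exact h2 (Ideal.mem_map_of_mem _ ha)

/-- (P4) evaluation at elements of the maximal ideal of a local `𝒪`-algebra with nilpotent
maximal ideal. -/
theorem PS_exists_eval (hB : ∃ N : ℕ, maximalIdeal B ^ N = ⊥)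
    (t : Fin d → B) (ht : ∀ i, t i ∈ maximalIdeal B) :
    ∃ ev : PS 𝒪 d →ₐ[𝒪] B, (∀ i, ev (MvPowerSeries.X i) = t i) ∧
      (ev.range = Algebra.adjoin 𝒪 (Set.range t)) := by
  obtain ⟨N, hN⟩ := hB
  have hker : ∀ a ∈ MvPolynomial.idealOfVars (Fin d) 𝒪 ^ N,
      (MvPolynomial.aeval t : MvPolynomial (Fin d) 𝒪 →ₐ[𝒪] B) a = 0 := by
    intro a ha
    have := PS_map_aeval_idealOfVars_pow_le t ht N ha
    rwa [hN, Ideal.mem_bot] at this
  let φ : (MvPolynomial (Fin d) 𝒪 ⧸ MvPolynomial.idealOfVars (Fin d) 𝒪 ^ N) →ₐ[𝒪] B :=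
    Ideal.Quotient.liftₐ (MvPolynomial.idealOfVars (Fin d) 𝒪 ^ N) (MvPolynomial.aeval t) hker
  let τ : PS 𝒪 d →ₐ[𝒪] (MvPolynomial (Fin d) 𝒪 ⧸ MvPolynomial.idealOfVars (Fin d) 𝒪 ^ N) :=
    (MvPowerSeries.truncTotalAlgHom (Fin d) 𝒪 N).restrictScalars 𝒪
  have hev : ∀ f : PS 𝒪 d, φ (τ f) = MvPolynomial.aeval t (MvPowerSeries.truncTotal N f) := by
    intro f
    show φ (Ideal.Quotient.mk _ (MvPowerSeries.truncTotal N f)) = _
    exact Ideal.Quotient.liftₐ_apply _ _ _ _
  have hcoe : ∀ q : MvPolynomial (Fin d) 𝒪, φ (τ (q : PS 𝒪 d)) = MvPolynomial.aeval t q := by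
    intro q
    have h1 : τ (q : PS 𝒪 d) = Ideal.Quotient.mk _ q := by
      have := (MvPowerSeries.truncTotalAlgHom (Fin d) 𝒪 N).commutes q
      rw [MvPowerSeries.algebraMap_apply'] at this
      exact this
    rw [h1]
    exact Ideal.Quotient.liftₐ_apply _ _ _ _
  refine ⟨φ.comp τ, fun i => ?_, ?_⟩
  · have := hcoe (MvPolynomial.X i)
    rw [MvPolynomial.coe_X, MvPolynomial.aeval_X] at this
    exact this
  · apply le_antisymm
    · rintro _ ⟨f, rfl⟩
      show φ (τ f) ∈ _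
      rw [hev, Algebra.adjoin_range_eq_range_aeval]
      exact ⟨_, rfl⟩
    · rw [Algebra.adjoin_le_iff]
      rintro _ ⟨i, rfl⟩
      refine ⟨MvPowerSeries.X i, ?_⟩
      have := hcoe (MvPolynomial.X i)
      rw [MvPolynomial.coe_X, MvPolynomial.aeval_X] at this
      exact this

theorem PS_algHom_map_PSvars_pow (f : PS 𝒪 d →ₐ[𝒪] B)
    (hf : ∀ i, f (MvPowerSeries.X i) ∈ maximalIdeal B) (n : ℕ) {g : PS 𝒪 d}
    (hg : g ∈ PSvars 𝒪 d ^ n) : f g ∈ maximalIdeal B ^ n := by
  have h1 : Ideal.map f (PSvars 𝒪 d) ≤ maximalIdeal B := by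
    rw [PSvars, Ideal.map_span, Ideal.span_le]
    rintro _ ⟨_, ⟨i, rfl⟩, rfl⟩
    exact hf i
  have h2 : Ideal.map f (PSvars 𝒪 d ^ n) ≤ maximalIdeal B ^ n := by
    rw [Ideal.map_pow]
    exact Ideal.pow_right_mono h1 n
  exact h2 (Ideal.mem_map_of_mem _ hg)

theorem PS_algHom_sub_mem (f g : PS 𝒪 d →ₐ[𝒪] B)
    (hf : ∀ i, f (MvPowerSeries.X i) ∈ maximalIdeal B)
    (h : ∀ i, f (MvPowerSeries.X i) = g (MvPowerSeries.X i)) (p : PS 𝒪 d) (n : ℕ) :
    f p - g p ∈ maximalIdeal B ^ n := by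
  have hg : ∀ i, g (MvPowerSeries.X i) ∈ maximalIdeal B := fun i => h i ▸ hf i
  set q : MvPolynomial (Fin d) 𝒪 := MvPowerSeries.truncTotal (d * n + 1) p with hq
  have htail : p - (q : PS 𝒪 d) ∈ PSvars 𝒪 d ^ n := by
    refine PS_mem_PSvars_pow 𝒪 d n _ fun x hx => ?_
    rw [map_sub, MvPolynomial.coeff_coe, hq, MvPowerSeries.coeff_truncTotal _ hx, sub_self]
  have hpoly : f (q : PS 𝒪 d) = g (q : PS 𝒪 d) := by
    have : f.comp (MvPolynomial.coeToMvPowerSeries.algHom (σ := Fin d) (R := 𝒪) 𝒪) =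
        g.comp (MvPolynomial.coeToMvPowerSeries.algHom (σ := Fin d) (R := 𝒪) 𝒪) := by
      apply MvPolynomial.algHom_ext
      intro i
      simp only [AlgHom.comp_apply, MvPolynomial.coeToMvPowerSeries.algHom_apply,
        MvPolynomial.coe_X, MvPowerSeries.map_id, RingHom.id_apply, Algebra.algebraMap_self]
      exact h i
    have := congrArg (fun F => F q) this
    simpa [MvPolynomial.coeToMvPowerSeries.algHom_apply] using this
  have hsplit : f p - g p = f (p - (q : PS 𝒪 d)) - g (p - (q : PS 𝒪 d)) := by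
    rw [map_sub, map_sub, hpoly]
    ring
  rw [hsplit]
  exact Ideal.sub_mem _ (PS_algHom_map_PSvars_pow f hf n htail)
    (PS_algHom_map_PSvars_pow g hg n htail)

/-- (P5) uniqueness: an `𝒪`-algebra hom out of `P` into a local ring with nilpotent maximal
ideal is determined by the images of the variables. -/
theorem PS_algHom_ext (hB : ∃ N : ℕ, maximalIdeal B ^ N = ⊥)
    (f g : PS 𝒪 d →ₐ[𝒪] B) (hf : ∀ i, f (MvPowerSeries.X i) ∈ maximalIdeal B)
    (h : ∀ i, f (MvPowerSeries.X i) = g (MvPowerSeries.X i)) : f = g := by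
  obtain ⟨N, hN⟩ := hB
  ext p
  have := PS_algHom_sub_mem f g hf h p N
  rw [hN, Ideal.mem_bot, sub_eq_zero] at this
  exact this

/-- (P5') same for a Hausdorff target. -/
theorem PS_algHom_ext_of_isHausdorff [IsHausdorff (maximalIdeal B) B]
    (f g : PS 𝒪 d →ₐ[𝒪] B) (hf : ∀ i, f (MvPowerSeries.X i) ∈ maximalIdeal B)
    (h : ∀ i, f (MvPowerSeries.X i) = g (MvPowerSeries.X i)) : f = g := by
  ext p
  rw [← sub_eq_zero]
  apply IsHausdorff.haus (I := maximalIdeal B) inferInstance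
  intro n
  rw [SModEq.zero, smul_eq_mul, Ideal.mul_top]
  exact PS_algHom_sub_mem f g hf h p n

end PS

end Fermat.Agent.S53
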