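import Fermat.Agent.S53.DLift2
import Fermat.Agent.S53.PSLib
import Fermat.Agent.S53.H4Burnside
import Fermat.Agent.S53.Compact

/-!
# The setup for the construction of the universal deformation ring
-/

set_option autoImplicit false
set_option linter.unusedSectionVars false

namespace Fermat.Agent.S53

open IsLocalRing

noncomputable section

section Setup

variable (𝒪 : Type) [CommRing 𝒪] [IsLocalRing 𝒪]
variable (ρbar : ResidualGaloisRep (ResidueField 𝒪))
variable (𝒟 : ∀ ⦃A : Type⦄ [CommRing A] [IsLocalRing A] [Algebra 𝒪 A], GaloisRepAdic A → Prop)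

/-- The fixed data of the construction: a basis, four Galois elements with invertible Gram
matrix, finitely many Galois elements `h i` whose traces generate the trace algebra of every
finite `𝒟`-lift, and lifts `τ i` of the residual traces at the `h i`. -/
structure Setup where
  bb : Module.Basis (Fin 2) (ResidueField 𝒪) ρbar.V
  g : Fin 4 → Gal
  hg : (gram (fun i => rbar ρbar bb (g i))).det ≠ 0
  d : ℕ
  h : Fin d → Gal
  τ : Fin d → 𝒪
  hτ : ∀ i, residue 𝒪 (τ i) = Matrix.trace (rbar ρbar bb (h i))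
  h𝒟 : GaloisRep.IsDeformationCondition 𝒪 𝒟
  hbar : 𝒟 (GaloisRepAdic.ofResidualGaloisRep ρbar)
  gen : ∀ (A : Type) [CommRing A] [IsLocalRing A] [Algebra 𝒪 A] [TestAlg 𝒪 A] [Finite A]
    (r : Gal →* M2 A), IsDLift ρbar bb 𝒟 r →
      ∀ σ, Matrix.trace (r σ) ∈ Algebra.adjoin 𝒪 (Set.range fun i => Matrix.trace (r (h i)))

variable {𝒪 ρbar 𝒟}

instance instTestAlgPS (d : ℕ) : TestAlg 𝒪 (PS 𝒪 d) :=
  ⟨PS_isLocalHom_algebraMap 𝒪 d, PS_residue_surjective 𝒪 d⟩

variable (S : Setup 𝒪 ρbar 𝒟)

/-- The ambient power series ring `𝒪⟦X₁,…,X_d⟧`. -/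
abbrev Setup.P : Type := PS 𝒪 S.d

/-- The elements `tr r(h i) - τ i`, the images of the variables. -/
def Setup.t {A : Type} [CommRing A] [Algebra 𝒪 A] (r : Gal →* M2 A) (i : Fin S.d) : A :=
  Matrix.trace (r (S.h i)) - algebraMap 𝒪 A (S.τ i)

/-- A finite test algebra with a `𝒟`-lift. -/
structure LiftDatum where
  A : Type
  [instCommRing : CommRing A]
  [instIsLocalRing : IsLocalRing A]
  [instAlgebra : Algebra 𝒪 A]
  [instTestAlg : TestAlg 𝒪 A]
  [instFinite : Finite A]
  r : Gal →* M2 A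
  isL : IsDLift ρbar S.bb 𝒟 r

attribute [instance] LiftDatum.instCommRing LiftDatum.instIsLocalRing LiftDatum.instAlgebra
  LiftDatum.instTestAlg LiftDatum.instFinite

/-- The family of kernels of the classifying maps `P → A`, `X i ↦ tr r(h i) - τ i`. -/
def Setup.fam : Set (Ideal S.P) :=
  {I | ∃ (D : LiftDatum S) (ev : S.P →ₐ[𝒪] D.A),
    (∀ i, ev (MvPowerSeries.X i) = S.t D.r i) ∧ RingHom.ker (ev : S.P →+* D.A) = I}

/-- The ideal defining the universal deformation ring. -/
def Setup.J : Ideal S.P := sInf S.fam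

/-- The universal deformation ring. -/
abbrev Setup.R : Type := S.P ⧸ S.J

end Setup

end

end Fermat.Agent.S53
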