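import Fermat.Agent.S53.Gram

set_option autoImplicit false

namespace Fermat.Agent.S53

open Matrix

section SkolemNoether

variable {A : Type*} [CommRing A] [IsLocalRing A]

/-- Skolem–Noether for `M₂(A)`, `A` a commutative local ring: every `A`-algebra endomorphism of
the 2x2 matrix algebra is conjugation by an invertible matrix. -/
theorem skolem_noether_two (α : Matrix (Fin 2) (Fin 2) A →ₐ[A] Matrix (Fin 2) (Fin 2) A) :
    ∃ u : Matrix (Fin 2) (Fin 2) A, IsUnit u ∧ ∀ m, α m * u = u * m := by
  classical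
  set e₁ := α (Matrix.single 0 0 1) with he₁
  set e₂ := α (Matrix.single 1 1 1) with he₂
  set f := α (Matrix.single 1 0 1) with hf
  set f' := α (Matrix.single 0 1 1) with hf'
  have mul_rel : ∀ (a b c d : Fin 2),
      α (Matrix.single a b 1) * α (Matrix.single c d 1) =
        if b = c then α (Matrix.single a d 1) else 0 := by
    intro a b c d
    rw [← map_mul]
    split_ifs with h
    · subst h; rw [Matrix.single_mul_single_same, mul_one]
    · rw [Matrix.single_mul_single_of_ne _ _ _ _ h, map_zero]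
  have h_sum : e₁ + e₂ = 1 := by
    rw [he₁, he₂, ← map_add, ← map_one α]
    congr 1
    ext i j
    fin_cases i <;> fin_cases j <;> simp [Matrix.single, Matrix.one_apply]
  -- some entry of e₁ is a unit
  have hunit : ∃ i j, IsUnit (e₁ i j) := by
    by_contra hcon
    push_neg at hcon
    have hm : ∀ i j, e₁ i j ∈ IsLocalRing.maximalIdeal A := fun i j =>
      (IsLocalRing.mem_maximalIdeal _).2 (hcon i j)
    have he₂' : e₂ = f * e₁ * f' := by
      rw [hf, he₁, hf', he₂, mul_rel, if_pos rfl, mul_rel, if_pos rfl]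
    have hm2 : ∀ i j, e₂ i j ∈ IsLocalRing.maximalIdeal A := by
      intro i j
      rw [he₂']
      simp only [Matrix.mul_apply, Fin.sum_univ_two]
      refine Ideal.add_mem _ (Ideal.mul_mem_right _ _ (Ideal.add_mem _ ?_ ?_))
        (Ideal.mul_mem_right _ _ (Ideal.add_mem _ ?_ ?_)) <;>
      exact Ideal.mul_mem_left _ _ (hm _ _)
    have h1 : (1 : A) ∈ IsLocalRing.maximalIdeal A := by
      have := congrFun (congrFun h_sum 0) 0
      simp only [Matrix.add_apply, Matrix.one_apply_eq] at this
      rw [← this]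
      exact Ideal.add_mem _ (hm 0 0) (hm2 0 0)
    exact (IsLocalRing.maximalIdeal.isMaximal A).ne_top ((Ideal.eq_top_iff_one _).2 h1)
  obtain ⟨i, j, hij⟩ := hunit
  set u : Matrix (Fin 2) (Fin 2) A :=
    e₁ * Matrix.single j 0 1 + f * e₁ * Matrix.single j 1 1 with hu
  set u' : Matrix (Fin 2) (Fin 2) A :=
    Matrix.single 0 i 1 * e₁ + Matrix.single 1 i 1 * e₁ * f' with hu'
  have r11 : e₁ * e₁ = e₁ := by rw [he₁, mul_rel, if_pos rfl]
  have r1f : e₁ * f = 0 := by rw [he₁, hf, mul_rel, if_neg (by decide)]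
  have rf'1 : f' * e₁ = 0 := by rw [he₁, hf', mul_rel, if_neg (by decide)]
  have rf'f : f' * f = e₁ := by rw [hf, hf', mul_rel, if_pos rfl]
  have rff : f * f = 0 := by rw [hf, mul_rel, if_neg (by decide)]
  have r21 : e₂ * e₁ = 0 := by rw [he₁, he₂, mul_rel, if_neg (by decide)]
  have r2f : e₂ * f = f := by rw [he₂, hf, mul_rel, if_pos rfl]
  have rf1 : f * e₁ = f := by rw [he₁, hf, mul_rel, if_pos rfl]
  have hu'u : u' * u = e₁ i j • (1 : Matrix (Fin 2) (Fin 2) A) := by
    have key : ∀ a c : Fin 2, Matrix.single a i (1 : A) * e₁ * Matrix.single j c 1 =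
        Matrix.single a c (e₁ i j) := by
      intro a c
      rw [Matrix.single_mul_mul_single]
      simp
    have e1 : u' * u = Matrix.single 0 i 1 * e₁ * Matrix.single j 0 1
        + Matrix.single 1 i 1 * e₁ * Matrix.single j 1 1 := by
      rw [hu, hu']
      have t1 : Matrix.single 0 i 1 * e₁ * (e₁ * Matrix.single j 0 1) =
          Matrix.single 0 i 1 * e₁ * Matrix.single j 0 1 := by
        rw [← mul_assoc, mul_assoc (Matrix.single 0 i 1), r11]
      have t2 : Matrix.single 0 i 1 * e₁ * (f * e₁ * Matrix.single j 1 1) = 0 := by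
        rw [← mul_assoc, ← mul_assoc, mul_assoc (Matrix.single 0 i 1) e₁ f, r1f]
        simp
      have t3 : Matrix.single 1 i 1 * e₁ * f' * (e₁ * Matrix.single j 0 1) = 0 := by
        rw [← mul_assoc, mul_assoc (Matrix.single 1 i 1 * e₁) f' e₁, rf'1]
        simp
      have t4 : Matrix.single 1 i 1 * e₁ * f' * (f * e₁ * Matrix.single j 1 1) =
          Matrix.single 1 i 1 * e₁ * Matrix.single j 1 1 := by
        rw [← mul_assoc, ← mul_assoc, mul_assoc (Matrix.single 1 i 1 * e₁) f' f, rf'f,
          mul_assoc (Matrix.single 1 i 1), r11, mul_assoc (Matrix.single 1 i 1), r11]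
      rw [add_mul, mul_add, mul_add, t1, t2, t3, t4, add_zero, zero_add]
    rw [e1, key, key]
    ext a c
    fin_cases a <;> fin_cases c <;> simp [Matrix.single, Matrix.one_apply]
  have hdet : IsUnit u.det := by
    have h1 : u'.det * u.det = (e₁ i j) ^ 2 := by
      rw [← Matrix.det_mul, hu'u, Matrix.det_smul, Matrix.det_one, mul_one, Fintype.card_fin]
    exact isUnit_of_mul_isUnit_right (h1 ▸ hij.pow 2)
  refine ⟨u, (Matrix.isUnit_iff_isUnit_det u).2 hdet, ?_⟩
  -- the intertwining relation on the standard basis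
  have hE : ∀ a c : Fin 2, α (Matrix.single a c 1) * u = u * Matrix.single a c 1 := by
    intro a c
    rw [hu, mul_add, add_mul, ← mul_assoc, ← mul_assoc, ← mul_assoc, mul_assoc _ _ (Matrix.single a c 1),
      mul_assoc _ _ (Matrix.single a c 1)]
    fin_cases a <;> fin_cases c
    · -- E00
      show e₁ * e₁ * _ + e₁ * f * e₁ * _ = _
      rw [r11, r1f]
      simp [Matrix.single_mul_single_same, Matrix.single_mul_single_of_ne]
    · -- E01
      show f' * e₁ * _ + f' * f * e₁ * _ = _
      rw [rf'1, rf'f, r11]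
      simp [Matrix.single_mul_single_same, Matrix.single_mul_single_of_ne]
    · -- E10
      show f * e₁ * _ + f * f * e₁ * _ = _
      rw [rff]
      simp [Matrix.single_mul_single_same, Matrix.single_mul_single_of_ne]
    · -- E11
      show e₂ * e₁ * _ + e₂ * f * e₁ * _ = _
      rw [r21, r2f]
      simp [Matrix.single_mul_single_same, Matrix.single_mul_single_of_ne]
  intro m
  have hm : m = ∑ a, ∑ c, m a c • Matrix.single a c (1 : A) := by
    conv_lhs => rw [Matrix.matrix_eq_sum_single m]
    refine Finset.sum_congr rfl fun a _ => Finset.sum_congr rfl fun c _ => ?_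
    rw [Matrix.smul_single, smul_eq_mul, mul_one]
  rw [hm]
  simp only [map_sum, map_smul, Finset.sum_mul, Finset.mul_sum, Matrix.smul_mul, Matrix.mul_smul,
    hE]

end SkolemNoether

end Fermat.Agent.S53
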