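import Fermat.Agent.S53.Dict3
import Fermat.Agent.S53.Conj

/-!
# Test algebras: local `𝒪`-algebras with residue field `k = 𝒪/𝔪`
-/

set_option autoImplicit false
set_option linter.unusedSectionVars false

namespace Fermat.Agent.S53

open IsLocalRing

section TestAlg

variable (𝒪 : Type) [CommRing 𝒪] [IsLocalRing 𝒪]

/-- A local `𝒪`-algebra whose structure map is local and induces a surjection on residue
fields. -/
class TestAlg (A : Type) [CommRing A] [IsLocalRing A] [Algebra 𝒪 A] : Prop where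
  isLocalHom : IsLocalHom (algebraMap 𝒪 A)
  residue_surjective : Function.Surjective (residue A ∘ algebraMap 𝒪 A)

attribute [instance] TestAlg.isLocalHom

variable {𝒪}
variable {A : Type} [CommRing A] [IsLocalRing A] [Algebra 𝒪 A] [TestAlg 𝒪 A]
variable {B : Type} [CommRing B] [IsLocalRing B] [Algebra 𝒪 B] [TestAlg 𝒪 B]

lemma exists_sub_mem (a : A) : ∃ c : 𝒪, a - algebraMap 𝒪 A c ∈ maximalIdeal A := by
  obtain ⟨c, hc⟩ := TestAlg.residue_surjective (𝒪 := 𝒪) (residue A a)
  refine ⟨c, ?_⟩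
  rw [← residue_eq_zero_iff, map_sub, sub_eq_zero]
  exact hc.symm

variable (𝒪 A) in
lemma resMap_bijective : Function.Bijective (ResidueField.map (algebraMap 𝒪 A)) := by
  refine ⟨(ResidueField.map (algebraMap 𝒪 A)).injective, fun x => ?_⟩
  obtain ⟨a, rfl⟩ := residue_surjective x
  obtain ⟨c, hc⟩ := TestAlg.residue_surjective (𝒪 := 𝒪) (residue A a)
  exact ⟨residue 𝒪 c, by rw [ResidueField.map_residue]; exact hc⟩

variable (𝒪 A) in
/-- The identification of residue fields. -/
noncomputable def resEquiv : ResidueField 𝒪 ≃+* ResidueField A :=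
  RingEquiv.ofBijective (ResidueField.map (algebraMap 𝒪 A)) (resMap_bijective 𝒪 A)

variable (𝒪 A) in
/-- Reduction to the residue field `k` of `𝒪`, as an `𝒪`-algebra homomorphism. -/
noncomputable def toK : A →ₐ[𝒪] ResidueField 𝒪 :=
  { ((resEquiv 𝒪 A).symm : ResidueField A →+* ResidueField 𝒪).comp (residue A) with
    commutes' := fun c => by
      show (resEquiv 𝒪 A).symm (residue A (algebraMap 𝒪 A c)) = algebraMap 𝒪 (ResidueField 𝒪) c
      rw [RingEquiv.symm_apply_eq]
      show _ = ResidueField.map (algebraMap 𝒪 A) (residue 𝒪 c)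
      rw [ResidueField.map_residue] }

lemma toK_apply (a : A) : toK 𝒪 A a = (resEquiv 𝒪 A).symm (residue A a) := rfl

lemma resMap_toK (a : A) : ResidueField.map (algebraMap 𝒪 A) (toK 𝒪 A a) = residue A a :=
  (resEquiv 𝒪 A).apply_symm_apply _

lemma toK_eq_iff (a : A) (x : ResidueField 𝒪) :
    toK 𝒪 A a = x ↔ residue A a = ResidueField.map (algebraMap 𝒪 A) x := by
  rw [toK_apply, RingEquiv.symm_apply_eq]
  rfl

lemma toK_eq_zero_iff (a : A) : toK 𝒪 A a = 0 ↔ a ∈ maximalIdeal A := by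
  rw [toK_eq_iff, map_zero, residue_eq_zero_iff]

lemma toK_ne_zero_iff (a : A) : toK 𝒪 A a ≠ 0 ↔ IsUnit a := by
  rw [Ne, toK_eq_zero_iff, mem_maximalIdeal, mem_nonunits_iff, not_not]

lemma toK_surjective : Function.Surjective (toK 𝒪 A) := fun x =>
  ⟨algebraMap 𝒪 A (residue_surjective x).choose, by
    rw [AlgHom.commutes, ResidueField.algebraMap_eq]
    exact (residue_surjective x).choose_spec⟩

/-- Any `𝒪`-algebra map to `k` is the reduction map. -/
lemma algHom_eq_toK (ψ : A →ₐ[𝒪] ResidueField 𝒪) : ψ = toK 𝒪 A := by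
  have hker : ∀ a ∈ maximalIdeal A, ψ a = 0 := by
    intro a ha
    by_contra h
    have hu : IsUnit (ψ a) := isUnit_iff_ne_zero.mpr h
    -- 1 + multiples of a are units; derive a contradiction from ψ a ≠ 0
    obtain ⟨c, hc⟩ := residue_surjective (R := 𝒪) (ψ a)
    have h1 : ψ (a - algebraMap 𝒪 A c) = 0 := by
      rw [map_sub, AlgHom.commutes, ResidueField.algebraMap_eq, hc, sub_self]
    have hcu : IsUnit c := by
      by_contra hcn
      have : residue 𝒪 c = 0 := (residue_eq_zero_iff c).mpr hcn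
      rw [this] at hc
      exact h hc.symm
    have h2 : IsUnit (a - algebraMap 𝒪 A c) := by
      have h3 : IsUnit (algebraMap 𝒪 A c) := hcu.map _
      have h4 : IsUnit (a - algebraMap 𝒪 A c + -a) := by
        have e : a - algebraMap 𝒪 A c + -a = -(algebraMap 𝒪 A c) := by ring
        rw [e]
        exact h3.neg
      exact (IsLocalRing.isUnit_or_isUnit_of_isUnit_add h4).resolve_right
        (by rw [IsUnit.neg_iff]; exact ha)
    have := h2.map ψ
    rw [h1] at this
    exact not_isUnit_zero this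
  ext a
  obtain ⟨c, hc⟩ := exists_sub_mem (𝒪 := 𝒪) a
  have e1 := hker _ hc
  have e2 := (toK_eq_zero_iff (𝒪 := 𝒪) _).mpr hc
  rw [map_sub, sub_eq_zero, AlgHom.commutes] at e1 e2
  rw [e1, e2]

lemma toK_comp (φ : A →ₐ[𝒪] B) (a : A) : toK 𝒪 B (φ a) = toK 𝒪 A a :=
  congrArg (fun f : A →ₐ[𝒪] ResidueField 𝒪 => f a) (algHom_eq_toK ((toK 𝒪 B).comp φ))

/-- Every `𝒪`-algebra hom between test algebras is local. -/
lemma isLocalHom_algHom (φ : A →ₐ[𝒪] B) : IsLocalHom (φ : A →+* B) := by
  refine ⟨fun a ha => ?_⟩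
  rw [← toK_ne_zero_iff (𝒪 := 𝒪)] at ha ⊢
  rwa [← toK_comp φ]

lemma algHom_mem_maximalIdeal_iff (φ : A →ₐ[𝒪] B) (a : A) :
    φ a ∈ maximalIdeal B ↔ a ∈ maximalIdeal A := by
  rw [← toK_eq_zero_iff (𝒪 := 𝒪), ← toK_eq_zero_iff (𝒪 := 𝒪), toK_comp]

/-- A finite test algebra is an Artinian test algebra in the sense of the prelude. -/
lemma isArtinianTest [Finite A] : GaloisRep.IsArtinianTestAlgebra 𝒪 A :=
  ⟨inferInstance, TestAlg.residue_surjective, inferInstance⟩

instance instTestAlgResidueField : TestAlg 𝒪 (ResidueField 𝒪) where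
  isLocalHom := by
    rw [ResidueField.algebraMap_eq]
    infer_instance
  residue_surjective := by
    intro x
    obtain ⟨y, rfl⟩ := residue_surjective x
    obtain ⟨c, rfl⟩ := residue_surjective y
    exact ⟨c, by simp [ResidueField.algebraMap_eq]⟩

end TestAlg

end Fermat.Agent.S53
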