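import Fermat.Agent.S53.Test

/-!
# Constructions of test algebras: subalgebras of finite rings, quotients, fibre products
-/

set_option autoImplicit false
set_option linter.unusedSectionVars false

namespace Fermat.Agent.S53

open IsLocalRing

section FiniteUnits

variable {𝒪 : Type} [CommRing 𝒪] {E : Type} [CommRing E] [Algebra 𝒪 E] [Finite E]

/-- In a subalgebra of a finite ring, units are detected in the ambient ring. -/
lemma isUnit_subalgebra_iff (T : Subalgebra 𝒪 E) (x : T) : IsUnit x ↔ IsUnit (x : E) := by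
  constructor
  · intro h
    exact h.map T.val
  · rintro ⟨u, hu⟩
    have hpos : 0 < orderOf u := orderOf_pos u
    have h1 : u ^ orderOf u = 1 := pow_orderOf_eq_one u
    have h2 : (x : E) ^ orderOf u = 1 := by
      rw [← hu, ← Units.val_pow_eq_pow_val, h1, Units.val_one]
    refine IsUnit.of_mul_eq_one (x ^ (orderOf u - 1)) ?_
    apply Subtype.ext
    push_cast
    rw [← pow_succ', Nat.sub_add_cancel hpos, h2]

end FiniteUnits

section Sub

variable {𝒪 : Type} [CommRing 𝒪] [IsLocalRing 𝒪]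
variable {A : Type} [CommRing A] [IsLocalRing A] [Algebra 𝒪 A] [TestAlg 𝒪 A] [Finite A]

instance instIsLocalRingSubalgebra (T : Subalgebra 𝒪 A) : IsLocalRing T :=
  IsLocalRing.of_nonunits_add fun a b ha hb => by
    rw [mem_nonunits_iff, isUnit_subalgebra_iff] at ha hb ⊢
    have := IsLocalRing.nonunits_add (a := (a : A)) (b := (b : A)) ha hb
    simpa using this

lemma subalgebra_mem_maximalIdeal_iff (T : Subalgebra 𝒪 A) (x : T) :
    x ∈ maximalIdeal T ↔ (x : A) ∈ maximalIdeal A := by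
  rw [mem_maximalIdeal, mem_maximalIdeal, mem_nonunits_iff, mem_nonunits_iff,
    isUnit_subalgebra_iff]

instance instTestAlgSubalgebra (T : Subalgebra 𝒪 A) : TestAlg 𝒪 T where
  isLocalHom := ⟨fun c hc => by
    have h1 : IsUnit ((algebraMap 𝒪 T c : T) : A) := (isUnit_subalgebra_iff T _).mp hc
    exact isUnit_of_map_unit (algebraMap 𝒪 A) c h1⟩
  residue_surjective := by
    intro y
    obtain ⟨x, rfl⟩ := residue_surjective y
    obtain ⟨c, hc⟩ := exists_sub_mem (𝒪 := 𝒪) (x : A)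
    refine ⟨c, ?_⟩
    show residue T (algebraMap 𝒪 T c) = residue T x
    rw [eq_comm, ← sub_eq_zero, ← map_sub, residue_eq_zero_iff, subalgebra_mem_maximalIdeal_iff]
    exact hc

end Sub

section Quot

variable {𝒪 : Type} [CommRing 𝒪] [IsLocalRing 𝒪]
variable {A : Type} [CommRing A] [IsLocalRing A] [Algebra 𝒪 A] [TestAlg 𝒪 A]

instance instIsLocalRingQuot (I : Ideal A) [Nontrivial (A ⧸ I)] : IsLocalRing (A ⧸ I) :=
  IsLocalRing.of_surjective' (Ideal.Quotient.mk I) Ideal.Quotient.mk_surjective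

instance instIsLocalHomQuotMk (I : Ideal A) [Nontrivial (A ⧸ I)] :
    IsLocalHom (Ideal.Quotient.mk I) :=
  IsLocalHom.of_surjective (Ideal.Quotient.mk I) Ideal.Quotient.mk_surjective

lemma quot_mk_mem_maximalIdeal_iff (I : Ideal A) [Nontrivial (A ⧸ I)] (a : A) :
    Ideal.Quotient.mk I a ∈ maximalIdeal (A ⧸ I) ↔ a ∈ maximalIdeal A := by
  rw [mem_maximalIdeal, mem_maximalIdeal, mem_nonunits_iff, mem_nonunits_iff]
  exact not_congr ⟨fun h => isUnit_of_map_unit (Ideal.Quotient.mk I) a h, fun h => h.map _⟩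

instance instTestAlgQuot (I : Ideal A) [Nontrivial (A ⧸ I)] : TestAlg 𝒪 (A ⧸ I) where
  isLocalHom := ⟨fun c hc => by
    have h1 : IsUnit (Ideal.Quotient.mk I (algebraMap 𝒪 A c)) := hc
    exact isUnit_of_map_unit (algebraMap 𝒪 A) c (isUnit_of_map_unit (Ideal.Quotient.mk I) _ h1)⟩
  residue_surjective := by
    intro y
    obtain ⟨x, rfl⟩ := residue_surjective y
    obtain ⟨a, rfl⟩ := Ideal.Quotient.mk_surjective x
    obtain ⟨c, hc⟩ := exists_sub_mem (𝒪 := 𝒪) a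
    refine ⟨c, ?_⟩
    show residue (A ⧸ I) (Ideal.Quotient.mk I (algebraMap 𝒪 A c)) = _
    rw [eq_comm, ← sub_eq_zero, ← map_sub, ← map_sub, residue_eq_zero_iff,
      quot_mk_mem_maximalIdeal_iff]
    exact hc

end Quot

section Fibre

variable {𝒪 : Type} [CommRing 𝒪] [IsLocalRing 𝒪]
variable (A : Type) [CommRing A] [IsLocalRing A] [Algebra 𝒪 A] [TestAlg 𝒪 A] [Finite A]
variable (B : Type) [CommRing B] [IsLocalRing B] [Algebra 𝒪 B] [TestAlg 𝒪 B] [Finite B]

variable (𝒪) in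
/-- The fibre product `A ×ₖ B` as a subalgebra of `A × B`. -/
noncomputable def fib : Subalgebra 𝒪 (A × B) :=
  AlgHom.equalizer ((toK 𝒪 A).comp (AlgHom.fst 𝒪 A B)) ((toK 𝒪 B).comp (AlgHom.snd 𝒪 A B))

variable {A B}

lemma mem_fib (x : A × B) : x ∈ fib 𝒪 A B ↔ toK 𝒪 A x.1 = toK 𝒪 B x.2 := Iff.rfl

lemma fib_isUnit_iff (x : fib 𝒪 A B) : IsUnit x ↔ IsUnit (x : A × B).1 := by
  rw [isUnit_subalgebra_iff, Prod.isUnit_iff]
  refine ⟨fun h => h.1, fun h => ⟨h, ?_⟩⟩
  rw [← toK_ne_zero_iff (𝒪 := 𝒪)] at h ⊢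
  rwa [← (mem_fib (x : A × B)).mp x.2]

instance instIsLocalRingFib : IsLocalRing (fib 𝒪 A B) :=
  IsLocalRing.of_nonunits_add fun a b ha hb => by
    rw [mem_nonunits_iff, fib_isUnit_iff] at ha hb ⊢
    have := IsLocalRing.nonunits_add (a := (a : A × B).1) (b := (b : A × B).1) ha hb
    simpa using this

lemma fib_mem_maximalIdeal_iff (x : fib 𝒪 A B) :
    x ∈ maximalIdeal (fib 𝒪 A B) ↔ (x : A × B).1 ∈ maximalIdeal A := by
  rw [mem_maximalIdeal, mem_maximalIdeal, mem_nonunits_iff, mem_nonunits_iff, fib_isUnit_iff]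

instance instTestAlgFib : TestAlg 𝒪 (fib 𝒪 A B) where
  isLocalHom := ⟨fun c hc => by
    have h1 : IsUnit ((algebraMap 𝒪 (fib 𝒪 A B) c : fib 𝒪 A B) : A × B).1 :=
      (fib_isUnit_iff _).mp hc
    exact isUnit_of_map_unit (algebraMap 𝒪 A) c h1⟩
  residue_surjective := by
    intro y
    obtain ⟨x, rfl⟩ := residue_surjective y
    obtain ⟨c, hc⟩ := exists_sub_mem (𝒪 := 𝒪) (x : A × B).1
    refine ⟨c, ?_⟩
    show residue _ (algebraMap 𝒪 (fib 𝒪 A B) c) = residue _ x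
    rw [eq_comm, ← sub_eq_zero, ← map_sub, residue_eq_zero_iff, fib_mem_maximalIdeal_iff]
    exact hc

variable (𝒪 A B) in
/-- first projection -/
noncomputable def fibFst : fib 𝒪 A B →ₐ[𝒪] A := (AlgHom.fst 𝒪 A B).comp (fib 𝒪 A B).val

variable (𝒪 A B) in
/-- second projection -/
noncomputable def fibSnd : fib 𝒪 A B →ₐ[𝒪] B := (AlgHom.snd 𝒪 A B).comp (fib 𝒪 A B).val

lemma fibFst_apply (x : fib 𝒪 A B) : fibFst 𝒪 A B x = (x : A × B).1 := rfl
lemma fibSnd_apply (x : fib 𝒪 A B) : fibSnd 𝒪 A B x = (x : A × B).2 := rfl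

lemma fib_comp_eq : (toK 𝒪 A).comp (fibFst 𝒪 A B) = (toK 𝒪 B).comp (fibSnd 𝒪 A B) := by
  ext x
  exact (mem_fib (x : A × B)).mp x.2

lemma fib_injective : Function.Injective (fun x : fib 𝒪 A B => (fibFst 𝒪 A B x, fibSnd 𝒪 A B x)) :=
  fun x y h => Subtype.ext h

lemma fib_exists (a : A) (b : B) (h : toK 𝒪 A a = toK 𝒪 B b) :
    ∃ x : fib 𝒪 A B, fibFst 𝒪 A B x = a ∧ fibSnd 𝒪 A B x = b :=
  ⟨⟨(a, b), h⟩, rfl, rfl⟩

end Fibre

end Fermat.Agent.S53
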