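import Fermat.Agent.S53.Level

/-!
# Auxiliary lemmas for universality (contract E)
-/

set_option autoImplicit false
set_option linter.unusedSectionVars false
set_option linter.style.haveILetI false

namespace Fermat.Agent.S53

open IsLocalRing

noncomputable section

variable {𝒪 : Type} [CommRing 𝒪] [IsLocalRing 𝒪] [IsNoetherianRing 𝒪]
  [IsAdicComplete (maximalIdeal 𝒪) 𝒪] [Finite (ResidueField 𝒪)]
variable {ρbar : ResidualGaloisRep (ResidueField 𝒪)}
variable {𝒟 : ∀ ⦃A : Type⦄ [CommRing A] [IsLocalRing A] [Algebra 𝒪 A], GaloisRepAdic A → Prop}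
variable (S : Setup 𝒪 ρbar 𝒟)

lemma Setup.x_mem (i : Fin S.d) : S.x i ∈ maximalIdeal S.R :=
  (quot_mk_mem_maximalIdeal_iff S.J _).mpr (PS_X_mem_maximalIdeal 𝒪 S.d i)

/-- Maps out of `R` into a test algebra with nilpotent maximal ideal are determined by the
images of the `x i`. -/
lemma Setup.algHom_ext_R {B : Type} [CommRing B] [IsLocalRing B] [Algebra 𝒪 B] [TestAlg 𝒪 B]
    (hB : ∃ N : ℕ, maximalIdeal B ^ N = ⊥) (g₁ g₂ : S.R →ₐ[𝒪] B)
    (h : ∀ i, g₁ (S.x i) = g₂ (S.x i)) : g₁ = g₂ := by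
  have key : g₁.comp (Ideal.Quotient.mkₐ 𝒪 S.J) = g₂.comp (Ideal.Quotient.mkₐ 𝒪 S.J) := by
    apply PS_algHom_ext hB
    · intro i
      exact (algHom_mem_maximalIdeal_iff g₁ _).mpr (S.x_mem i)
    · intro i
      exact h i
  apply AlgHom.ext
  intro y
  obtain ⟨p, rfl⟩ := Ideal.Quotient.mk_surjective y
  exact congrArg (fun f : S.P →ₐ[𝒪] B => f p) key

/-- Same for a Hausdorff target. -/
lemma Setup.algHom_ext_R_hausdorff {B : Type} [CommRing B] [IsLocalRing B] [Algebra 𝒪 B]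
    [TestAlg 𝒪 B] [IsHausdorff (maximalIdeal B) B] (g₁ g₂ : S.R →ₐ[𝒪] B)
    (h : ∀ i, g₁ (S.x i) = g₂ (S.x i)) : g₁ = g₂ := by
  have key : g₁.comp (Ideal.Quotient.mkₐ 𝒪 S.J) = g₂.comp (Ideal.Quotient.mkₐ 𝒪 S.J) := by
    apply PS_algHom_ext_of_isHausdorff
    · intro i
      exact (algHom_mem_maximalIdeal_iff g₁ _).mpr (S.x_mem i)
    · intro i
      exact h i
  apply AlgHom.ext
  intro y
  obtain ⟨p, rfl⟩ := Ideal.Quotient.mk_surjective y
  exact congrArg (fun f : S.P →ₐ[𝒪] B => f p) key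

variable {S}

/-- The push-forward of a universal lift to any finite test algebra is a `𝒟`-lift. -/
lemma Setup.IsUnivLift.isDLift_mapMat {r : Gal →* M2 S.R} (hr : S.IsUnivLift r)
    {B : Type} [CommRing B] [IsLocalRing B] [Algebra 𝒪 B] [TestAlg 𝒪 B] [Finite B]
    (ψ : S.R →ₐ[𝒪] B) : IsDLift (A := B) ρbar S.bb 𝒟 (mapMat (ψ : S.R →+* B) r) := by
  obtain ⟨N, hN⟩ := exists_pow_eq_bot (A := B)
  have hker : ∀ a ∈ maximalIdeal S.R ^ (N + 1), ψ a = 0 := fun a ha =>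
    maximalIdeal_pow_le_ker ψ (N + 1) (by rw [pow_succ, hN]; exact Ideal.bot_mul _) ha
  have h1 := IsDLift.map (A := S.Rn N) (B := B) S.h𝒟
    (Ideal.Quotient.liftₐ (maximalIdeal S.R ^ (N + 1)) ψ hker) (hr.level N)
  have h2 : mapMat (A := S.Rn N) (B := B)
      ((Ideal.Quotient.liftₐ (maximalIdeal S.R ^ (N + 1)) ψ hker : S.Rn N →ₐ[𝒪] B) :
        S.Rn N →+* B) (mapMat (S.toRn N : S.R →+* S.Rn N) r) = mapMat (ψ : S.R →+* B) r := by
    ext σ i j
    rfl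
  rw [h2] at h1
  exact h1

end

end Fermat.Agent.S53
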